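/-
S44lib / Q5 / Lift  (helper2)  — Project LSq, block Q5, part E: the Deligne–Serre lift.

A non-zero sequence `γ : ℕ → k` (`k` a field of characteristic `p`) which is a `k`-linear combination of
reductions of integral weight-2 cusp forms of level `M'` and satisfies the formal weight-2 eigen-equations
`γ (n ℓ) + [ℓ ∣ n] ℓ γ (n / ℓ) = a_ℓ γ n` for the primes `ℓ` of a set `S` (`ℓ ∤ M'`) comes from a
normalised eigenform `g` of level `M'`: there is a maximal ideal `𝔪 ∋ p` of `ℤ̄` with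
`a_ℓ(g) ≡ a_ℓ (mod 𝔪)` for all `ℓ ∈ S`  (`exists_eigenform_of_modP_eigenseries`).

Proof: the polynomial ring `T = ℤ[X_ℓ : ℓ ∈ S]` acts on `S₂(Γ₀(M'))` through the `T_ℓ` and on the
sequences through the formal operators `formalT`; the coefficient map intertwines the two actions on the
integral lattice (`Prelude` `qCoeff_heckeT`), so a polynomial which kills `S₂` kills `γ`, hence its value
at `(a_ℓ)` vanishes modulo `p`; Deligne–Serre lifting (`S41lib/SK/Lift`); then the simultaneous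
eigenspace is stable under the full Hecke algebra and contains a normalised eigenform (`Helper8`,
`S41lib/NEW/Packaging`).
-/
import Mathlib
import Fermat.Agent.S41lib.SK.Family
import Fermat.Agent.S41lib.NEW.Packaging
import Fermat.Agent.Helper8.DeligneSerre
import Fermat.Agent.S22

set_option autoImplicit false
set_option linter.unusedSectionVars false
set_option linter.style.haveILetI false

noncomputable section

namespace Fermat.Agent.S44lib.Q5

open CuspForm ModularFormClass CongruenceSubgroup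

/-! ### the formal weight-2 Hecke operators on coefficient sequences -/

section Formal

variable (R : Type*) [CommRing R]

/-- the formal weight-2 Hecke operator `T_ℓ` on coefficient sequences:
`(T_ℓ c) n = c (n ℓ) + [ℓ ∣ n] ℓ c (n / ℓ)` (the convention of `ModularForm.coeffHeckeT 2 ℓ`) -/
def formalT (ℓ : ℕ) : (ℕ → R) →ₗ[R] (ℕ → R) where
  toFun c := fun n => c (n * ℓ) + if ℓ ∣ n then (ℓ : R) * c (n / ℓ) else 0
  map_add' c c' := by
    funext n
    simp only [Pi.add_apply]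
    split_ifs <;> ring
  map_smul' r c := by
    funext n
    simp only [Pi.smul_apply, smul_eq_mul, RingHom.id_apply]
    split_ifs <;> ring

variable {R}

theorem formalT_apply (ℓ : ℕ) (c : ℕ → R) (n : ℕ) :
    formalT R ℓ c n = c (n * ℓ) + if ℓ ∣ n then (ℓ : R) * c (n / ℓ) else 0 := rfl

/-- the formal operators at coprime indices commute -/
theorem formalT_comm {p q : ℕ} (hpq : Nat.Coprime p q) (a : ℕ → R) :
    formalT R p (formalT R q a) = formalT R q (formalT R p a) := by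
  funext n
  simp only [formalT_apply]
  have hq : q ∣ n * p ↔ q ∣ n := hpq.symm.dvd_mul_right
  have hp : p ∣ n * q ↔ p ∣ n := hpq.dvd_mul_right
  have hpq' : ∀ {m : ℕ}, p ∣ m → (q ∣ m / p ↔ p * q ∣ m) := fun h =>
    Nat.dvd_div_iff_mul_dvd h
  have hqp' : ∀ {m : ℕ}, q ∣ m → (p ∣ m / q ↔ q * p ∣ m) := fun h =>
    Nat.dvd_div_iff_mul_dvd h
  by_cases hpn : p ∣ n <;> by_cases hqn : q ∣ n
  · have hpqn : p * q ∣ n := hpq.mul_dvd_of_dvd_of_dvd hpn hqn
    rw [if_pos (hq.mpr hqn), if_pos hpn, if_pos ((hpq' hpn).mpr hpqn), if_pos (hp.mpr hpn),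
      if_pos hqn, if_pos ((hqp' hqn).mpr (mul_comm p q ▸ hpqn)),
      Nat.mul_right_comm, Nat.div_mul_right_comm hqn, Nat.div_mul_right_comm hpn,
      Nat.div_div_eq_div_mul, Nat.div_div_eq_div_mul, mul_comm q p]
    ring
  · have h1 : ¬ q ∣ n / p := fun h => hqn (Nat.dvd_trans (Nat.dvd_mul_left q p) ((hpq' hpn).mp h))
    rw [if_neg (fun h => hqn (hq.mp h)), if_pos hpn, if_neg h1, if_pos (hp.mpr hpn), if_neg hqn,
      Nat.mul_right_comm, Nat.div_mul_right_comm hpn]
    ring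
  · have h1 : ¬ p ∣ n / q := fun h => hpn (Nat.dvd_trans (Nat.dvd_mul_left p q) ((hqp' hqn).mp h))
    rw [if_pos (hq.mpr hqn), if_neg hpn, if_neg (fun h => hpn (hp.mp h)), if_pos hqn, if_neg h1,
      Nat.mul_right_comm, Nat.div_mul_right_comm hqn]
    ring
  · rw [if_neg (fun h => hqn (hq.mp h)), if_neg hpn, if_neg (fun h => hpn (hp.mp h)), if_neg hqn,
      Nat.mul_right_comm]

theorem formalT_commute {p q : ℕ} (hp : p.Prime) (hq : q.Prime) :
    Commute (formalT R p) (formalT R q) := by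
  by_cases h : p = q
  · subst h
    exact Commute.refl _
  · apply LinearMap.ext
    intro a
    exact formalT_comm ((Nat.coprime_primes hp hq).mpr h) a

/-- the formal operators commute with ring homomorphisms applied coefficientwise -/
theorem formalT_map {R' : Type*} [CommRing R'] (φ : R →+* R') (ℓ : ℕ) (c : ℕ → R) :
    (fun n => φ (formalT R ℓ c n)) = formalT R' ℓ (fun n => φ (c n)) := by
  funext n
  simp only [formalT_apply]
  split_ifs
  · rw [map_add, map_mul, map_natCast]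
  · rw [map_add, map_zero]

end Formal

/-! ### the two actions of the polynomial ring and the bridge -/

section Bridge

open Fermat.Agent.S41lib Fermat.Agent.Helper8

variable {M' : ℕ} [NeZero M'] (k : Type*) [Field k]
variable {S : ℕ → Prop} (hS : ∀ ℓ, S ℓ → ℓ.Prime ∧ ¬ ℓ ∣ M')

/-- the Hecke operators `T_ℓ`, `ℓ ∈ S`, on `S₂(Γ₀(M'))` -/
def tV (i : {ℓ : ℕ // S ℓ}) : Module.End ℂ (CuspForm (Gamma0 M') 2) :=
  heckeTLin 2 (hS i.1 i.2).1 (hS i.1 i.2).2

theorem tV_commute (i j : {ℓ : ℕ // S ℓ}) : Commute (tV hS i) (tV hS j) :=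
  heckeTLin_comm 2 _ _ _ _

/-- the action of `ℤ[X_ℓ : ℓ ∈ S]` on cusp forms -/
def rhoV : MvPolynomial {ℓ : ℕ // S ℓ} ℤ →+* Module.End ℂ (CuspForm (Gamma0 M') 2) :=
  SK.polyHom (tV hS) (tV_commute hS)

theorem rhoV_X (i : {ℓ : ℕ // S ℓ}) : rhoV hS (MvPolynomial.X i) = tV hS i :=
  SK.polyHom_X _ _ i

/-- the formal operators `T_ℓ`, `ℓ ∈ S`, on sequences -/
def tK (i : {ℓ : ℕ // S ℓ}) : Module.End k (ℕ → k) := formalT k i.1

include hS in
theorem tK_commute (i j : {ℓ : ℕ // S ℓ}) : Commute (tK k i) (tK k j) :=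
  formalT_commute (hS i.1 i.2).1 (hS j.1 j.2).1

/-- the action of `ℤ[X_ℓ : ℓ ∈ S]` on sequences -/
def rhoK : MvPolynomial {ℓ : ℕ // S ℓ} ℤ →+* Module.End k (ℕ → k) :=
  SK.polyHom (tK k) (tK_commute k hS)

theorem rhoK_X (i : {ℓ : ℕ // S ℓ}) : rhoK k hS (MvPolynomial.X i) = tK k i :=
  SK.polyHom_X _ _ i

theorem intCast_end_apply' {V : Type*} [AddCommGroup V] [Module k V] (z : ℤ) (c : V) :
    ((z : ℤ) : Module.End k V) c = (z : k) • c := by
  rw [← map_intCast (algebraMap k (Module.End k V)) z, Module.algebraMap_end_apply]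

/-- `c` is the reduction of the (integral) `q`-expansion of `f` -/
def IsRedOf (f : CuspForm (Gamma0 M') 2) (c : ℕ → k) : Prop :=
  ∃ z : ℕ → ℤ, (∀ n, (z n : ℂ) = qCoeff ⇑f n) ∧ ∀ n, c n = (z n : k)

variable {k}

theorem IsRedOf.tV {f : CuspForm (Gamma0 M') 2} {c : ℕ → k} (h : IsRedOf k f c)
    (i : {ℓ : ℕ // S ℓ}) : IsRedOf k (tV hS i f) (formalT k i.1 c) := by
  obtain ⟨z, hz, hc⟩ := h
  refine ⟨formalT ℤ i.1 z, fun n => ?_, fun n => ?_⟩
  · rw [Q5.tV, qCoeff_heckeTLin, ModularForm.coeffHeckeT_apply, formalT_apply, ← hz]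
    have h3 : ((i.1 : ℂ)) ^ ((2 : ℤ) - 1) = (i.1 : ℂ) := by norm_num
    rw [h3]
    split_ifs
    · rw [← hz]; push_cast; ring
    · push_cast; ring
  · have h1 := congrFun (formalT_map (Int.castRingHom k) i.1 z) n
    have h2 : (fun n => (Int.castRingHom k) (z n)) = c := by
      funext m
      rw [hc m]
      rfl
    rw [h2] at h1
    rw [← h1]
    rfl

theorem IsRedOf.rhoV {f : CuspForm (Gamma0 M') 2} {c : ℕ → k} (h : IsRedOf k f c)
    (t : MvPolynomial {ℓ : ℕ // S ℓ} ℤ) : IsRedOf k (rhoV hS t f) (rhoK k hS t c) := by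
  induction t using MvPolynomial.induction_on generalizing f c with
  | C a =>
    obtain ⟨z, hz, hc⟩ := h
    have e : (MvPolynomial.C a : MvPolynomial {ℓ : ℕ // S ℓ} ℤ) = (a : MvPolynomial _ ℤ) :=
      eq_intCast MvPolynomial.C a
    rw [e, map_intCast, map_intCast, intCast_end_apply, intCast_end_apply']
    refine ⟨fun n => a * z n, fun n => ?_, fun n => ?_⟩
    · rw [qCoeff_smul, ← hz]; push_cast; ring
    · rw [Pi.smul_apply, smul_eq_mul, hc]; push_cast; ring
  | add p q hp hq =>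
    obtain ⟨z₁, hz₁, hc₁⟩ := hp h
    obtain ⟨z₂, hz₂, hc₂⟩ := hq h
    rw [map_add, map_add, LinearMap.add_apply, LinearMap.add_apply]
    refine ⟨fun n => z₁ n + z₂ n, fun n => ?_, fun n => ?_⟩
    · rw [qCoeff_add, ← hz₁, ← hz₂]; push_cast; ring
    · rw [Pi.add_apply, hc₁, hc₂]; push_cast; ring
  | mul_X p i hp =>
    rw [map_mul, map_mul, rhoV_X, rhoK_X, Module.End.mul_apply, Module.End.mul_apply]
    exact hp (h.tV hS i)

/-- the eigencharacter of the polynomial ring on an eigen-sequence -/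
def thetaK (k : Type*) [Field k] (a : ℕ → ℤ) (S : ℕ → Prop) :
    MvPolynomial {ℓ : ℕ // S ℓ} ℤ →+* k :=
  MvPolynomial.eval₂Hom (Int.castRingHom k) (fun i => ((a i.1 : ℤ) : k))

theorem rhoK_eigen (a : ℕ → ℤ) {γ : ℕ → k}
    (heig : ∀ i : {ℓ : ℕ // S ℓ}, formalT k i.1 γ = ((a i.1 : ℤ) : k) • γ)
    (t : MvPolynomial {ℓ : ℕ // S ℓ} ℤ) : rhoK k hS t γ = thetaK k a S t • γ := by
  induction t using MvPolynomial.induction_on with
  | C c =>
    have e : (MvPolynomial.C c : MvPolynomial {ℓ : ℕ // S ℓ} ℤ) = (c : MvPolynomial _ ℤ) :=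
      eq_intCast MvPolynomial.C c
    rw [e, map_intCast, map_intCast, intCast_end_apply']
  | add p q hp hq =>
    rw [map_add, map_add, LinearMap.add_apply, hp, hq, add_smul]
  | mul_X p i hp =>
    rw [map_mul, map_mul, rhoK_X, Module.End.mul_apply, Q5.tK, heig i, map_smul, hp, smul_smul]
    congr 1
    rw [thetaK, MvPolynomial.coe_eval₂Hom, MvPolynomial.eval₂_X, mul_comm]

end Bridge

/-! ### the main theorem -/

section Main

open Fermat.Agent.S41lib Fermat.Agent.Helper8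

local notation "Zbar" => integralClosure ℤ ℂ

variable {M' : ℕ} [NeZero M']

/-- every Hecke operator `T_ℓ` is integral over `ℤ` (S22) -/
theorem isIntegral_heckeTLin {ℓ : ℕ} (hℓ : ℓ.Prime) (hℓM : ¬ ℓ ∣ M') :
    IsIntegral ℤ (heckeTLin 2 hℓ hℓM : Module.End ℂ (CuspForm (Gamma0 M') 2)) := by
  haveI : Module.Finite ℤ (HeckeT M') := Fermat.Agent.S22.result M' 2 ∅
  have h1 : IsIntegral ℤ (heckeAlgebra.T hℓ hℓM (Set.notMem_empty ℓ) : HeckeT M') :=
    Algebra.IsIntegral.isIntegral _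
  have h2 := h1.map (Subalgebra.val (heckeAlgebra M' 2 (∅ : Set ℕ)))
  exact h2

/-- **Block E: the Deligne–Serre lift of a mod `p` eigen-series.**  The conclusion is
`S44lib.CongruentTo g 𝔪 a S` (unfolded). -/
theorem exists_eigenform_of_modP_eigenseries (p : ℕ) [Fact p.Prime] {k : Type*} [Field k]
    [CharP k p] (a : ℕ → ℤ) (S : ℕ → Prop) (hS : ∀ ℓ, S ℓ → ℓ.Prime ∧ ¬ ℓ ∣ M')
    (γ : ℕ → k) (hγ0 : γ ≠ 0)
    (hγ : γ ∈ Submodule.span k {c : ℕ → k | ∃ f : CuspForm (Gamma0 M') 2, IsRedOf k f c})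
    (heig : ∀ ℓ, S ℓ → ∀ n, γ (n * ℓ) + (if ℓ ∣ n then (ℓ : k) * γ (n / ℓ) else 0) =
      ((a ℓ : ℤ) : k) * γ n) :
    ∃ (g : CuspForm (Gamma0 M') 2) (𝔪 : Ideal Zbar), g.IsNormalizedEigenform ∧ 𝔪.IsMaximal ∧
      (p : Zbar) ∈ 𝔪 ∧
      ∀ ℓ : ℕ, S ℓ → ∃ b : Zbar, (b : ℂ) = qCoeff ⇑g ℓ ∧ b - ((a ℓ : ℤ) : Zbar) ∈ 𝔪 := by
  classical
  haveI : FiniteDimensional ℂ (CuspForm (Gamma0 M') 2) :=
    Fermat.Agent.ProgramR.ES.finiteDimensional_cuspForm M'
  -- the eigen-equations in operator form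
  have heig' : ∀ i : {ℓ : ℕ // S ℓ}, formalT k i.1 γ = ((a i.1 : ℤ) : k) • γ := by
    intro i
    funext n
    rw [formalT_apply, Pi.smul_apply, smul_eq_mul]
    exact heig i.1 i.2 n
  -- the character modulo `p`
  let θ : MvPolynomial {ℓ : ℕ // S ℓ} ℤ →+* ZMod p :=
    MvPolynomial.eval₂Hom (Int.castRingHom (ZMod p)) (fun i => ((a i.1 : ℤ) : ZMod p))
  have hθk : ∀ t, thetaK k a S t = ZMod.castHom (dvd_refl p) k (θ t) := by
    intro t
    have : thetaK k a S = (ZMod.castHom (dvd_refl p) k).comp θ := by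
      apply MvPolynomial.ringHom_ext
      · intro c
        simp [thetaK, θ]
      · intro i
        simp [thetaK, θ]
    rw [this]
    rfl
  -- the bridge
  have hann : ∀ t : MvPolynomial {ℓ : ℕ // S ℓ} ℤ, rhoV hS t = 0 → θ t = 0 := by
    intro t ht
    have hker : Submodule.span k {c : ℕ → k | ∃ f : CuspForm (Gamma0 M') 2, IsRedOf k f c} ≤
        LinearMap.ker (rhoK k hS t) := by
      apply Submodule.span_le.mpr
      rintro c ⟨f, hf⟩
      obtain ⟨z, hz, hc⟩ := hf.rhoV hS t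
      rw [ht, LinearMap.zero_apply] at hz
      have hz0 : ∀ n, z n = 0 := by
        intro n
        have := hz n
        rw [qCoeff_zero'] at this
        exact_mod_cast this
      show rhoK k hS t c = 0
      funext n
      rw [hc n, hz0 n, Int.cast_zero]
      rfl
    have h1 : rhoK k hS t γ = 0 := hker hγ
    rw [rhoK_eigen hS a heig' t] at h1
    have h2 : thetaK k a S t = 0 := by
      rcases smul_eq_zero.mp h1 with h | h
      · exact h
      · exact absurd h hγ0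
    rw [hθk t] at h2
    exact (map_eq_zero_iff _ (RingHom.injective _)).mp h2
  -- integrality
  have hint : ∀ t : MvPolynomial {ℓ : ℕ // S ℓ} ℤ,
      ∃ P : Polynomial ℤ, P.Monic ∧ Polynomial.aeval (rhoV hS t) P = 0 := by
    intro t
    have h := SK.polyHom_isIntegral (tV hS) (tV_commute hS)
      (fun i => isIntegral_heckeTLin (hS i.1 i.2).1 (hS i.1 i.2).2) t
    obtain ⟨P, hPm, hP⟩ := h
    exact ⟨P, hPm, by rw [Polynomial.aeval_def]; exact hP⟩
  -- Deligne–Serre
  obtain ⟨lam, 𝔪, v, h𝔪, hp𝔪, hlam, hv0, hv⟩ := SK.exists_eigenvector_lift (rhoV hS) θ hint hann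
  -- the simultaneous eigenspace
  let X : Submodule ℂ (CuspForm (Gamma0 M') 2) :=
    { carrier := {f | ∀ i : {ℓ : ℕ // S ℓ},
        tV hS i f = ((lam (MvPolynomial.X i) : Zbar) : ℂ) • f}
      add_mem' := by
        intro f f' hf hf' i
        rw [map_add, hf i, hf' i, smul_add]
      zero_mem' := fun i => by rw [map_zero, smul_zero]
      smul_mem' := by
        intro c f hf i
        rw [map_smul, hf i, smul_comm] }
  have hvX : v ∈ X := fun i => by rw [← rhoV_X hS i]; exact hv _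
  have hX : X ≠ ⊥ := fun h0 => hv0 (by rw [h0] at hvX; exact (Submodule.mem_bot ℂ).mp hvX)
  have hstab : ∀ t : HeckeT M', ∀ f ∈ X, (t : Module.End ℂ (CuspForm (Gamma0 M') 2)) f ∈ X := by
    intro t f hf i
    have hc : heckeAlgebra.T (hS i.1 i.2).1 (hS i.1 i.2).2 (Set.notMem_empty i.1) * t =
        t * heckeAlgebra.T (hS i.1 i.2).1 (hS i.1 i.2).2 (Set.notMem_empty i.1) := mul_comm _ _
    have hc' := congrArg (fun s : HeckeT M' =>
      (s : Module.End ℂ (CuspForm (Gamma0 M') 2)) f) hc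
    simp only [MulMemClass.coe_mul, heckeAlgebra.coe_T, Module.End.mul_apply] at hc'
    show tV hS i ((t : Module.End ℂ (CuspForm (Gamma0 M') 2)) f) = _
    rw [Q5.tV, hc']
    have := hf i
    rw [Q5.tV] at this
    rw [this, map_smul]
  obtain ⟨g, χ, hgX, hg0, hχ⟩ := NEW.exists_eigenvector_of_stable X hX hstab
  obtain ⟨g', hg', hcoef⟩ := exists_normalizedEigenform hg0 χ hχ
  refine ⟨g', 𝔪, hg', h𝔪, hp𝔪, fun ℓ hℓ => ?_⟩
  refine ⟨lam (MvPolynomial.X ⟨ℓ, hℓ⟩), ?_, ?_⟩
  · rw [hcoef ℓ (hS ℓ hℓ).1 (hS ℓ hℓ).2]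
    -- both are the eigenvalue of `T_ℓ` on `g`
    have h1 := hχ (heckeAlgebra.T (hS ℓ hℓ).1 (hS ℓ hℓ).2 (Set.notMem_empty ℓ))
    rw [heckeAlgebra.coe_T] at h1
    have h2 := hgX ⟨ℓ, hℓ⟩
    rw [Q5.tV] at h2
    rw [h1] at h2
    exact (smul_left_injective ℂ hg0 h2).symm
  · refine hlam _ (a ℓ) ?_
    simp [θ]

end Main

end Fermat.Agent.S44lib.Q5
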