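/-
S44lib / Q5 / DerDual (helper3)

A derivation `𝔡` of `L = Frac B` preserving the base ring `A` maps the Dedekind ring `B` (finite,
generically separable over `A`, locally monogenic) into its trace dual `B^∨ = 𝔇⁻¹`:
the derivative description of the different, valid in every characteristic (wild ramification
included).  In characteristic `p`, the logarithmic derivative `𝔡 φ / φ` of a function which is
locally a unit times a `p`-th power also lies in `B^∨`.
-/
import Mathlib
import Fermat.Agent.ProgramR.Alg.TraceDual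

set_option autoImplicit false

noncomputable section

namespace Fermat.Agent.S44lib.Q5

open Polynomial nonZeroDivisors

section Aeval

variable {R₀ A L : Type*} [CommRing R₀] [CommRing A] [Field L] [Algebra A L] [Algebra R₀ L]
  (𝔡 : Derivation R₀ L L)

/-- derivative of a polynomial expression with coefficients in `A`, when `𝔡` preserves `A` -/
theorem exists_der_aeval (h𝔡 : ∀ a : A, 𝔡 (algebraMap A L a) ∈ (algebraMap A L).range) (y : L)
    (g : A[X]) :
    ∃ g₁ : A[X], 𝔡 (aeval y g) = aeval y g₁ + aeval y (derivative g) * 𝔡 y := by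
  induction g using Polynomial.induction_on' with
  | add p q hp hq =>
    obtain ⟨p₁, hp₁⟩ := hp
    obtain ⟨q₁, hq₁⟩ := hq
    refine ⟨p₁ + q₁, ?_⟩
    rw [map_add, map_add, hp₁, hq₁, derivative_add, map_add, map_add]
    ring
  | monomial n a =>
    obtain ⟨a', ha'⟩ := h𝔡 a
    refine ⟨monomial n a', ?_⟩
    rw [aeval_monomial, aeval_monomial, derivative_monomial, aeval_monomial, Derivation.leibniz,
      Derivation.leibniz_pow, ← ha']
    simp only [smul_eq_mul, nsmul_eq_mul, map_mul, map_natCast]
    ring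

end Aeval

section LocalGlobal

variable {B L : Type*} [CommRing B] [Field L] [Algebra B L]

/-- an element of `L` which is integral locally at every maximal ideal of `B` lies in `B` -/
theorem mem_range_of_forall_maximal (x : L)
    (h : ∀ P : Ideal B, P.IsMaximal →
      ∃ s : B, s ∉ P ∧ algebraMap B L s * x ∈ (algebraMap B L).range) :
    x ∈ (algebraMap B L).range := by
  let I : Ideal B :=
    { carrier := {s : B | algebraMap B L s * x ∈ ((algebraMap B L).range : Subring L)}
      add_mem' := by
        intro a b ha hb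
        show algebraMap B L (a + b) * x ∈ ((algebraMap B L).range : Subring L)
        rw [map_add, add_mul]
        exact Subring.add_mem _ ha hb
      zero_mem' := by
        show algebraMap B L 0 * x ∈ ((algebraMap B L).range : Subring L)
        rw [map_zero, zero_mul]
        exact Subring.zero_mem _
      smul_mem' := by
        intro c a ha
        show algebraMap B L (c • a) * x ∈ ((algebraMap B L).range : Subring L)
        rw [smul_eq_mul, map_mul, mul_assoc]
        exact Subring.mul_mem _ ⟨c, rfl⟩ ha }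
  by_contra hx
  have hI : I ≠ ⊤ := by
    intro hI
    apply hx
    have h1 : (1 : B) ∈ I := by rw [hI]; trivial
    have h2 : algebraMap B L 1 * x ∈ (algebraMap B L).range := h1
    rwa [map_one, one_mul] at h2
  obtain ⟨P, hP, hIP⟩ := Ideal.exists_le_maximal I hI
  obtain ⟨s, hs, hsx⟩ := h P hP
  exact hs (hIP hsx)

end LocalGlobal

section Main

variable {R₀ : Type*} [CommRing R₀] (A K L : Type*) {B : Type*} [CommRing A] [Field K]
  [CommRing B] [Field L]
  [Algebra A K] [Algebra B L] [Algebra A B] [Algebra K L] [Algebra A L]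
  [IsScalarTower A K L] [IsScalarTower A B L]
  [IsDedekindDomain A] [IsDedekindDomain B] [IsFractionRing A K] [IsFractionRing B L]
  [Module.IsTorsionFree A B] [Module.Finite A B] [FiniteDimensional K L] [Algebra.IsSeparable K L]
  [Algebra R₀ L] (𝔡 : Derivation R₀ L L)

omit [IsDedekindDomain A] [IsDedekindDomain B] [IsFractionRing A K] [IsFractionRing B L]
  [Module.IsTorsionFree A B] [FiniteDimensional K L] [Algebra.IsSeparable K L]
  [Algebra A K] [Algebra K L] [IsScalarTower A K L] in
/-- if `s • B ⊆ A[y]` then `s · f'(y) · 𝔡 b ∈ B` for every `b ∈ B`, `f` the minimal polynomial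
of `y`. -/
theorem local_mul_der_mem (h𝔡 : ∀ a : A, 𝔡 (algebraMap A L a) ∈ (algebraMap A L).range)
    (y : B) (s : A)
    (hs : ∀ b : B, algebraMap A B s * b ∈ Algebra.adjoin A ({y} : Set B)) (b : B) :
    algebraMap A L s * algebraMap B L (aeval y (derivative (minpoly A y))) *
      𝔡 (algebraMap B L b) ∈ (algebraMap B L).range := by
  have hAy : IsIntegral A y := IsIntegral.of_finite A y
  set f := minpoly A y with hf
  set Y := algebraMap B L y with hY
  have hfY : aeval Y f = 0 := by
    rw [hY, aeval_algebraMap_apply, hf, minpoly.aeval, map_zero]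
  obtain ⟨f₁, hf₁⟩ := exists_der_aeval 𝔡 h𝔡 Y f
  rw [hfY, map_zero] at hf₁
  have hmem := hs b
  rw [Algebra.adjoin_singleton_eq_range_aeval] at hmem
  obtain ⟨g, hg⟩ := hmem
  have hgY : aeval Y g = algebraMap A L s * algebraMap B L b := by
    have h1 : aeval Y g = algebraMap B L (aeval y g) := by rw [hY, aeval_algebraMap_apply]
    have h2 : aeval y g = algebraMap A B s * b := hg
    rw [h1, h2, map_mul, ← IsScalarTower.algebraMap_apply A B L]
  obtain ⟨g₁, hg₁⟩ := exists_der_aeval 𝔡 h𝔡 Y g
  obtain ⟨s', hs'⟩ := h𝔡 s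
  rw [hgY, Derivation.leibniz, ← hs'] at hg₁
  simp only [smul_eq_mul] at hg₁
  refine ⟨aeval y (derivative f) * aeval y g₁ - aeval y (derivative g) * aeval y f₁ -
    aeval y (derivative f) * algebraMap A B s' * b, ?_⟩
  rw [map_sub, map_sub, map_mul, map_mul, map_mul, map_mul, ← aeval_algebraMap_apply,
    ← aeval_algebraMap_apply, ← aeval_algebraMap_apply, ← aeval_algebraMap_apply,
    ← IsScalarTower.algebraMap_apply A B L, ← hY]
  linear_combination (-(aeval Y (derivative f))) * hg₁ + (aeval Y (derivative g)) * hf₁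

omit [Module.IsTorsionFree A B] [Algebra.IsSeparable K L] in
/-- a local generator is a primitive element -/
theorem adjoin_eq_top_of_local_generator_base (y : B) (s : A) (hs0 : s ≠ 0)
    (hs : ∀ b : B, algebraMap A B s * b ∈ Algebra.adjoin A ({y} : Set B)) :
    Algebra.adjoin K {algebraMap B L y} = ⊤ := by
  set T := Algebra.adjoin K {algebraMap B L y} with hT
  have hmap : ∀ x ∈ Algebra.adjoin A ({y} : Set B), algebraMap B L x ∈ T := by
    intro x hx
    induction hx using Algebra.adjoin_induction with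
    | mem x hx =>
      rw [Set.mem_singleton_iff] at hx
      rw [hx]
      exact Algebra.subset_adjoin (Set.mem_singleton _)
    | algebraMap a =>
      rw [← IsScalarTower.algebraMap_apply A B L, IsScalarTower.algebraMap_apply A K L]
      exact Subalgebra.algebraMap_mem _ _
    | add x y _ _ hx hy => rw [map_add]; exact Subalgebra.add_mem _ hx hy
    | mul x y _ _ hx hy => rw [map_mul]; exact Subalgebra.mul_mem _ hx hy
  rw [eq_top_iff]
  intro f _
  have halg : IsIntegral K f := IsIntegral.of_finite _ f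
  obtain ⟨m, hm⟩ := IsIntegral.exists_multiple_integral_of_isLocalization (R := A)
    (nonZeroDivisors A) f halg
  have : IsIntegralClosure B A L := IsIntegralClosure.of_isIntegrallyClosed B A L
  obtain ⟨b, hb⟩ := IsIntegralClosure.isIntegral_iff (A := B).mp hm
  have h1 : algebraMap B L (algebraMap A B s * b) ∈ T := hmap _ (hs b)
  have hm0 : (m : A) ≠ 0 := nonZeroDivisors.coe_ne_zero m
  have h2 : algebraMap B L (algebraMap A B s * b) = (algebraMap A K (s * m)) • f := by
    rw [map_mul, hb, Submonoid.smul_def, Algebra.smul_def, Algebra.smul_def,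
      ← IsScalarTower.algebraMap_apply A B L, map_mul, map_mul,
      ← IsScalarTower.algebraMap_apply A K L, ← IsScalarTower.algebraMap_apply A K L]
    ring
  rw [h2] at h1
  have h3 : algebraMap A K (s * m) ≠ 0 := by
    rw [Ne, map_eq_zero_iff _ (IsFractionRing.injective A K)]
    exact mul_ne_zero hs0 hm0
  have h4 : f = (algebraMap A K (s * m))⁻¹ • ((algebraMap A K (s * m)) • f) := by
    rw [smul_smul, inv_mul_cancel₀ h3, one_smul]
  rw [h4]
  exact Subalgebra.smul_mem _ h1 _

include K in
/-- if `s • B ⊆ A[y]` then `s² · d · 𝔡 b ∈ B` for every `b ∈ B` and `d` in the different. -/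
theorem local_sq_mul_different_mul_der_mem
    (h𝔡 : ∀ a : A, 𝔡 (algebraMap A L a) ∈ (algebraMap A L).range)
    (y : B) (s : A) (hs0 : s ≠ 0)
    (hs : ∀ b : B, algebraMap A B s * b ∈ Algebra.adjoin A ({y} : Set B)) (b : B)
    (d : B) (hd : d ∈ differentIdeal A B) :
    algebraMap B L (algebraMap A B s ^ 2) * (𝔡 (algebraMap B L b) * algebraMap B L d) ∈
      (algebraMap B L).range := by
  have : IsIntegralClosure B A L := IsIntegralClosure.of_isIntegrallyClosed B A L
  have hy : Algebra.adjoin K {algebraMap B L y} = ⊤ :=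
    adjoin_eq_top_of_local_generator_base A K L y s hs0 hs
  have hcond : algebraMap A B s ∈ conductor A y := mem_conductor_iff.2 hs
  have hmem : algebraMap A B s * d ∈ conductor A y * differentIdeal A B :=
    Ideal.mul_mem_mul hcond hd
  rw [conductor_mul_differentIdeal A K L y hy] at hmem
  obtain ⟨c₁, hc₁⟩ := Ideal.mem_span_singleton'.1 hmem
  obtain ⟨c₂, hc₂⟩ := local_mul_der_mem A L 𝔡 h𝔡 y s hs b
  refine ⟨c₁ * c₂, ?_⟩
  have h1 := congrArg (algebraMap B L) hc₁
  rw [map_mul, map_mul] at h1
  rw [map_mul, hc₂, map_pow, ← IsScalarTower.algebraMap_apply A B L]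
  rw [← IsScalarTower.algebraMap_apply A B L] at h1
  linear_combination (algebraMap A L s * 𝔡 (algebraMap B L b)) * h1

/-- **the derivative description of the different**: a derivation preserving `A` maps `B` into
the trace dual of `B`, when `B` is locally monogenic over `A`. -/
theorem der_mem_traceDual (h𝔡 : ∀ a : A, 𝔡 (algebraMap A L a) ∈ (algebraMap A L).range)
    (hgen : ∀ P : Ideal B, P.IsMaximal → ∃ (y : B) (s : A), algebraMap A B s ∉ P ∧
      ∀ b : B, algebraMap A B s * b ∈ Algebra.adjoin A ({y} : Set B)) (b : B) :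
    𝔡 (algebraMap B L b) ∈ Submodule.traceDual A K (1 : Submodule B L) := by
  rw [Fermat.Agent.ProgramR.Alg.mem_traceDual_one_iff_forall_mem_different]
  intro d hd
  apply mem_range_of_forall_maximal
  intro P hP
  obtain ⟨y, s, hsP, hs⟩ := hgen P hP
  have hs0 : s ≠ 0 := by
    rintro rfl
    exact hsP (by rw [map_zero]; exact P.zero_mem)
  exact ⟨algebraMap A B s ^ 2, fun h => hsP (hP.isPrime.mem_of_pow_mem _ h),
    local_sq_mul_different_mul_der_mem A K L 𝔡 h𝔡 y s hs0 hs b d hd⟩

/-- **logarithmic derivatives**: in characteristic `p`, if `φ` is at every maximal ideal a unit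
times a `p`-th power, then `𝔡 φ / φ` lies in the trace dual of `B`. -/
theorem dlog_mem_traceDual (p : ℕ) [CharP L p]
    (h𝔡 : ∀ a : A, 𝔡 (algebraMap A L a) ∈ (algebraMap A L).range)
    (hgen : ∀ P : Ideal B, P.IsMaximal → ∃ (y : B) (s : A), algebraMap A B s ∉ P ∧
      ∀ b : B, algebraMap A B s * b ∈ Algebra.adjoin A ({y} : Set B))
    (φ : L) (hφ0 : φ ≠ 0)
    (hφ : ∀ P : Ideal B, P.IsMaximal → ∃ (b₁ b₂ : B) (ψ : L), b₁ ∉ P ∧ b₂ ∉ P ∧
      φ * algebraMap B L b₂ = algebraMap B L b₁ * ψ ^ p) :
    𝔡 φ / φ ∈ Submodule.traceDual A K (1 : Submodule B L) := by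
  rw [Fermat.Agent.ProgramR.Alg.mem_traceDual_one_iff_forall_mem_different]
  intro d hd
  apply mem_range_of_forall_maximal
  intro P hP
  obtain ⟨b₁, b₂, ψ, hb₁, hb₂, hrel⟩ := hφ P hP
  have hb₁0 : algebraMap B L b₁ ≠ 0 := by
    rw [Ne, map_eq_zero_iff _ (IsFractionRing.injective B L)]
    rintro rfl
    exact hb₁ P.zero_mem
  have hb₂0 : algebraMap B L b₂ ≠ 0 := by
    rw [Ne, map_eq_zero_iff _ (IsFractionRing.injective B L)]
    rintro rfl
    exact hb₂ P.zero_mem
  -- the `p`-th power has derivative zero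
  have hψ : 𝔡 (ψ ^ p) = 0 := by
    rw [Derivation.leibniz_pow, ← Nat.cast_smul_eq_nsmul L, CharP.cast_eq_zero, zero_smul]
  have hder := congrArg 𝔡 hrel
  rw [Derivation.leibniz, Derivation.leibniz, hψ] at hder
  simp only [smul_eq_mul] at hder
  have key : algebraMap B L b₁ * algebraMap B L b₂ * (𝔡 φ / φ) =
      algebraMap B L b₂ * 𝔡 (algebraMap B L b₁) - algebraMap B L b₁ * 𝔡 (algebraMap B L b₂) := by
    rw [mul_div_assoc', div_eq_iff hφ0]
    linear_combination (algebraMap B L b₁) * hder - (𝔡 (algebraMap B L b₁)) * hrel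
  -- `𝔡 bᵢ · d ∈ B`
  have h1 := der_mem_traceDual A K L 𝔡 h𝔡 hgen b₁
  have h2 := der_mem_traceDual A K L 𝔡 h𝔡 hgen b₂
  rw [Fermat.Agent.ProgramR.Alg.mem_traceDual_one_iff_forall_mem_different] at h1 h2
  obtain ⟨c₁, hc₁⟩ := h1 d hd
  obtain ⟨c₂, hc₂⟩ := h2 d hd
  refine ⟨b₁ * b₂, fun h => (hP.isPrime.mem_or_mem h).elim hb₁ hb₂, b₂ * c₁ - b₁ * c₂, ?_⟩
  rw [map_sub, map_mul, map_mul, hc₁, hc₂, map_mul]
  linear_combination (-(algebraMap B L d)) * key

end Main

end Fermat.Agent.S44lib.Q5
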