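/-
S44lib / Q5 / LocalGen (helper3)

Local monogenic generators of a Dedekind algebra `B`, finite over a `k`-algebra `A`, at the primes
above a principal ideal `(ϖ)` of `A`, when all residue fields of `B` are `k` (`k` infinite):
there are `y : B` and `s ∈ 1 + ϖ A` with `s • B ⊆ A[y]`.
(Generalisation of `S18lib.Norm.exists_local_generator` from `A = k[X]`, `ϖ = X - c`, to an
arbitrary base, so that it also applies to the chart at infinity `A = A∞`, `ϖ = 1/X`.)
-/
import Mathlib
import Fermat.Agent.S18lib.Norm.LocalGen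

set_option autoImplicit false

noncomputable section

namespace Fermat.Agent.S44lib.Q5

open Polynomial UniqueFactorizationMonoid Fermat.Agent.S18lib.Norm

section

variable {k A B : Type*} [Field k] [CommRing A] [CommRing B] [Algebra k A] [Algebra A B]
  [Algebra k B] [IsScalarTower k A B]

/-- `k`-polynomials in `y` lie in `A[y]` -/
theorem aeval_mem_adjoin_base (y : B) (p : k[X]) :
    aeval y p ∈ Algebra.adjoin A ({y} : Set B) := by
  rw [aeval_eq_sum_range]
  refine Subalgebra.sum_mem _ fun i _ => ?_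
  rw [Algebra.smul_def, IsScalarTower.algebraMap_apply k A B]
  exact Subalgebra.mul_mem _ (Subalgebra.algebraMap_mem _ _)
    (Subalgebra.pow_mem _ (Algebra.self_mem_adjoin_singleton _ _) i)

end

variable {k A B : Type*} [Field k] [Infinite k] [CommRing A] [CommRing B] [IsDedekindDomain B]
  [Algebra k A] [Algebra A B] [Algebra k B] [IsScalarTower k A B] [Module.Finite A B]

/-- **local monogenic generator above `(ϖ)`**: there are `y : B` and `s ∈ 1 + ϖ A` with
`s • B ⊆ A[y]`. -/
theorem exists_local_generator_base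
    (hres : ∀ Q : Ideal B, Q.IsMaximal → Function.Surjective (algebraMap k (B ⧸ Q)))
    (ϖ : A) (hϖ : algebraMap A B ϖ ≠ 0) :
    ∃ y : B, ∃ s : A, s - 1 ∈ Ideal.span {ϖ} ∧
      ∀ b : B, algebraMap A B s * b ∈ Algebra.adjoin A ({y} : Set B) := by
  classical
  set ξ : B := algebraMap A B ϖ with hξ
  set I : Ideal B := Ideal.span {ξ} with hI
  have hI0 : I ≠ ⊥ := by
    rw [hI, Ne, Ideal.span_singleton_eq_bot]; exact hϖ
  set S : Finset (Ideal B) := (normalizedFactors I).toFinset with hS
  have hSprime : ∀ Q ∈ S, Prime Q := fun Q hQ =>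
    prime_of_normalized_factor Q (Multiset.mem_toFinset.1 hQ)
  have hSisPrime : ∀ Q ∈ S, Q.IsPrime := fun Q hQ => Ideal.isPrime_of_prime (hSprime Q hQ)
  have hSne : ∀ Q ∈ S, Q ≠ ⊥ := fun Q hQ => (hSprime Q hQ).ne_zero
  have hSmax : ∀ Q ∈ S, Q.IsMaximal := fun Q hQ => (hSisPrime Q hQ).isMaximal (hSne Q hQ)
  -- distinct constants
  let a : Ideal B → k := fun Q =>
    if h : Q ∈ S then Infinite.natEmbedding k ((S.equivFin ⟨Q, h⟩ : Fin S.card) : ℕ) else 0
  have ha : Set.InjOn a (S : Set (Ideal B)) := by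
    intro Q hQ Q' hQ' h
    have hQ1 : Q ∈ S := hQ
    have hQ2 : Q' ∈ S := hQ'
    simp only [a, dif_pos hQ1, dif_pos hQ2] at h
    have h1 := (Infinite.natEmbedding k).injective h
    have h2 := S.equivFin.injective (Fin.ext h1)
    exact congrArg Subtype.val h2
  -- uniformizers
  have hπ : ∀ Q ∈ S, ∃ π ∈ Q, π ∉ Q ^ 2 := fun Q hQ => by
    obtain ⟨x, hx, hx'⟩ := Ideal.exists_mem_pow_notMem_pow_succ Q (hSne Q hQ)
      (hSisPrime Q hQ).ne_top 1
    exact ⟨x, by simpa using hx, hx'⟩
  choose! π hπ1 hπ2 using hπ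
  -- CRT
  obtain ⟨y, hy⟩ := IsDedekindDomain.exists_forall_sub_mem_ideal (s := S) (fun Q => Q)
    (fun _ => 2) hSprime (fun Q _ Q' _ h => h) (fun Q => algebraMap k B (a Q.1) + π Q.1)
  have hy1 : ∀ Q ∈ S, y - algebraMap k B (a Q) ∈ Q := by
    intro Q hQ
    have h1 := hy Q hQ
    have h2 : y - algebraMap k B (a Q) = (y - (algebraMap k B (a Q) + π Q)) + π Q := by ring
    rw [h2]
    exact Ideal.add_mem _ (Ideal.pow_le_self (by norm_num) h1) (hπ1 Q hQ)
  have hy2 : ∀ Q ∈ S, y - algebraMap k B (a Q) ∉ Q ^ 2 := by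
    intro Q hQ hmem
    have h1 := hy Q hQ
    apply hπ2 Q hQ
    have h2 : π Q = (y - algebraMap k B (a Q)) - (y - (algebraMap k B (a Q) + π Q)) := by ring
    rw [h2]
    exact Ideal.sub_mem _ hmem h1
  -- approximation modulo `I`
  set e : Ideal B → ℕ := fun Q => (normalizedFactors I).count Q with he
  have hprod : I = ∏ Q ∈ S, Q ^ e Q := by
    have := prod_normalizedFactors_eq hI0
    rw [normalize_eq, Finset.prod_multiset_count] at this
    exact this.symm
  have happrox : ∀ b : B, ∃ p : k[X], b - aeval y p ∈ I := by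
    intro b
    obtain ⟨p, hp⟩ := exists_poly_sub_mem_pow_forall S a ha e hy1 b (fun Q hQ =>
      exists_poly_sub_mem_pow (hSisPrime Q hQ) (hSne Q hQ) (hres Q (hSmax Q hQ))
        (hy1 Q hQ) (hy2 Q hQ) (e Q) b)
    refine ⟨p, ?_⟩
    rw [hprod, ← IsDedekindDomain.inf_pow_eq_prod_of_prime S (fun Q => Q) e hSprime
      (fun Q _ Q' _ h => h), Submodule.mem_finsetInf]
    exact hp
  -- Nakayama on `B / A[y]`
  set Csub : Submodule A B := Subalgebra.toSubmodule (Algebra.adjoin A ({y} : Set B))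
    with hC
  obtain ⟨r, hr1, hr2⟩ := Submodule.exists_sub_one_mem_and_smul_eq_zero_of_fg_of_le_smul
    (Ideal.span {ϖ}) (⊤ : Submodule A (B ⧸ Csub)) Module.Finite.fg_top (by
      intro m _
      obtain ⟨b, rfl⟩ := Submodule.Quotient.mk_surjective Csub m
      obtain ⟨p, hp⟩ := happrox b
      obtain ⟨b', hb'⟩ := Ideal.mem_span_singleton'.1 hp
      have h1 : (Submodule.Quotient.mk b : B ⧸ Csub)
          = ϖ • Submodule.Quotient.mk b' := by
        rw [← Submodule.Quotient.mk_smul, eq_comm, ← sub_eq_zero, ← Submodule.Quotient.mk_sub,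
          Submodule.Quotient.mk_eq_zero]
        have : ϖ • b' - b = -(aeval y p) := by
          rw [Algebra.smul_def, mul_comm, hb']; ring
        rw [this]
        exact Submodule.neg_mem _ (aeval_mem_adjoin_base y p)
      rw [h1]
      exact Submodule.smul_mem_smul (Ideal.mem_span_singleton_self _) Submodule.mem_top)
  refine ⟨y, r, hr1, fun b => ?_⟩
  have h1 := hr2 (Submodule.Quotient.mk b) Submodule.mem_top
  rw [← Submodule.Quotient.mk_smul, Submodule.Quotient.mk_eq_zero, Algebra.smul_def] at h1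
  exact h1

end Fermat.Agent.S44lib.Q5
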