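/-
S44lib / Q5 / Dlog (helper3)

**Logarithmic derivatives of "`p`-th powers up to divisors" are regular differentials.**
`F / K(x)` finite separable, `K` algebraically closed of characteristic `p`, `D` the derivation of
`F` with `D x = 1`.  If `φ ∈ Fˣ` has all its orders divisible by `p`, then `D φ / φ` lies in
`RRgen.Omega K F B B∞ 0`, i.e. `(D φ / φ) dx = dφ / φ` is a regular differential.

The proof uses the derivative description of the different (`DerDual`) in the two charts
`(K[X], d/dX)` and `(A∞, d/d(1/X) = -X² d/dX)`.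
-/
import Mathlib
import Fermat.Agent.S18lib.RRgen.Riemann
import Fermat.Agent.ProgramR.CuspLocal.AinfValuation
import Fermat.Agent.S44lib.Q5.LocalGen
import Fermat.Agent.S44lib.Q5.DerDual

set_option autoImplicit false
set_option linter.unusedSectionVars false

noncomputable section

namespace Fermat.Agent.S44lib.Q5

open Module Polynomial IsDedekindDomain AlgebraicCurve WithZero nonZeroDivisors
open Fermat.Agent.ProgramR Fermat.Agent.ProgramR.RR Fermat.Agent.ProgramR.Alg
open Fermat.Agent.S18lib.RRgen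

/-! ### from valuations to "unit times `p`-th power" -/

section Bridge

variable {B L : Type*} [CommRing B] [IsDedekindDomain B] [Field L] [Algebra B L]
  [IsFractionRing B L]

theorem exists_unit_mul_pth_power (P : HeightOneSpectrum B) (p : ℕ) (φ : L) (m : ℤ)
    (hm : P.valuation L φ = exp ((p : ℤ) * m)) :
    ∃ (b₁ b₂ : B) (ψ : L), b₁ ∉ P.asIdeal ∧ b₂ ∉ P.asIdeal ∧
      φ * algebraMap B L b₂ = algebraMap B L b₁ * ψ ^ p := by
  obtain ⟨π, hπ⟩ := P.valuation_exists_uniformizer L
  have hπ0 : π ≠ 0 := by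
    rintro rfl
    rw [map_zero] at hπ
    exact exp_ne_zero hπ.symm
  set ψ : L := π ^ (-m) with hψ
  have hψ0 : ψ ≠ 0 := zpow_ne_zero _ hπ0
  have hvψ : P.valuation L (ψ ^ p) = exp ((p : ℤ) * m) := by
    rw [map_pow, hψ, map_zpow₀, hπ, ← exp_zsmul, ← exp_nsmul]
    congr 1
    simp only [smul_eq_mul, nsmul_eq_mul]
    ring
  have hu : P.valuation L (φ / ψ ^ p) = 1 := by
    rw [map_div₀, hm, hvψ, div_self exp_ne_zero]
  obtain ⟨n, d, hnd⟩ := P.exists_primeCompl_mul_eq_of_integer (φ / ψ ^ p) hu.le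
  have hψp : ψ ^ p ≠ 0 := pow_ne_zero _ hψ0
  refine ⟨n, d, ψ, ?_, d.2, ?_⟩
  · rw [← HeightOneSpectrum.valuation_eq_one_iff_notMem (K := L), ← hnd, map_mul, hu, one_mul,
      HeightOneSpectrum.valuation_eq_one_iff_notMem]
    exact d.2
  · rw [← hnd]
    field_simp

end Bridge

/-! ### `A∞` in terms of polynomials in `1/X` -/

section AinfRep

variable {K : Type*} [Field K]

/-- `A∞` as a valuation subring -/
def AinfV : ValuationSubring (RatFunc K) :=
  { Ainf K with
    mem_or_inv_mem' := fun r => by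
      by_cases h : r = 0
      · exact Or.inl (Or.inl h)
      rcases le_total r.intDegree 0 with h1 | h1
      · exact Or.inl (Or.inr h1)
      · exact Or.inr (Or.inr (by rw [RatFunc.intDegree_inv]; omega)) }

theorem mem_AinfV_iff {r : RatFunc K} : r ∈ (AinfV : ValuationSubring (RatFunc K)) ↔ r ∈ Ainf K :=
  Iff.rfl

theorem Xinv_mem_Ainf : (RatFunc.X : RatFunc K)⁻¹ ∈ Ainf K :=
  Or.inr (by rw [RatFunc.intDegree_inv, RatFunc.intDegree_X]; norm_num)

theorem X_notMem_Ainf : (RatFunc.X : RatFunc K) ∉ Ainf K := by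
  rintro (h | h)
  · exact RatFunc.X_ne_zero h
  · rw [RatFunc.intDegree_X] at h
    norm_num at h

/-- polynomials in `1/X` lie in `A∞`, and are units there when the constant coefficient is not
zero -/
theorem aeval_Xinv_mem (a : K[X]) :
    aeval ((RatFunc.X : RatFunc K)⁻¹) a ∈ Ainf K ∧
      (a.coeff 0 ≠ 0 → (aeval ((RatFunc.X : RatFunc K)⁻¹) a)⁻¹ ∈ Ainf K) := by
  have h := CuspLocal.eval₂_mem_and_inv_mem (F := RatFunc K) (k := K) AinfV
    (algebraMap K (RatFunc K)) (fun c => algebraMap_mem_Ainf c) (u := (RatFunc.X : RatFunc K)⁻¹)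
    Xinv_mem_Ainf (by rw [inv_inv]; exact X_notMem_Ainf) a
  exact h

/-- every element of `A∞` is a quotient of polynomials in `1/X` with invertible denominator -/
theorem exists_rep_of_mem_Ainf {r : RatFunc K} (hr : r ∈ Ainf K) :
    ∃ a b : K[X], b.coeff 0 ≠ 0 ∧ aeval ((RatFunc.X : RatFunc K)⁻¹) b ≠ 0 ∧
      r * aeval ((RatFunc.X : RatFunc K)⁻¹) b = aeval ((RatFunc.X : RatFunc K)⁻¹) a := by
  by_cases hr0 : r = 0
  · exact ⟨0, 1, by simp, by simp, by simp [hr0]⟩
  have hX0 : (RatFunc.X : RatFunc K) ≠ 0 := RatFunc.X_ne_zero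
  have hdeg := (mem_Ainf_of_ne_zero hr0).mp hr
  have hden : r.denom ≠ 0 := RatFunc.denom_ne_zero r
  have hle : r.num.natDegree ≤ r.denom.natDegree := by
    have : r.intDegree = (r.num.natDegree : ℤ) - r.denom.natDegree := rfl
    omega
  obtain ⟨d, hd⟩ := Nat.exists_eq_add_of_le hle
  have hpoly : ∀ q : K[X], algebraMap K[X] (RatFunc K) q =
      q.eval₂ (algebraMap K (RatFunc K)) RatFunc.X := by
    intro q
    rw [← aeval_def, ← RatFunc.algebraMap_X, aeval_algebraMap_apply, aeval_X_left_apply]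
  refine ⟨r.num.reverse * X ^ d, r.denom.reverse, ?_, ?_, ?_⟩
  · rw [coeff_zero_reverse]
    exact leadingCoeff_ne_zero.mpr hden
  · intro h0
    have h2 := CuspLocal.eval₂_eq_reverse_mul_pow (algebraMap K (RatFunc K)) hX0 r.denom
    rw [← hpoly, ← aeval_def, h0, zero_mul] at h2
    exact algebraMap_ne_zero hden h2
  · have h1 := CuspLocal.eval₂_eq_reverse_mul_pow (algebraMap K (RatFunc K)) hX0 r.num
    have h2 := CuspLocal.eval₂_eq_reverse_mul_pow (algebraMap K (RatFunc K)) hX0 r.denom
    rw [← hpoly] at h1 h2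
    have hdenom0 : algebraMap K[X] (RatFunc K) r.denom ≠ 0 := algebraMap_ne_zero hden
    have hr' : r * algebraMap K[X] (RatFunc K) r.denom = algebraMap K[X] (RatFunc K) r.num := by
      have h3 := RatFunc.num_div_denom r
      rw [div_eq_iff hdenom0] at h3
      exact h3.symm
    rw [h1, h2, hd, pow_add] at hr'
    rw [map_mul, map_pow, aeval_X, aeval_def, aeval_def]
    have hxp : (RatFunc.X : RatFunc K) ^ r.num.natDegree ≠ 0 := pow_ne_zero _ hX0
    have hxd : (RatFunc.X : RatFunc K) ^ d ≠ 0 := pow_ne_zero _ hX0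
    rw [inv_pow]
    generalize eval₂ (algebraMap K (RatFunc K)) (RatFunc.X : RatFunc K)⁻¹ r.num.reverse = Ea at *
    generalize eval₂ (algebraMap K (RatFunc K)) (RatFunc.X : RatFunc K)⁻¹ r.denom.reverse = Eb at *
    generalize (RatFunc.X : RatFunc K) ^ r.num.natDegree = Xn at *
    generalize (RatFunc.X : RatFunc K) ^ d = Xd at *
    have h4 : r * Eb * Xd = Ea :=
      mul_right_cancel₀ hxp (by linear_combination hr' : (r * Eb * Xd) * Xn = Ea * Xn)
    field_simp
    exact h4

end AinfRep

/-! ### the two charts -/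

section Main

variable (K : Type*) [Field K] [IsAlgClosed K]
  (F : Type*) [Field F] [Algebra (RatFunc K) F] [FiniteDimensional (RatFunc K) F]
  [Algebra.IsSeparable (RatFunc K) F] [Algebra K F] [IsScalarTower K (RatFunc K) F]
  (B : Type*) [CommRing B] [IsDedekindDomain B] [Algebra K[X] B] [Module.Finite K[X] B]
  [IsTorsionFree K[X] B] [Algebra B F] [IsFractionRing B F] [Algebra K[X] F]
  [IsScalarTower K[X] (RatFunc K) F] [IsScalarTower K[X] B F]
  [Algebra K B] [IsScalarTower K B F]
  (Binf : Type*) [CommRing Binf] [IsDedekindDomain Binf] [Algebra (Ainf K) Binf]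
  [Module.Finite (Ainf K) Binf] [IsTorsionFree (Ainf K) Binf] [Algebra Binf F]
  [IsFractionRing Binf F] [Algebra (Ainf K) F] [IsScalarTower (Ainf K) (RatFunc K) F]
  [IsScalarTower (Ainf K) Binf F]
  [Algebra K Binf] [IsScalarTower K Binf F]

include F in
theorem isScalarTower_const_poly : IsScalarTower K K[X] B :=
  IsScalarTower.of_algebraMap_eq fun c => by
    rw [← algebraMap_poly_C_B K F B c]
    rfl

include F in
theorem isScalarTower_const_Ainf : IsScalarTower K (Ainf K) Binf :=
  IsScalarTower.of_algebraMap_eq fun c => (algebraMap_Ainf_B K F Binf c).symm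

theorem isScalarTower_const_poly_F : IsScalarTower K K[X] F :=
  IsScalarTower.of_algebraMap_eq fun c => by
    rw [← algebraMap_poly_C K F c]
    rfl

include F in
/-- residue fields of the finite chart -/
theorem hres_fin_ideal (Q : Ideal B) (hQ : Q.IsMaximal) :
    Function.Surjective (algebraMap K (B ⧸ Q)) := by
  intro y
  obtain ⟨a, rfl⟩ := hres_fin K B Q hQ y
  have hp : (Q.under K[X]).IsMaximal :=
    Ideal.isMaximal_comap_of_isIntegral_of_isMaximal Q
  obtain ⟨c, hc⟩ := surjective_algebraMap_quotient_polynomial (Q.under K[X]) hp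
    (Ideal.Quotient.mk _ a)
  refine ⟨c, ?_⟩
  rw [IsScalarTower.algebraMap_apply K K[X] (K[X] ⧸ Q.under K[X]),
    Ideal.Quotient.algebraMap_eq, Ideal.Quotient.eq, Ideal.mem_comap] at hc
  rw [IsScalarTower.algebraMap_apply K B (B ⧸ Q),
    IsScalarTower.algebraMap_apply K[X] B (B ⧸ Q), Ideal.Quotient.algebraMap_eq,
    Ideal.Quotient.eq, ← algebraMap_poly_C_B K F B c]
  simpa using hc

include F in
/-- residue fields of the chart at infinity -/
theorem hres_inf_ideal (Q : Ideal Binf) (hQ : Q.IsMaximal) :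
    Function.Surjective (algebraMap K (Binf ⧸ Q)) := by
  intro y
  obtain ⟨a, rfl⟩ := hres_inf K Binf Q hQ y
  have hp : (Q.under (Ainf K)).IsMaximal :=
    Ideal.isMaximal_comap_of_isIntegral_of_isMaximal Q
  obtain ⟨c, hc⟩ := exists_sub_mem_maximalIdeal_Ainf a
  rw [← IsLocalRing.eq_maximalIdeal hp, Ideal.mem_comap] at hc
  refine ⟨c, ?_⟩
  rw [IsScalarTower.algebraMap_apply K Binf (Binf ⧸ Q),
    IsScalarTower.algebraMap_apply (Ainf K) Binf (Binf ⧸ Q), Ideal.Quotient.algebraMap_eq,
    Ideal.Quotient.eq, ← algebraMap_Ainf_B K F Binf c]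
  have := Q.neg_mem hc
  rwa [← map_neg, neg_sub, map_sub] at this

include F in
/-- local generators in the finite chart -/
theorem hgen_fin (P : Ideal B) (hP : P.IsMaximal) :
    ∃ (y : B) (s : K[X]), algebraMap K[X] B s ∉ P ∧
      ∀ b : B, algebraMap K[X] B s * b ∈ Algebra.adjoin K[X] ({y} : Set B) := by
  haveI := isScalarTower_const_poly K F B
  obtain ⟨c, hc⟩ := hres_fin_ideal K F B P hP (Ideal.Quotient.mk P (algebraMap K[X] B X))
  have hcP : algebraMap K[X] B (X - C c) ∈ P := by
    rw [map_sub, algebraMap_poly_C_B K F B c, ← Ideal.Quotient.eq, ← hc]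
    rfl
  have hϖ : algebraMap K[X] B (X - C c) ≠ 0 := by
    rw [Ne, map_eq_zero_iff _ (FaithfulSMul.algebraMap_injective K[X] B)]
    exact X_sub_C_ne_zero c
  obtain ⟨y, s, hs1, hs⟩ := exists_local_generator_base (k := K)
    (hres_fin_ideal K F B) (X - C c) hϖ
  refine ⟨y, s, fun hsP => ?_, hs⟩
  obtain ⟨q, hq⟩ := Ideal.mem_span_singleton'.1 hs1
  have h1 : algebraMap K[X] B (s - 1) ∈ P := by
    rw [← hq, map_mul]
    exact P.mul_mem_left _ hcP
  have h2 : (1 : B) ∈ P := by
    have : (1 : B) = algebraMap K[X] B s - algebraMap K[X] B (s - 1) := by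
      rw [map_sub, map_one]; ring
    rw [this]
    exact P.sub_mem hsP h1
  exact hP.ne_top ((Ideal.eq_top_iff_one _).mpr h2)

include F in
/-- local generators in the chart at infinity -/
theorem hgen_inf (P : Ideal Binf) (hP : P.IsMaximal) :
    ∃ (y : Binf) (s : Ainf K), algebraMap (Ainf K) Binf s ∉ P ∧
      ∀ b : Binf, algebraMap (Ainf K) Binf s * b ∈ Algebra.adjoin (Ainf K) ({y} : Set Binf) := by
  haveI := isScalarTower_const_Ainf K F Binf
  have hp : (P.under (Ainf K)).IsMaximal :=
    Ideal.isMaximal_comap_of_isIntegral_of_isMaximal P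
  have hcP : algebraMap (Ainf K) Binf XinvAinf ∈ P := by
    have h1 : (XinvAinf : Ainf K) ∈ P.under (Ainf K) := by
      rw [IsLocalRing.eq_maximalIdeal hp, maximalIdeal_Ainf_eq]
      exact Ideal.mem_span_singleton_self _
    exact h1
  have hϖ : algebraMap (Ainf K) Binf XinvAinf ≠ 0 := by
    rw [Ne, map_eq_zero_iff _ (FaithfulSMul.algebraMap_injective (Ainf K) Binf)]
    exact XinvAinf_ne_zero
  obtain ⟨y, s, hs1, hs⟩ := exists_local_generator_base (k := K)
    (hres_inf_ideal K F Binf) (XinvAinf : Ainf K) hϖ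
  refine ⟨y, s, fun hsP => ?_, hs⟩
  obtain ⟨q, hq⟩ := Ideal.mem_span_singleton'.1 hs1
  have h1 : algebraMap (Ainf K) Binf (s - 1) ∈ P := by
    rw [← hq, map_mul]
    exact P.mul_mem_left _ hcP
  have h2 : (1 : Binf) ∈ P := by
    have : (1 : Binf) = algebraMap (Ainf K) Binf s - algebraMap (Ainf K) Binf (s - 1) := by
      rw [map_sub, map_one]; ring
    rw [this]
    exact P.sub_mem hsP h1
  exact hP.ne_top ((Ideal.eq_top_iff_one _).mpr h2)

/-! ### the derivation in the two charts -/

section Der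

variable (D : Derivation K F F)

/-- `D` preserves the polynomials when `D x = 1` -/
theorem der_poly_mem (hD : D (S18lib.RRgen.xF K F) = 1) (a : K[X]) :
    D (algebraMap K[X] F a) ∈ (algebraMap K[X] F).range := by
  have := isScalarTower_const_poly_F K F
  have h1 : ∀ q : K[X], algebraMap K[X] F q = aeval (S18lib.RRgen.xF K F) q := by
    intro q
    rw [← S18lib.RRgen.algebraMap_poly_X K F, aeval_algebraMap_apply, aeval_X_left_apply]
  refine ⟨derivative a, ?_⟩
  rw [h1 a, Derivation.map_aeval, hD, h1, smul_eq_mul, mul_one]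

/-- the derivation `d/d(1/x) = -x² d/dx` -/
def derInf : Derivation K F F := (-(S18lib.RRgen.xF K F) ^ 2) • D

theorem derInf_apply (f : F) : derInf K F D f = -(S18lib.RRgen.xF K F) ^ 2 * D f := rfl

theorem derInf_xinv (hD : D (S18lib.RRgen.xF K F) = 1) : derInf K F D (S18lib.RRgen.xF K F)⁻¹ = 1 := by
  have hx : S18lib.RRgen.xF K F ≠ 0 := S18lib.RRgen.xF_ne_zero K F
  rw [derInf_apply, Derivation.leibniz_inv, hD, smul_eq_mul, mul_one]
  field_simp

/-- `-x² D` preserves `A∞` when `D x = 1` -/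
theorem derInf_Ainf_mem (hD : D (S18lib.RRgen.xF K F) = 1) (a : Ainf K) :
    derInf K F D (algebraMap (Ainf K) F a) ∈ (algebraMap (Ainf K) F).range := by
  set D' := derInf K F D with hD'
  set u : RatFunc K := (RatFunc.X : RatFunc K)⁻¹ with hu
  set uF : F := (S18lib.RRgen.xF K F)⁻¹ with huF
  have hιu : algebraMap (RatFunc K) F u = uF := by
    rw [hu, map_inv₀]
    rfl
  have hι : ∀ q : K[X], algebraMap (RatFunc K) F (aeval u q) = aeval uF q := by
    intro q
    rw [← hιu, aeval_algebraMap_apply]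
  have hder : ∀ q : K[X], D' (aeval uF q) = aeval uF (derivative q) := by
    intro q
    rw [Derivation.map_aeval, hD', derInf_xinv K F D hD, smul_eq_mul, mul_one]
  obtain ⟨α, β, hβ0, hβne, hrel⟩ := exists_rep_of_mem_Ainf a.2
  have hβF : aeval uF β ≠ 0 := by
    rw [← hι, Ne, map_eq_zero_iff _ (algebraMap (RatFunc K) F).injective]
    exact hβne
  -- the image of `a` in `F` as a quotient
  have haF : algebraMap (Ainf K) F a = aeval uF α / aeval uF β := by
    rw [eq_div_iff hβF, ← hι, ← hι, ← hrel, map_mul,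
      IsScalarTower.algebraMap_apply (Ainf K) (RatFunc K) F]
    rfl
  -- the witness
  have hmem : ((aeval u β)⁻¹) ^ 2 * (aeval u β * aeval u (derivative α) -
      aeval u α * aeval u (derivative β)) ∈ Ainf K := by
    refine (Ainf K).mul_mem ((Ainf K).pow_mem ((aeval_Xinv_mem β).2 hβ0) 2)
      ((Ainf K).sub_mem ((Ainf K).mul_mem (aeval_Xinv_mem β).1 (aeval_Xinv_mem _).1)
        ((Ainf K).mul_mem (aeval_Xinv_mem α).1 (aeval_Xinv_mem _).1))
  refine ⟨⟨_, hmem⟩, ?_⟩
  rw [IsScalarTower.algebraMap_apply (Ainf K) (RatFunc K) F]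
  show algebraMap (RatFunc K) F (((aeval u β)⁻¹) ^ 2 * (aeval u β * aeval u (derivative α) -
      aeval u α * aeval u (derivative β))) = _
  rw [haF, Derivation.leibniz_div, hder, hder, map_mul, map_pow, map_inv₀, map_sub, map_mul,
    map_mul, hι, hι, hι, hι]
  simp only [smul_eq_mul]

end Der

/-! ### the theorem -/

include K F in
theorem not_isField_fin : ¬ IsField B := by
  have hinj : Function.Injective (algebraMap K[X] B) := FaithfulSMul.algebraMap_injective K[X] B
  exact fun h => Polynomial.not_isField K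
    ((Algebra.IsIntegral.isField_iff_isField hinj).mpr h)

include K F in
theorem not_isField_inf : ¬ IsField Binf := by
  have hinj : Function.Injective (algebraMap (Ainf K) Binf) :=
    FaithfulSMul.algebraMap_injective (Ainf K) Binf
  exact fun h => IsDiscreteValuationRing.not_isField (Ainf K)
    ((Algebra.IsIntegral.isField_iff_isField hinj).mpr h)

/-- **logarithmic derivatives are regular differentials**: if all orders of `φ` are divisible by
the characteristic `p`, then `(D φ / φ) dx` is a regular differential. -/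
theorem dlog_mem_Omega_zero (p : ℕ) [CharP K p] (D : Derivation K F F)
    (hD : D (S18lib.RRgen.xF K F) = 1) (φ : F) (hφ0 : φ ≠ 0)
    (hord : ∀ v : Place K F, (p : ℤ) ∣ v.ord φ) :
    D φ / φ ∈ Omega K F B Binf 0 := by
  haveI : CharP F p := charP_of_injective_algebraMap (algebraMap K F).injective p
  -- finite chart
  have hfin : D φ / φ ∈ Submodule.traceDual K[X] (RatFunc K) (1 : Submodule B F) := by
    refine dlog_mem_traceDual K[X] (RatFunc K) F D p (der_poly_mem K F D hD) (hgen_fin K F B)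
      φ hφ0 ?_
    intro P hP
    have hne : P ≠ ⊥ := Ring.ne_bot_of_isMaximal_of_not_isField hP (not_isField_fin K F B)
    let P' : HeightOneSpectrum B := ⟨P, hP.isPrime, hne⟩
    obtain ⟨m, hm⟩ := hord (placeFin K F B P')
    rw [ord_placeFin] at hm
    have hv0 : P'.valuation F φ ≠ 0 := (Valuation.ne_zero_iff _).mpr hφ0
    exact exists_unit_mul_pth_power P' p φ (-m) (by
      rw [← exp_log hv0]
      congr 1
      linarith)
  -- chart at infinity
  have hinf : derInf K F D φ / φ ∈
      Submodule.traceDual (Ainf K) (RatFunc K) (1 : Submodule Binf F) := by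
    refine dlog_mem_traceDual (Ainf K) (RatFunc K) F (derInf K F D) p
      (derInf_Ainf_mem K F D hD) (hgen_inf K F Binf) φ hφ0 ?_
    intro P hP
    have hne : P ≠ ⊥ := Ring.ne_bot_of_isMaximal_of_not_isField hP (not_isField_inf K F Binf)
    let P' : HeightOneSpectrum Binf := ⟨P, hP.isPrime, hne⟩
    obtain ⟨m, hm⟩ := hord (placeInf K F Binf P')
    rw [ord_placeInf] at hm
    have hv0 : P'.valuation F φ ≠ 0 := (Valuation.ne_zero_iff _).mpr hφ0
    exact exists_unit_mul_pth_power P' p φ (-m) (by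
      rw [← exp_log hv0]
      congr 1
      linarith)
  rw [Omega, mem_differentialSubspace]
  refine ⟨fun x hx => ?_, fun x hx => ?_⟩
  · have hx' : x ∈ (1 : FractionalIdeal B⁰ F) := by
      rw [uE_spec, IFin_zero] at hx
      exact hx
    obtain ⟨b, rfl⟩ := (FractionalIdeal.mem_one_iff _).mp hx'
    have h1 := (Submodule.mem_traceDual.mp hfin) (algebraMap B F b)
      (Submodule.mem_one.mpr ⟨b, rfl⟩)
    rw [Algebra.traceForm_apply] at h1
    exact h1
  · have hx' : x ∈ (1 : FractionalIdeal Binf⁰ F) := by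
      rw [vE_spec, IInf_zero] at hx
      exact hx
    obtain ⟨b, rfl⟩ := (FractionalIdeal.mem_one_iff _).mp hx'
    have h1 := (Submodule.mem_traceDual.mp hinf) (algebraMap Binf F b)
      (Submodule.mem_one.mpr ⟨b, rfl⟩)
    rw [Algebra.traceForm_apply] at h1
    obtain ⟨a, ha⟩ := h1
    have h2 : derInf K F D φ / φ * algebraMap Binf F b =
        (-(RatFunc.X : RatFunc K) ^ 2) • (D φ / φ * algebraMap Binf F b) := by
      rw [derInf_apply, Algebra.smul_def, map_neg, map_pow]
      show _ = -(S18lib.RRgen.xF K F) ^ 2 * _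
      ring
    rw [h2, map_smul, smul_eq_mul] at ha
    have h3 : (RatFunc.X : RatFunc K) ^ 2 *
        Algebra.trace (RatFunc K) F (D φ / φ * algebraMap Binf F b) =
        -(algebraMap (Ainf K) (RatFunc K) a) := by
      rw [ha]; ring
    rw [h3]
    exact (Ainf K).neg_mem a.2

end Main

end Fermat.Agent.S44lib.Q5
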