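/-
S44lib / Q5 / OmegaOf (helper3)

Instance-free form of `RRgen.Omega … 0` and of block A.
`K` algebraically closed, `x ∈ F` transcendental over `K`, `F / K(x)` finite separable:
* `OmegaOf K hx : Submodule K F` — the `h` with `h dx` a regular differential
  (`= RRgen.Omega K F (BFin K F) (BInf K F) 0` for the canonical charts of the covering `x`);
* `finrank_OmegaOf : finrank K (OmegaOf K hx) = genusOf K hx`;
* `dlog_mem_OmegaOf` : in characteristic `p`, if `D` is the `K`-derivation of `F` with `D x = 1`
  and all orders of `φ ≠ 0` are divisible by `p`, then `D φ / φ ∈ OmegaOf K hx`.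
-/
import Mathlib
import Fermat.Agent.S18lib.RRgen.Canonical
import Fermat.Agent.S44lib.Q5.Dlog

set_option autoImplicit false
set_option linter.unusedSectionVars false
set_option linter.style.haveILetI false

noncomputable section

namespace Fermat.Agent.S44lib.Q5

open Module Polynomial IsDedekindDomain AlgebraicCurve IntermediateField
open Fermat.Agent.ProgramR Fermat.Agent.ProgramR.RR Fermat.Agent.ProgramR.Alg
open Fermat.Agent.S18lib Fermat.Agent.S18lib.RRgen Fermat.Agent.S18lib.RRgen.Canonical

attribute [local instance] Canonical.isScalarTower_const_poly Canonical.isScalarTower_ainf_ratFunc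
  Canonical.isScalarTower_const_ainf Canonical.algebraBInf Canonical.isScalarTower_const_BFin
  Canonical.isScalarTower_const_BInf Canonical.isTorsionFree_BFin Canonical.isTorsionFree_BInf
  Canonical.isFractionRing_BFin Canonical.isDedekindDomain_BFin Canonical.finite_BFin
  Canonical.isFractionRing_BInf Canonical.isDedekindDomain_BInf Canonical.finite_BInf

variable (K : Type*) [Field K] [IsAlgClosed K] {F : Type*} [Field F] [Algebra K F] {x : F}
  (hx : Transcendental K x) [FiniteDimensional K⟮x⟯ F] [Algebra.IsSeparable K⟮x⟯ F]

/-- the space of `h ∈ F` such that `h dx` is a regular differential of `F / K` -/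
def OmegaOf : Submodule K F :=
  letI := polyAlgebra K x
  letI := ratFuncAlgebra K hx
  haveI := isScalarTower_poly_ratFunc K hx
  haveI := isScalarTower_const_ratFunc K hx
  haveI := finiteDimensional_ratFunc K hx
  haveI := isSeparable_ratFunc K hx
  Omega K F (BFin K F) (BInf K F) 0

theorem finrank_OmegaOf : finrank K (OmegaOf K hx) = genusOf K hx := rfl

instance : Module.Finite K (OmegaOf K hx) := by
  letI := polyAlgebra K x
  letI := ratFuncAlgebra K hx
  haveI := isScalarTower_poly_ratFunc K hx
  haveI := isScalarTower_const_ratFunc K hx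
  haveI := finiteDimensional_ratFunc K hx
  haveI := isSeparable_ratFunc K hx
  exact inferInstanceAs (Module.Finite K (Omega K F (BFin K F) (BInf K F) 0))

/-- **block A, instance-free**: logarithmic derivatives of functions all of whose orders are
divisible by the characteristic are regular differentials. -/
theorem dlog_mem_OmegaOf (p : ℕ) [CharP K p] (D : Derivation K F F) (hD : D x = 1)
    (φ : F) (hφ0 : φ ≠ 0) (hord : ∀ v : Place K F, (p : ℤ) ∣ v.ord φ) :
    D φ / φ ∈ OmegaOf K hx := by
  letI := polyAlgebra K x
  letI := ratFuncAlgebra K hx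
  haveI := isScalarTower_poly_ratFunc K hx
  haveI := isScalarTower_const_ratFunc K hx
  haveI := finiteDimensional_ratFunc K hx
  haveI := isSeparable_ratFunc K hx
  have hD' : D (S18lib.RRgen.xF K F) = 1 := by
    rw [S18lib.RRgen.xF, algebraMap_ratFuncAlgebra_X K hx]
    exact hD
  exact dlog_mem_Omega_zero K F (BFin K F) (BInf K F) p D hD' φ hφ0 hord

end Fermat.Agent.S44lib.Q5
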