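/-
S44lib / Q5 / Iface (helper3)  — Project LSq, block Q5 = `PsiPackage.old`: THE INTERFACE.

Level `M`, `p ∤ M` the residue characteristic of `A`, `k = kA` the residue field, `F_k = FRes A M ⊂ k((q))`,
`j̄ = Gink.jK A M`, `θ = q d/dq = S28lib.theta k`.

* `OmegaK A M hA hpM : Submodule k (FRes A M)` — the `h` with `h dj̄` a regular differential;
* `thetaJ A M = θ j̄`, `dlogTheta A M φ = θ φ / φ` (in `k((q))`);
* **block statements** (`Prop`s, each owned by one helper):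
  `ThetaStmt`      (D,  helper8): the derivation `D_j = θ / θ j̄` of `FRes A M`, `ker D_j = F_kᵖ`;
  `ThetaHeckeStmt` (D', helper2): `θ(T̄_ℓ φ)/T̄_ℓ φ = U_ℓ (θφ/φ) + ℓ V_ℓ (θφ/φ)`, coefficientwise;
  `FormsStmt`      (B + C + C2): `θ j̄ · OmegaK ⊆ k`-span of the reductions of integral cusp forms
                   of level `M` (as coefficient sequences, `Q5.IsRedOf` of block E);
* **`old_core`** (PROVED here from the three statements + block A `dlog_mem_OmegaOf` + block E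
  `exists_eigenform_of_modP_eigenseries`): a function `φ ∈ F_kˣ` with all orders divisible by `p`, not in
  `k · F_kᵖ`, with `T̄_ℓ φ ∈ k · φ^{a_ℓ} · F_kᵖ` for `ℓ ∈ S`, gives a normalised eigenform of level `M`
  congruent to `a` on `S`.
-/
import Mathlib
import Fermat.Agent.S44lib.Iface
import Fermat.Agent.S44lib.Q5.OmegaOf
import Fermat.Agent.S44lib.Q5.Lift
import Fermat.Agent.S44lib.Q4.NormRed
import Fermat.Agent.S44lib.Kap.Om
import Fermat.Agent.S28lib.ThetaDeriv
import Fermat.Agent.S18lib.Gink.Sep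

set_option autoImplicit false
set_option linter.unusedSectionVars false
set_option linter.style.haveILetI false

noncomputable section

namespace Fermat.Agent.S44lib.Q5

open AlgebraicCurve ModularCurve IntermediateField CuspForm ModularFormClass CongruenceSubgroup
open Fermat.Agent.S18lib Fermat.Agent.S44lib.Kap

local notation "Qb" => AlgebraicClosure ℚ
local notation "Zbar" => integralClosure ℤ ℂ

variable (A : ValuationSubring (AlgebraicClosure ℚ)) (M : ℕ) [NeZero M]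

local notation "kA" => IsLocalRing.ResidueField A

/-- the `h ∈ FRes A M` such that `h dj̄` is a regular differential -/
def OmegaK {p : ℕ} [Fact p.Prime] (hA : A.LiesOverPrime p) (hpM : ¬ p ∣ M) : Submodule kA (FRes A M) :=
  haveI := Gink.isSeparable_jK A M hA hpM
  OmegaOf kA (Gink.transcendental_jK A M)

/-- `θ j̄ ∈ k((q))` -/
def thetaJ : LaurentSeries kA := S28lib.theta kA ((Gink.jK A M : FRes A M) : LaurentSeries kA)

/-- the logarithmic derivative `θ φ / φ ∈ k((q))` -/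
def dlogTheta (φ : FRes A M) : LaurentSeries kA :=
  S28lib.theta kA (φ : LaurentSeries kA) / (φ : LaurentSeries kA)

/-- **block D** (helper8): the derivation `D_j = θ / θ j̄` of `FRes A M`, with `ker D_j = F_kᵖ` -/
def ThetaStmt (p : ℕ) : Prop :=
  ∃ Dj : Derivation kA (FRes A M) (FRes A M),
    (∀ f : FRes A M, ((Dj f : FRes A M) : LaurentSeries kA) * thetaJ A M =
      S28lib.theta kA (f : LaurentSeries kA)) ∧
    Dj (Gink.jK A M) = 1 ∧ ∀ f : FRes A M, Dj f = 0 → ∃ ψ : FRes A M, f = ψ ^ p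

/-- **block D, Hecke half** (helper2): the logarithmic derivative turns `T̄_ℓ = N_ᾱ ∘ β̄^*` into the
formal weight-2 Hecke operator, coefficientwise. -/
def ThetaHeckeStmt (p : ℕ) : Prop :=
  ∀ (ℓ : ℕ) [NeZero ℓ], ℓ.Prime → ¬ ℓ ∣ M → ℓ ≠ p → ∀ φ : FRes A M, φ ≠ 0 → ∀ n : ℕ,
    (dlogTheta A M (Q4.heckeFunK A M ℓ φ)).coeff (n : ℤ) =
      (dlogTheta A M φ).coeff ((n * ℓ : ℕ) : ℤ) +
        if ℓ ∣ n then (ℓ : kA) * (dlogTheta A M φ).coeff ((n / ℓ : ℕ) : ℤ) else 0

/-- **blocks B + C + C2**: `θ j̄ · OmegaK` consists of power series without constant term whose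
coefficient sequences are `k`-combinations of reductions of integral cusp forms of level `M`. -/
def FormsStmt {p : ℕ} [Fact p.Prime] (hA : A.LiesOverPrime p) (hpM : ¬ p ∣ M) : Prop :=
  ∀ h ∈ OmegaK A M hA hpM,
    (∀ n : ℤ, n < 0 → ((h : LaurentSeries kA) * thetaJ A M).coeff n = 0) ∧
    (fun n : ℕ => ((h : LaurentSeries kA) * thetaJ A M).coeff (n : ℤ)) ∈
      Submodule.span kA {c : ℕ → kA | ∃ f : CuspForm (Gamma0 M) 2, IsRedOf kA f c}

variable {A M}

theorem thetaJ_ne_zero : thetaJ A M ≠ 0 := by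
  intro h
  have h1 := congrArg (fun G : LaurentSeries kA => G.coeff (-1)) h
  simp only [thetaJ, Gink.coe_jK, S28lib.theta_coeff, HahnSeries.coeff_zero,
    coeff_jqModC_neg_one] at h1
  norm_num at h1

/-- **Q5, the core** (one component). -/
theorem old_core {p : ℕ} [Fact p.Prime] (hA : A.LiesOverPrime p) (hpM : ¬ p ∣ M)
    (hD : ThetaStmt A M p) (hTH : ThetaHeckeStmt A M p) (hBC : FormsStmt A M hA hpM)
    (φ : FRes A M) (hφ0 : φ ≠ 0)
    (hord : ∀ Q : Place kA (FRes A M), (p : ℤ) ∣ Q.ord φ)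
    (hnc : ¬ IsCPow A p φ)
    (a : ℕ → ℤ) (S : ℕ → Prop) (hS : ∀ ℓ, S ℓ → ℓ.Prime ∧ ¬ ℓ ∣ M ∧ ℓ ≠ p)
    (heig : ∀ (ℓ : ℕ) [NeZero ℓ], S ℓ → IsCPow A p (Q4.heckeFunK A M ℓ φ * (φ ^ (a ℓ))⁻¹)) :
    ∃ (g : CuspForm (Gamma0 M) 2) (𝔪 : Ideal Zbar), g.IsNormalizedEigenform ∧ 𝔪.IsMaximal ∧
      (p : Zbar) ∈ 𝔪 ∧ CongruentTo g 𝔪 a S := by
  classical
  obtain ⟨Dj, hDj, hDj1, hker⟩ := hD
  haveI : CharP kA p := Gink.charP_kRes A hA
  haveI : CharP (LaurentSeries kA) p :=
    charP_of_injective_algebraMap (algebraMap kA (LaurentSeries kA)).injective p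
  haveI := Gink.isSeparable_jK A M hA hpM
  set θ := S28lib.theta kA with hθ
  set Φ : LaurentSeries kA := (φ : LaurentSeries kA) with hΦ
  have hΦ0 : Φ ≠ 0 := fun h => hφ0 (Subtype.ext h)
  -- block A
  have hmem : Dj φ / φ ∈ OmegaK A M hA hpM :=
    dlog_mem_OmegaOf kA (Gink.transcendental_jK A M) p Dj hDj1 φ hφ0 hord
  set G : LaurentSeries kA := dlogTheta A M φ with hG
  have hGh : ((Dj φ / φ : FRes A M) : LaurentSeries kA) * thetaJ A M = G := by
    rw [hG, dlogTheta, IntermediateField.coe_div, div_mul_eq_mul_div, hDj]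
  -- `G ≠ 0`
  have hG0 : G ≠ 0 := by
    intro h0
    rw [hG, dlogTheta, div_eq_zero_iff] at h0
    have h1 : θ Φ = 0 := h0.resolve_right hΦ0
    have h2 : ((Dj φ : FRes A M) : LaurentSeries kA) = 0 := by
      have := hDj φ
      rw [h1] at this
      exact (mul_eq_zero.mp this).resolve_right thetaJ_ne_zero
    have h3 : Dj φ = 0 := Subtype.ext h2
    obtain ⟨ψ, hψ⟩ := hker φ h3
    exact hnc ⟨1, ψ, by rw [map_one, one_mul, hψ]⟩
  obtain ⟨hneg, hspan⟩ := hBC _ hmem
  rw [hGh] at hneg hspan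
  set γ : ℕ → kA := fun n => G.coeff (n : ℤ) with hγ
  have hγ0 : γ ≠ 0 := by
    intro h0
    apply hG0
    ext n
    rw [HahnSeries.coeff_zero]
    rcases lt_or_ge n 0 with hn | hn
    · exact hneg n hn
    · obtain ⟨m, rfl⟩ := Int.eq_ofNat_of_zero_le hn
      exact congrFun h0 m
  -- the eigen-equations
  have heig' : ∀ ℓ, S ℓ → ∀ n, γ (n * ℓ) + (if ℓ ∣ n then (ℓ : kA) * γ (n / ℓ) else 0) =
      ((a ℓ : ℤ) : kA) * γ n := by
    intro ℓ hℓS n
    obtain ⟨hℓp, hℓM, hℓne⟩ := hS ℓ hℓS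
    haveI : NeZero ℓ := ⟨hℓp.ne_zero⟩
    have h1 := hTH ℓ hℓp hℓM hℓne φ hφ0 n
    rw [← hG] at h1
    rw [hγ]
    simp only
    rw [← h1]
    -- `dlogTheta (T̄_ℓ φ) = a_ℓ • dlogTheta φ`
    obtain ⟨c, ψ, hcψ⟩ := heig ℓ hℓS
    have hH0 : Q4.heckeFunK A M ℓ φ ≠ 0 := Q4.heckeFunK_ne_zero hφ0
    set Hf : LaurentSeries kA := ((Q4.heckeFunK A M ℓ φ : FRes A M) : LaurentSeries kA) with hHf
    have hHf0 : Hf ≠ 0 := fun h => hH0 (Subtype.ext h)
    set Ψ : LaurentSeries kA := (ψ : LaurentSeries kA) with hΨ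
    set C : LaurentSeries kA := algebraMap kA (LaurentSeries kA) c with hC
    have hrel : Hf = C * Ψ ^ p * Φ ^ (a ℓ) := by
      have h2 := congrArg (fun z : FRes A M => (z : LaurentSeries kA)) hcψ
      simp only [IntermediateField.coe_mul, IntermediateField.coe_inv, IntermediateField.coe_pow]
        at h2
      have h3 : ((algebraMap kA (FRes A M) c : FRes A M) : LaurentSeries kA) = C := rfl
      have h5 : ((φ ^ (a ℓ) : FRes A M) : LaurentSeries kA) = Φ ^ (a ℓ) :=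
        map_zpow₀ (IntermediateField.val (modularFunctionFieldFullC kA M)) φ (a ℓ)
      rw [h3, h5] at h2
      rw [← h2, inv_mul_cancel_right₀ (zpow_ne_zero _ hΦ0)]
    have hC0 : C ≠ 0 := by
      intro h
      rw [hrel, h, zero_mul, zero_mul] at hHf0
      exact hHf0 rfl
    have hΨ0 : Ψ ^ p ≠ 0 := by
      intro h
      rw [hrel, h, mul_zero, zero_mul] at hHf0
      exact hHf0 rfl
    have hθC : θ C = 0 := Derivation.map_algebraMap θ c
    have hθΨ : θ (Ψ ^ p) = 0 := by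
      rw [Derivation.leibniz_pow, ← Nat.cast_smul_eq_nsmul (LaurentSeries kA), CharP.cast_eq_zero,
        zero_smul]
    have hθH : θ Hf = (a ℓ : LaurentSeries kA) * (Hf * (θ Φ / Φ)) := by
      rw [hrel, Derivation.leibniz, Derivation.leibniz, hθC, hθΨ, Derivation.leibniz_zpow]
      simp only [smul_eq_mul, smul_zero, add_zero, mul_zero, zsmul_eq_mul]
      rw [zpow_sub_one₀ hΦ0]
      field_simp
    have hdl : dlogTheta A M (Q4.heckeFunK A M ℓ φ) = (a ℓ : LaurentSeries kA) * G := by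
      have h6 : θ Hf / Hf = (a ℓ : LaurentSeries kA) * (θ Φ / Φ) := by
        rw [hθH]
        field_simp
      exact h6
    rw [hdl]
    have h4 : ((a ℓ : ℤ) : LaurentSeries kA) = HahnSeries.C ((a ℓ : ℤ) : kA) := by
      rw [map_intCast]
    rw [h4, HahnSeries.C_mul_eq_smul, HahnSeries.coeff_smul, smul_eq_mul]
  exact exists_eigenform_of_modP_eigenseries p a S (fun ℓ h => ⟨(hS ℓ h).1, (hS ℓ h).2.1⟩)
    γ hγ0 hspan heig'

end Fermat.Agent.S44lib.Q5
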