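/-
S44lib / Q5 / Forms (helper3) — Project LSq, block Q5: `FormsStmt` from the two halves

* `LiftStmt` (blocks C1 + B): every integral cusp form `f` of level `M` has an `h ∈ OmegaK` with
  `h · θ j̄ = ` the reduction of the `q`-expansion of `f`;
* `DimStmt` (block C2, helper8): the reductions of integral cusp forms span a space of dimension
  `≥ g(F_k) = dim OmegaK`.

`formsStmt_of : LiftStmt → DimStmt → FormsStmt` (linear algebra: the coefficient map is onto the span
of the reductions from a subspace of `OmegaK`, whose dimension is `g(F_k)`).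
-/
import Mathlib
import Fermat.Agent.S44lib.Q5.Iface

set_option autoImplicit false
set_option linter.unusedSectionVars false
set_option linter.style.haveILetI false

noncomputable section

namespace Fermat.Agent.S44lib.Q5

open AlgebraicCurve ModularCurve IntermediateField CuspForm ModularFormClass CongruenceSubgroup Module
open Fermat.Agent.S18lib Fermat.Agent.S44lib.Kap

variable (A : ValuationSubring (AlgebraicClosure ℚ)) (M : ℕ) [NeZero M]

local notation "kA" => IsLocalRing.ResidueField A

/-- the `k`-span of the reductions of the integral cusp forms of level `M` -/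
def RedSpan : Submodule kA (ℕ → kA) :=
  Submodule.span kA {c : ℕ → kA | ∃ f : CuspForm (Gamma0 M) 2, IsRedOf kA f c}

/-- **blocks C1 + B**: an integral cusp form lifts to a regular differential of the reduction. -/
def LiftStmt {p : ℕ} [Fact p.Prime] (hA : A.LiesOverPrime p) (hpM : ¬ p ∣ M) : Prop :=
  ∀ (f : CuspForm (Gamma0 M) 2) (z : ℕ → ℤ), (∀ n, (z n : ℂ) = qCoeff ⇑f n) →
    ∃ h ∈ OmegaK A M hA hpM, (h : LaurentSeries kA) * thetaJ A M =
      HahnSeries.ofPowerSeries ℤ kA (PowerSeries.mk fun n => ((z n : ℤ) : kA))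

/-- **block C2** (helper8, `Q5/ThetaInst.finrank_OmegaK`/`dimStmt`): the reductions of integral cusp
forms span at least `g(F_k) = dim OmegaK` dimensions. -/
def DimStmt {p : ℕ} [Fact p.Prime] (hA : A.LiesOverPrime p) (hpM : ¬ p ∣ M) : Prop :=
  finrank kA (OmegaK A M hA hpM) ≤ finrank kA (RedSpan A M)

theorem coeff_smul_mul (c : kA) (h : FRes A M) (y : LaurentSeries kA) (n : ℤ) :
    (((c • h : FRes A M) : LaurentSeries kA) * y).coeff n = c * ((h : LaurentSeries kA) * y).coeff n := by
  have h1 : ((c • h : FRes A M) : LaurentSeries kA) = HahnSeries.C c * (h : LaurentSeries kA) := by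
    have h0 : ((algebraMap kA (FRes A M) c : FRes A M) : LaurentSeries kA) =
        algebraMap kA (LaurentSeries kA) c := rfl
    rw [Algebra.smul_def, IntermediateField.coe_mul, h0, S28lib.algebraMap_laurent_eq_C]
  rw [h1, mul_assoc, HahnSeries.C_mul_eq_smul, HahnSeries.coeff_smul, smul_eq_mul]

/-- the coefficient sequence of `h · θ j̄` (nonnegative indices) -/
def coeffSeq : FRes A M →ₗ[kA] (ℕ → kA) where
  toFun h := fun n => ((h : LaurentSeries kA) * thetaJ A M).coeff (n : ℤ)
  map_add' h₁ h₂ := by
    funext n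
    simp only [IntermediateField.coe_add, add_mul, HahnSeries.coeff_add, Pi.add_apply]
  map_smul' c h := by
    funext n
    simp only [coeff_smul_mul, Pi.smul_apply, RingHom.id_apply, smul_eq_mul]

/-- the good subspace of `OmegaK` -/
def goodSub {p : ℕ} [Fact p.Prime] (hA : A.LiesOverPrime p) (hpM : ¬ p ∣ M) :
    Submodule kA (FRes A M) where
  carrier := {h | h ∈ OmegaK A M hA hpM ∧
    (∀ n : ℤ, n < 0 → ((h : LaurentSeries kA) * thetaJ A M).coeff n = 0) ∧
    coeffSeq A M h ∈ RedSpan A M}
  add_mem' := by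
    rintro a b ⟨ha1, ha2, ha3⟩ ⟨hb1, hb2, hb3⟩
    refine ⟨add_mem ha1 hb1, fun n hn => ?_, ?_⟩
    · rw [IntermediateField.coe_add, add_mul, HahnSeries.coeff_add, ha2 n hn, hb2 n hn, add_zero]
    · rw [map_add]; exact add_mem ha3 hb3
  zero_mem' := by
    refine ⟨zero_mem _, fun n _ => ?_, ?_⟩
    · rw [IntermediateField.coe_zero, zero_mul, HahnSeries.coeff_zero]
    · rw [map_zero]; exact zero_mem _
  smul_mem' := by
    rintro c a ⟨ha1, ha2, ha3⟩
    refine ⟨Submodule.smul_mem _ c ha1, fun n hn => ?_, ?_⟩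
    · rw [coeff_smul_mul, ha2 n hn, mul_zero]
    · rw [map_smul]; exact Submodule.smul_mem _ c ha3

variable {A M}

theorem goodSub_le {p : ℕ} [Fact p.Prime] (hA : A.LiesOverPrime p) (hpM : ¬ p ∣ M) :
    goodSub A M hA hpM ≤ OmegaK A M hA hpM := fun _ h => h.1

/-- **`FormsStmt` from `LiftStmt` and `DimStmt`** -/
theorem formsStmt_of {p : ℕ} [Fact p.Prime] (hA : A.LiesOverPrime p) (hpM : ¬ p ∣ M)
    (hL : LiftStmt A M hA hpM) (hdim : DimStmt A M hA hpM) : FormsStmt A M hA hpM := by
  classical
  haveI := Gink.isSeparable_jK A M hA hpM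
  haveI : Module.Finite kA (OmegaK A M hA hpM) :=
    inferInstanceAs (Module.Finite kA (OmegaOf kA (Gink.transcendental_jK A M)))
  haveI : Module.Finite kA (goodSub A M hA hpM) :=
    Submodule.finiteDimensional_of_le (goodSub_le hA hpM)
  -- the coefficient map restricted to the good subspace surjects onto `RedSpan`
  set T : goodSub A M hA hpM →ₗ[kA] (ℕ → kA) := (coeffSeq A M).comp (goodSub A M hA hpM).subtype
    with hT
  have hsurj : RedSpan A M ≤ LinearMap.range T := by
    apply Submodule.span_le.mpr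
    rintro c ⟨f, z, hz, hc⟩
    obtain ⟨h, hh, hser⟩ := hL f z hz
    have hcoef : ∀ n : ℕ, ((h : LaurentSeries kA) * thetaJ A M).coeff (n : ℤ) = c n := by
      intro n
      rw [hser, HahnSeries.ofPowerSeries_apply_coeff, PowerSeries.coeff_mk, hc]
    have hseq : coeffSeq A M h = c := funext hcoef
    have hgood : h ∈ goodSub A M hA hpM := by
      refine ⟨hh, fun n hn => ?_, ?_⟩
      · rw [hser]
        have : n ∉ Set.range ((↑) : ℕ → ℤ) := by
          rintro ⟨m, rfl⟩
          exact absurd hn (by simp)
        exact HahnSeries.embDomain_notin_range this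
      · rw [hseq]
        exact Submodule.subset_span ⟨f, z, hz, hc⟩
    exact ⟨⟨h, hgood⟩, hseq⟩
  -- `g ≤ finrank RedSpan ≤ finrank (range T) ≤ finrank goodSub`
  have h1 : finrank kA (RedSpan A M) ≤ finrank kA (LinearMap.range T) :=
    Submodule.finrank_mono hsurj
  have h2 : finrank kA (LinearMap.range T) ≤ finrank kA (goodSub A M hA hpM) :=
    LinearMap.finrank_range_le T
  have h3 : goodSub A M hA hpM = OmegaK A M hA hpM := by
    apply Submodule.eq_of_le_of_finrank_le (goodSub_le hA hpM)
    exact hdim.trans (h1.trans h2)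
  intro h hh
  rw [← h3] at hh
  exact ⟨hh.2.1, hh.2.2⟩

end Fermat.Agent.S44lib.Q5
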