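/-
S44 library, block Q5/D (helper8): **derivations and separable extensions**.

* `deriv_mem_adjoin_simple` : a `k`-derivation `D` of `L` with `D x ∈ k⟮x⟯` preserves `k⟮x⟯`;
* `deriv_mem_of_isSeparable` : if `D` preserves `E` and every element of `F ⊇ E` is separable
  over `E`, then `D` preserves `F` (differentiate the minimal polynomial);
* `exists_pow_eq_of_deriv_eq_zero` : characteristic `p`, `k` perfect, `F / k⟮x⟯` separable,
  `D : Derivation k F F` with `D x = 1`: the kernel of `D` is `Fᵖ`
  (`F = Fᵖ[x]` by separability, and `1, x, …, x^{p-1}` are independent over the constants).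
-/
import Mathlib

set_option autoImplicit false
set_option linter.unusedSectionVars false

namespace Fermat.Agent.S44lib.Q5

open Polynomial IntermediateField

section Preserve

variable {k L : Type*} [Field k] [Field L] [Algebra k L]

/-- a derivation with `D x ∈ k⟮x⟯` preserves `k⟮x⟯` -/
theorem deriv_mem_adjoin_simple (D : Derivation k L L) (x : L) (hx : D x ∈ k⟮x⟯) :
    ∀ f ∈ k⟮x⟯, D f ∈ k⟮x⟯ := by
  intro f hf
  induction hf using IntermediateField.adjoin_induction with
  | mem y hy =>
    rw [Set.mem_singleton_iff] at hy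
    rw [hy]; exact hx
  | algebraMap c =>
    rw [Derivation.map_algebraMap]; exact zero_mem _
  | add a b _ _ ha hb =>
    rw [map_add]; exact add_mem ha hb
  | inv a ha iha =>
    rw [Derivation.leibniz_inv, smul_eq_mul]
    exact mul_mem (neg_mem (pow_mem (inv_mem ha) 2)) iha
  | mul a b ha hb iha ihb =>
    rw [Derivation.leibniz, smul_eq_mul, smul_eq_mul]
    exact add_mem (mul_mem ha ihb) (mul_mem hb iha)

/-- chain rule, existential form: `D (p(f)) = a + p′(f) D f` with `a ∈ F` -/
theorem exists_deriv_aeval (D : Derivation k L L) (E F : IntermediateField k L) (hEF : E ≤ F)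
    (hD : ∀ e ∈ E, D e ∈ E) {f : L} (hf : f ∈ F) (p : E[X]) :
    ∃ a ∈ F, D (aeval f p) = a + aeval f (derivative p) * D f := by
  induction p using Polynomial.induction_on' with
  | add p q hp hq =>
    obtain ⟨a, ha, hpa⟩ := hp
    obtain ⟨b, hb, hqb⟩ := hq
    refine ⟨a + b, add_mem ha hb, ?_⟩
    rw [map_add, map_add, hpa, hqb, derivative_add, map_add]
    ring
  | monomial n c =>
    refine ⟨D (c : L) * f ^ n, mul_mem (hEF (hD _ c.2)) (pow_mem hf n), ?_⟩
    rw [aeval_monomial, derivative_monomial, aeval_monomial, Derivation.leibniz,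
      Derivation.leibniz_pow]
    simp only [smul_eq_mul, nsmul_eq_mul, map_mul, map_natCast]
    have : (algebraMap E L) c = (c : L) := rfl
    rw [this]
    ring

/-- **a derivation preserving `E` preserves every separable algebraic extension of `E`** -/
theorem deriv_mem_of_isSeparable (D : Derivation k L L) (E F : IntermediateField k L)
    (hEF : E ≤ F) (hD : ∀ e ∈ E, D e ∈ E) (hsep : ∀ f ∈ F, IsSeparable E f) :
    ∀ f ∈ F, D f ∈ F := by
  intro f hf
  have hs := hsep f hf
  obtain ⟨a, ha, hfa⟩ := exists_deriv_aeval D E F hEF hD hf (minpoly E f)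
  rw [minpoly.aeval, map_zero] at hfa
  have hB : aeval f (derivative (minpoly E f)) ≠ 0 :=
    Polynomial.Separable.aeval_derivative_ne_zero hs (minpoly.aeval E f)
  have hBF : aeval f (derivative (minpoly E f)) ∈ F := by
    rw [aeval_eq_sum_range]
    refine sum_mem (fun i _ => ?_)
    rw [Algebra.smul_def]
    exact mul_mem (hEF (SetLike.coe_mem _)) (pow_mem hf i)
  have e : D f = -a / aeval f (derivative (minpoly E f)) := by
    field_simp
    linear_combination -hfa
  rw [e]
  exact div_mem (neg_mem ha) hBF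

end Preserve

section Kernel

variable {k F : Type*} [Field k] [Field F] [Algebra k F] {p : ℕ} [hp : Fact p.Prime] [CharP F p]

/-- the derivative of `∑_{i ≤ n} b_i xⁱ`, `b_i` constants -/
theorem deriv_sum_const (D : Derivation k F F) {x : F} (hDx : D x = 1) (n : ℕ) (b : ℕ → F)
    (hb : ∀ i, D (b i) = 0) :
    D (∑ i ∈ Finset.range (n + 1), b i * x ^ i) =
      ∑ i ∈ Finset.range n, ((i + 1 : ℕ) : F) * b (i + 1) * x ^ i := by
  rw [map_sum, Finset.sum_range_succ']
  simp only [pow_zero, mul_one, hb, add_zero]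
  apply Finset.sum_congr rfl
  intro i _
  rw [Derivation.leibniz, Derivation.leibniz_pow, hb, hDx]
  simp only [smul_eq_mul, nsmul_eq_mul, mul_zero, add_zero, mul_one, Nat.add_sub_cancel]
  ring

/-- `1, x, …, x^{n-1}` (`n ≤ p`) are linearly independent over the constants of a derivation with
`D x = 1` -/
theorem coeff_eq_zero_of_sum_eq_zero (D : Derivation k F F) {x : F} (hDx : D x = 1) :
    ∀ n : ℕ, n ≤ p → ∀ b : ℕ → F, (∀ i, D (b i) = 0) →
      ∑ i ∈ Finset.range n, b i * x ^ i = 0 → ∀ i < n, b i = 0 := by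
  intro n
  induction n with
  | zero => intro _ b _ _ i hi; exact absurd hi (Nat.not_lt_zero i)
  | succ n ih =>
    intro hn b hb hsum
    -- differentiate
    have hD : ∑ i ∈ Finset.range n, ((i + 1 : ℕ) : F) * b (i + 1) * x ^ i = 0 := by
      rw [← deriv_sum_const D hDx n b hb, hsum, map_zero]
    have h2 := ih (by omega) (fun i => ((i + 1 : ℕ) : F) * b (i + 1)) (fun i => by
      rw [Derivation.leibniz, hb, Derivation.map_natCast]; simp) hD
    have hpos : ∀ i, 1 ≤ i → i < n + 1 → b i = 0 := by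
      intro i hi1 hi
      obtain ⟨j, rfl⟩ : ∃ j, i = j + 1 := ⟨i - 1, by omega⟩
      have h3 := h2 j (by omega)
      have hne : ((j + 1 : ℕ) : F) ≠ 0 := by
        intro h0
        have := (CharP.cast_eq_zero_iff F p (j + 1)).1 h0
        have := Nat.le_of_dvd (by omega) this
        omega
      exact (mul_eq_zero.1 h3).resolve_left hne
    intro i hi
    rcases Nat.eq_zero_or_pos i with rfl | hipos
    · rw [Finset.sum_range_succ'] at hsum
      have hz : ∑ i ∈ Finset.range n, b (i + 1) * x ^ (i + 1) = 0 :=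
        Finset.sum_eq_zero (fun j hj => by
          rw [hpos (j + 1) (by omega) (by rw [Finset.mem_range] at hj; omega), zero_mul])
      rw [hz, zero_add, pow_zero, mul_one] at hsum
      exact hsum
    · exact hpos i hipos hi

variable (p) in
/-- the set `Fᵖ[x] = {∑_{i<p} c_iᵖ xⁱ}` -/
def powSpan (x : F) : Set F :=
  {f | ∃ c : ℕ → F, f = ∑ i ∈ Finset.range p, c i ^ p * x ^ i}

theorem powSpan_add {x f g : F} (hf : f ∈ powSpan p x) (hg : g ∈ powSpan p x) :
    f + g ∈ powSpan p x := by
  obtain ⟨c, rfl⟩ := hf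
  obtain ⟨d, rfl⟩ := hg
  refine ⟨fun i => c i + d i, ?_⟩
  rw [← Finset.sum_add_distrib]
  apply Finset.sum_congr rfl
  intro i _
  rw [add_pow_char]
  ring

theorem powSpan_zero (x : F) : (0 : F) ∈ powSpan p x :=
  ⟨fun _ => 0, by simp [zero_pow hp.out.ne_zero]⟩

theorem powSpan_sum {x : F} {ι : Type*} (s : Finset ι) (f : ι → F)
    (hf : ∀ i ∈ s, f i ∈ powSpan p x) : ∑ i ∈ s, f i ∈ powSpan p x := by
  classical
  induction s using Finset.induction_on with
  | empty => simpa using powSpan_zero x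
  | insert a s ha ih =>
    rw [Finset.sum_insert ha]
    exact powSpan_add (hf a (Finset.mem_insert_self a s))
      (ih (fun i hi => hf i (Finset.mem_insert_of_mem hi)))

/-- monomials `aᵖ xⁿ`, any `n` -/
theorem powSpan_monomial (x a : F) (n : ℕ) : a ^ p * x ^ n ∈ powSpan p x := by
  refine ⟨fun i => if i = n % p then a * x ^ (n / p) else 0, ?_⟩
  rw [Finset.sum_eq_single (n % p)]
  · simp only [if_true]
    rw [mul_pow, ← pow_mul, mul_assoc, ← pow_add]
    congr 2
    rw [mul_comm]
    exact (Nat.div_add_mod n p).symm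
  · intro i _ hi
    simp only [hi, if_false, zero_pow hp.out.ne_zero, zero_mul]
  · intro h
    exact absurd (Finset.mem_range.2 (Nat.mod_lt n hp.out.pos)) h

theorem powSpan_mul {x f g : F} (hf : f ∈ powSpan p x) (hg : g ∈ powSpan p x) :
    f * g ∈ powSpan p x := by
  obtain ⟨c, rfl⟩ := hf
  obtain ⟨d, rfl⟩ := hg
  rw [Finset.sum_mul_sum]
  apply powSpan_sum
  intro i _
  apply powSpan_sum
  intro j _
  have e : c i ^ p * x ^ i * (d j ^ p * x ^ j) = (c i * d j) ^ p * x ^ (i + j) := by
    rw [mul_pow, pow_add]; ring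
  rw [e]
  exact powSpan_monomial x _ _

theorem powSpan_pow_mem (x a : F) : a ^ p ∈ powSpan p x := by
  have := powSpan_monomial (p := p) x a 0
  rwa [pow_zero, mul_one] at this

theorem powSpan_inv {x f : F} (hf : f ∈ powSpan p x) : f⁻¹ ∈ powSpan p x := by
  rcases eq_or_ne f 0 with rfl | h0
  · rw [inv_zero]; exact powSpan_zero x
  have e1 : f ^ (p - 1) * f = f ^ p := by
    rw [← pow_succ]; congr 1; have := hp.out.pos; omega
  have e : f⁻¹ = (f⁻¹) ^ p * f ^ (p - 1) := by
    rw [inv_pow, ← e1]; field_simp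
  rw [e]
  refine powSpan_mul (powSpan_pow_mem x _) ?_
  clear e
  induction (p - 1) with
  | zero =>
    rw [pow_zero]
    have := powSpan_pow_mem (p := p) x (1 : F)
    rwa [one_pow] at this
  | succ n ih => rw [pow_succ]; exact powSpan_mul ih hf

/-- `Fᵖ[x]` as an intermediate field (`k` perfect) -/
def powSpanField (hperf : ∀ c : k, ∃ d : k, d ^ p = c) (x : F) : IntermediateField k F where
  carrier := powSpan p x
  mul_mem' := powSpan_mul
  one_mem' := by
    have := powSpan_pow_mem (p := p) x (1 : F)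
    rwa [one_pow] at this
  add_mem' := powSpan_add
  zero_mem' := powSpan_zero x
  algebraMap_mem' c := by
    obtain ⟨d, rfl⟩ := hperf c
    rw [map_pow]
    exact powSpan_pow_mem x _
  inv_mem' _ := powSpan_inv

theorem mem_powSpanField (hperf : ∀ c : k, ∃ d : k, d ^ p = c) (x f : F) :
    f ∈ powSpanField hperf x ↔ f ∈ powSpan p x := Iff.rfl

/-- **`F = Fᵖ[x]`** when `F / k⟮x⟯` is separable and `k` is perfect -/
theorem mem_powSpan_of_isSeparable (hperf : ∀ c : k, ∃ d : k, d ^ p = c) (x : F)
    (hsep : ∀ f : F, IsSeparable k⟮x⟯ f) (f : F) : f ∈ powSpan p x := by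
  have hp1 : 1 < p := hp.out.one_lt
  have hx : x ∈ powSpanField hperf x := by
    have := powSpan_monomial (p := p) x (1 : F) 1
    rw [one_pow, one_mul, pow_one] at this
    exact this
  have hle : k⟮x⟯ ≤ powSpanField hperf x := by
    rw [adjoin_simple_le_iff]; exact hx
  have : ExpChar k⟮x⟯ p := by
    have : CharP k⟮x⟯ p := (Algebra.charP_iff k⟮x⟯ F p).2 inferInstance
    exact ExpChar.prime hp.out
  have hadj := adjoin_simple_eq_adjoin_pow_expChar_of_isSeparable k⟮x⟯ F (hsep f) p
  have hfmem : f ∈ k⟮x⟯⟮f ^ p⟯ := by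
    rw [← hadj]; exact mem_adjoin_simple_self _ f
  have hle2 : k⟮x⟯⟮f ^ p⟯ ≤ IntermediateField.extendScalars hle := by
    rw [adjoin_simple_le_iff, IntermediateField.mem_extendScalars]
    exact powSpan_pow_mem x f
  have := hle2 hfmem
  rwa [IntermediateField.mem_extendScalars] at this

/-- **the kernel of `D = d/dx` is `Fᵖ`** -/
theorem exists_pow_eq_of_deriv_eq_zero (hperf : ∀ c : k, ∃ d : k, d ^ p = c) (x : F)
    (hsep : ∀ f : F, IsSeparable k⟮x⟯ f) (D : Derivation k F F) (hDx : D x = 1) {f : F}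
    (hf : D f = 0) : ∃ g : F, g ^ p = f := by
  obtain ⟨c, hc⟩ := mem_powSpan_of_isSeparable hperf x hsep f
  have hp1 : 1 ≤ p := hp.out.pos
  have hconst : ∀ i, D (c i ^ p) = 0 := by
    intro i
    rw [Derivation.leibniz_pow, nsmul_eq_mul, CharP.cast_eq_zero, zero_mul]
  obtain ⟨n, hn⟩ : ∃ n, p = n + 1 := ⟨p - 1, by omega⟩
  have hD : ∑ i ∈ Finset.range n, ((i + 1 : ℕ) : F) * c (i + 1) ^ p * x ^ i = 0 := by
    rw [← deriv_sum_const D hDx n (fun i => c i ^ p) hconst, ← hn, ← hc, hf]
  have h2 := coeff_eq_zero_of_sum_eq_zero D hDx n (by omega)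
    (fun i => ((i + 1 : ℕ) : F) * c (i + 1) ^ p) (fun i => by
      rw [Derivation.leibniz, hconst, Derivation.map_natCast]; simp) hD
  have hzero : ∀ i, 1 ≤ i → i < p → c i ^ p = 0 := by
    intro i hi1 hi
    obtain ⟨j, rfl⟩ : ∃ j, i = j + 1 := ⟨i - 1, by omega⟩
    have h3 := h2 j (by omega)
    have hne : ((j + 1 : ℕ) : F) ≠ 0 := by
      intro h0
      have := (CharP.cast_eq_zero_iff F p (j + 1)).1 h0
      have := Nat.le_of_dvd (by omega) this
      omega
    exact (mul_eq_zero.1 h3).resolve_left hne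
  refine ⟨c 0, ?_⟩
  rw [hc, hn, Finset.sum_range_succ', pow_zero, mul_one, ← hn]
  rw [Finset.sum_eq_zero, zero_add]
  intro j hj
  rw [Finset.mem_range] at hj
  rw [hzero (j + 1) (by omega) (by omega), zero_mul]

end Kernel

end Fermat.Agent.S44lib.Q5
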