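/-
S44 library, block Q5/D (helper8): **the derivation `D = d/dj̄` of `F_k = k(j̄(q^d) : d ∣ N)`**
(`F_k = modularFunctionFieldFullC k N ⊆ k((q))`) as a restriction of `θ / θ(j̄)`, `θ = q d/dq`
(`S28lib.theta`).

* `theta_jq_ne_zero` : `θ j̄ ≠ 0`;
* `thetaDiv k` : the derivation `f ↦ θ f / θ j̄` of `k((q))`;
* `thetaDiv_mem` : it preserves `F_k` when `F_k / k(j̄)` is separable (`DerivSep`);
* `Dj k N` : the induced `Derivation k F_k F_k`, `coe_Dj`, `Dj_j = 1`, `theta_coe`;
* `exists_pow_eq_of_theta_eq_zero` : characteristic `p`, `k` perfect: `θ f = 0`, `f ∈ F_k`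
  ⟹ `f = gᵖ` with `g ∈ F_k`.
-/
import Mathlib
import Fermat.Agent.S28lib.ThetaDeriv
import Fermat.Agent.S28lib.Series
import Fermat.Agent.S44lib.Q5.DerivSep

set_option autoImplicit false
set_option linter.unusedSectionVars false

noncomputable section

namespace Fermat.Agent.S44lib.Q5

open HahnSeries ModularCurve IntermediateField Fermat.Agent.S28lib

section Generic

variable {k L : Type*} [Field k] [Field L] [Algebra k L]

/-- a derivation (for the module structure `Algebra.toModule`) from an additive map satisfying the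
Leibniz rule and killing the constants -/
def derivOfLeibniz (d : L → L) (hadd : ∀ a b, d (a + b) = d a + d b)
    (hmul : ∀ a b, d (a * b) = a * d b + b * d a) (hconst : ∀ c : k, d (algebraMap k L c) = 0) :
    Derivation k L L where
  toFun := d
  map_add' := hadd
  map_smul' c a := by
    rw [Algebra.smul_def, hmul, hconst, mul_zero, add_zero, RingHom.id_apply, Algebra.smul_def]
  map_one_eq_zero' := by
    show d 1 = 0
    have := hconst 1
    rwa [map_one] at this
  leibniz' a b := by
    show d (a * b) = a • d b + b • d a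
    rw [hmul, smul_eq_mul, smul_eq_mul]

@[simp] theorem derivOfLeibniz_apply (d : L → L) (hadd : ∀ a b, d (a + b) = d a + d b)
    (hmul : ∀ a b, d (a * b) = a * d b + b * d a) (hconst : ∀ c : k, d (algebraMap k L c) = 0)
    (a : L) : derivOfLeibniz d hadd hmul hconst a = d a := rfl

end Generic

variable (k : Type*) [Field k]

/-- `θ j̄ ≠ 0` (its coefficient of `q⁻¹` is `-1`) -/
theorem theta_jq_ne_zero : theta k (jqModC k) ≠ 0 := by
  intro h
  have h1 := congrArg (fun f : LaurentSeries k => f.coeff (-1)) h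
  simp only [theta_coeff, coeff_jqModC_neg_one, HahnSeries.coeff_zero] at h1
  norm_num at h1

/-- the derivation `f ↦ θ f / θ j̄` of `k((q))` -/
def thetaDiv :=
  derivOfLeibniz (k := k) (L := LaurentSeries k) (fun f => (theta k (jqModC k))⁻¹ * theta k f)
    (fun a b => by rw [map_add, mul_add])
    (fun a b => by
      rw [Derivation.leibniz, smul_eq_mul, smul_eq_mul]; ring)
    (fun c => by
      have h : theta k (algebraMap k (LaurentSeries k) c) = 0 := thetaFun_algebraMap k c
      rw [h, mul_zero])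

theorem thetaDiv_apply (f : LaurentSeries k) :
    thetaDiv k f = (theta k (jqModC k))⁻¹ * theta k f := rfl

theorem thetaDiv_jq : thetaDiv k (jqModC k) = 1 := by
  rw [thetaDiv_apply, inv_mul_cancel₀ (theta_jq_ne_zero k)]

theorem theta_eq_mul_thetaDiv (f : LaurentSeries k) :
    theta k f = theta k (jqModC k) * thetaDiv k f := by
  rw [thetaDiv_apply, ← mul_assoc, mul_inv_cancel₀ (theta_jq_ne_zero k), one_mul]

variable (N : ℕ) [NeZero N]

/-- `j̄` as an element of `F_k` -/
def jF : ↥(modularFunctionFieldFullC k N) := ⟨jqModC k, jqModC_mem_full k N⟩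

@[simp] theorem coe_jF : ((jF k N : ↥(modularFunctionFieldFullC k N)) : LaurentSeries k) =
    jqModC k := rfl

/-- `k(j̄)` inside `k((q))` is contained in `F_k` -/
theorem adjoin_jq_le : k⟮jqModC k⟯ ≤ modularFunctionFieldFullC k N := by
  rw [adjoin_simple_le_iff]; exact jqModC_mem_full k N

/-- the coercion of `k(j̄) ⊆ F_k` lands in `k(j̄) ⊆ k((q))` -/
theorem coe_mem_adjoin_jq {x : ↥(modularFunctionFieldFullC k N)} (hx : x ∈ k⟮jF k N⟯) :
    (x : LaurentSeries k) ∈ k⟮jqModC k⟯ := by
  have h1 : (k⟮jF k N⟯).map (modularFunctionFieldFullC k N).val = k⟮jqModC k⟯ := by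
    rw [adjoin_map, Set.image_singleton]
    rfl
  rw [← h1]
  exact (IntermediateField.mem_map _).2 ⟨x, hx, rfl⟩

/-- separability of an element of `F_k` over `k(j̄)`, seen inside `k((q))` -/
theorem isSeparable_coe [Algebra.IsSeparable k⟮jF k N⟯ ↥(modularFunctionFieldFullC k N)]
    (f : ↥(modularFunctionFieldFullC k N)) : IsSeparable k⟮jqModC k⟯ (f : LaurentSeries k) := by
  have hs : IsSeparable k⟮jF k N⟯ f := Algebra.IsSeparable.isSeparable _ f
  set P := minpoly k⟮jF k N⟯ f with hP
  -- the ring hom `k(j̄) ⊆ F_k → k(j̄) ⊆ k((q))`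
  let ψ : k⟮jF k N⟯ →+* k⟮jqModC k⟯ :=
    { toFun := fun x => ⟨((x : ↥(modularFunctionFieldFullC k N)) : LaurentSeries k),
        coe_mem_adjoin_jq k N x.2⟩
      map_one' := rfl
      map_mul' := fun _ _ => rfl
      map_zero' := rfl
      map_add' := fun _ _ => rfl }
  have hroot : Polynomial.aeval (f : LaurentSeries k) (P.map ψ) = 0 := by
    rw [Polynomial.aeval_def, Polynomial.eval₂_map]
    have h1 : (algebraMap k⟮jqModC k⟯ (LaurentSeries k)).comp ψ =
        ((modularFunctionFieldFullC k N).val : _ →+* LaurentSeries k).comp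
          (algebraMap k⟮jF k N⟯ ↥(modularFunctionFieldFullC k N)) := rfl
    rw [h1]
    have h2 := Polynomial.hom_eval₂ P
      (algebraMap k⟮jF k N⟯ ↥(modularFunctionFieldFullC k N))
      ((modularFunctionFieldFullC k N).val : _ →+* LaurentSeries k) f
    rw [← Polynomial.aeval_def, hP, minpoly.aeval, map_zero] at h2
    exact h2.symm
  have hsep : (P.map ψ).Separable := Polynomial.Separable.map hs
  exact hsep.of_dvd (minpoly.dvd _ _ hroot)

/-- **`θ / θ j̄` preserves `F_k`** -/
theorem thetaDiv_mem [Algebra.IsSeparable k⟮jF k N⟯ ↥(modularFunctionFieldFullC k N)]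
    {f : LaurentSeries k} (hf : f ∈ modularFunctionFieldFullC k N) :
    thetaDiv k f ∈ modularFunctionFieldFullC k N := by
  refine deriv_mem_of_isSeparable (thetaDiv k) k⟮jqModC k⟯ (modularFunctionFieldFullC k N)
    (adjoin_jq_le k N) ?_ ?_ f hf
  · exact deriv_mem_adjoin_simple (thetaDiv k) (jqModC k) (by rw [thetaDiv_jq]; exact one_mem _)
  · intro g hg
    exact isSeparable_coe k N ⟨g, hg⟩

variable [Algebra.IsSeparable k⟮jF k N⟯ ↥(modularFunctionFieldFullC k N)]

theorem thetaDiv_add (f g : LaurentSeries k) :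
    thetaDiv k (f + g) = thetaDiv k f + thetaDiv k g := by
  rw [thetaDiv_apply, thetaDiv_apply, thetaDiv_apply, map_add, mul_add]

theorem thetaDiv_mul (f g : LaurentSeries k) :
    thetaDiv k (f * g) = f * thetaDiv k g + g * thetaDiv k f := by
  rw [thetaDiv_apply, thetaDiv_apply, thetaDiv_apply, Derivation.leibniz, smul_eq_mul,
    smul_eq_mul]
  ring

theorem thetaDiv_algebraMap (c : k) : thetaDiv k (algebraMap k (LaurentSeries k) c) = 0 := by
  have h : theta k (algebraMap k (LaurentSeries k) c) = 0 := thetaFun_algebraMap k c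
  rw [thetaDiv_apply, h, mul_zero]

/-- **the derivation `D = d/dj̄` of `F_k`** -/
def Dj :=
  derivOfLeibniz (k := k) (L := ↥(modularFunctionFieldFullC k N))
    (fun f => ⟨thetaDiv k (f : LaurentSeries k), thetaDiv_mem k N f.2⟩)
    (fun f g => Subtype.ext (by
      show thetaDiv k ((f + g : ↥(modularFunctionFieldFullC k N)) : LaurentSeries k) = _
      push_cast
      exact thetaDiv_add k _ _))
    (fun f g => Subtype.ext (by
      show thetaDiv k ((f * g : ↥(modularFunctionFieldFullC k N)) : LaurentSeries k) = _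
      push_cast
      exact thetaDiv_mul k _ _))
    (fun c => Subtype.ext (by
      show thetaDiv k (algebraMap k (LaurentSeries k) c) = _
      rw [thetaDiv_algebraMap]; rfl))

@[simp] theorem coe_Dj (f : ↥(modularFunctionFieldFullC k N)) :
    ((Dj k N f : ↥(modularFunctionFieldFullC k N)) : LaurentSeries k) =
      thetaDiv k (f : LaurentSeries k) := rfl

theorem Dj_jF : Dj k N (jF k N) = 1 := Subtype.ext (by
  rw [coe_Dj, coe_jF, thetaDiv_jq]; rfl)

/-- `θ f = θ(j̄) · D f` -/
theorem theta_coe (f : ↥(modularFunctionFieldFullC k N)) :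
    theta k (f : LaurentSeries k) =
      theta k (jqModC k) * ((Dj k N f : ↥(modularFunctionFieldFullC k N)) : LaurentSeries k) := by
  rw [coe_Dj, ← theta_eq_mul_thetaDiv]

theorem Dj_eq_zero_iff (f : ↥(modularFunctionFieldFullC k N)) :
    Dj k N f = 0 ↔ theta k (f : LaurentSeries k) = 0 := by
  rw [theta_coe k N f, mul_eq_zero, or_iff_right (theta_jq_ne_zero k)]
  constructor
  · intro h; rw [h]; rfl
  · intro h; exact Subtype.ext h

/-- **the kernel of `θ` on `F_k` is `F_kᵖ`** (characteristic `p`, `k` perfect) -/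
theorem exists_pow_eq_of_theta_eq_zero {p : ℕ} [Fact p.Prime] [CharP k p]
    (hperf : ∀ c : k, ∃ d : k, d ^ p = c) {f : ↥(modularFunctionFieldFullC k N)}
    (hf : theta k (f : LaurentSeries k) = 0) :
    ∃ g : ↥(modularFunctionFieldFullC k N), g ^ p = f := by
  have : CharP ↥(modularFunctionFieldFullC k N) p :=
    charP_of_injective_algebraMap (algebraMap k ↥(modularFunctionFieldFullC k N)).injective p
  exact exists_pow_eq_of_deriv_eq_zero hperf (jF k N)
    (fun g => Algebra.IsSeparable.isSeparable _ g) (Dj k N) (Dj_jF k N)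
    ((Dj_eq_zero_iff k N f).2 hf)

end Fermat.Agent.S44lib.Q5
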