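/-
S44 library, block Q5/D (helper8): **the logarithmic derivative `λ φ = θ φ / φ`** on `k((q))` and on
`F_k = modularFunctionFieldFullC k N`.

* `tlog k f = θ f / f`; `tlog_mul`, `tlog_inv`, `tlog_pow`, `tlog_C`, `tlog_pow_char`,
  `tlog_C_mul_pow_char` (`λ` is additive and kills `kˣ · k((q))ˣᵖ` in characteristic `p`);
* `tlog_qExpand : λ (f(q^m)) = m • (λ f)(q^m)`,  `tlog_twist : λ (f(ζ q)) = (λ f)(ζ q)`;
* `tlog_coe : λ φ = θ(j̄) · (Dφ/φ)` for `φ ∈ F_k` (`D = Dj`), so `λ φ / θ(j̄) ∈ F_k`;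
* `exists_pow_eq_of_tlog_eq_zero` : `φ ∈ F_kˣ`, `λ φ = 0` ⟹ `φ ∈ F_kᵖ` (`k` perfect of
  characteristic `p`, `F_k / k(j̄)` separable): **`λ` is injective on `F_kˣ / F_kˣᵖ`**;
* the specialisation `DjK`, `exists_pow_eq_of_tlog_eq_zero_kRes` to `FRes A M`, `q ∤ M`.
-/
import Mathlib
import Fermat.Agent.S28lib.Twist
import Fermat.Agent.S18lib.Gink.Sep
import Fermat.Agent.S44lib.Q5.Theta

set_option autoImplicit false
set_option linter.unusedSectionVars false

noncomputable section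

namespace Fermat.Agent.S44lib.Q5

open HahnSeries ModularCurve IntermediateField Fermat.Agent.S28lib Fermat.Agent.S18lib

section Laurent

variable (k : Type*) [Field k]

/-- the logarithmic derivative `λ f = θ f / f` -/
def tlog (f : LaurentSeries k) : LaurentSeries k := theta k f / f

theorem tlog_def (f : LaurentSeries k) : tlog k f = theta k f / f := rfl

theorem tlog_mul {f g : LaurentSeries k} (hf : f ≠ 0) (hg : g ≠ 0) :
    tlog k (f * g) = tlog k f + tlog k g := by
  rw [tlog_def, tlog_def, tlog_def, Derivation.leibniz, smul_eq_mul, smul_eq_mul]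
  field_simp
  ring

theorem tlog_one : tlog k 1 = 0 := by
  rw [tlog_def, Derivation.map_one_eq_zero, zero_div]

theorem tlog_inv {f : LaurentSeries k} (hf : f ≠ 0) : tlog k f⁻¹ = -tlog k f := by
  have h := tlog_mul k hf (inv_ne_zero hf)
  rw [mul_inv_cancel₀ hf, tlog_one] at h
  exact eq_neg_of_add_eq_zero_right h.symm

theorem tlog_div {f g : LaurentSeries k} (hf : f ≠ 0) (hg : g ≠ 0) :
    tlog k (f / g) = tlog k f - tlog k g := by
  rw [div_eq_mul_inv, tlog_mul k hf (inv_ne_zero hg), tlog_inv k hg, sub_eq_add_neg]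

theorem tlog_pow {f : LaurentSeries k} (hf : f ≠ 0) (n : ℕ) : tlog k (f ^ n) = n • tlog k f := by
  induction n with
  | zero => rw [pow_zero, tlog_one, zero_smul]
  | succ n ih => rw [pow_succ, tlog_mul k (pow_ne_zero n hf) hf, ih, succ_nsmul]

theorem tlog_prod {ι : Type*} (s : Finset ι) (f : ι → LaurentSeries k) (hf : ∀ i ∈ s, f i ≠ 0) :
    tlog k (∏ i ∈ s, f i) = ∑ i ∈ s, tlog k (f i) := by
  classical
  induction s using Finset.induction_on with
  | empty => simp [tlog_one]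
  | insert a s ha ih =>
    rw [Finset.prod_insert ha, Finset.sum_insert ha,
      tlog_mul k (hf a (Finset.mem_insert_self a s))
        (Finset.prod_ne_zero_iff.2 (fun i hi => hf i (Finset.mem_insert_of_mem hi))),
      ih (fun i hi => hf i (Finset.mem_insert_of_mem hi))]

theorem tlog_C (c : k) : tlog k (HahnSeries.C c) = 0 := by
  rw [tlog_def, theta_C, zero_div]

/-- in characteristic `p`, `λ` kills `p`-th powers -/
theorem tlog_pow_char {p : ℕ} [CharP k p] (f : LaurentSeries k) : tlog k (f ^ p) = 0 := by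
  rcases eq_or_ne f 0 with rfl | hf
  · rcases Nat.eq_zero_or_pos p with rfl | hp
    · rw [pow_zero, tlog_one]
    · rw [zero_pow hp.ne', tlog_def, map_zero, zero_div]
  rw [tlog_pow k hf]
  have : CharP (LaurentSeries k) p :=
    charP_of_injective_algebraMap (algebraMap k (LaurentSeries k)).injective p
  rw [nsmul_eq_mul, CharP.cast_eq_zero, zero_mul]

theorem tlog_C_mul_pow_char {p : ℕ} [CharP k p] {c : k} (hc : c ≠ 0) {f : LaurentSeries k}
    (hf : f ≠ 0) : tlog k (HahnSeries.C c * f ^ p) = 0 := by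
  have hC : (HahnSeries.C c : LaurentSeries k) ≠ 0 := by
    intro h
    exact hc (HahnSeries.C_injective (by rw [h, map_zero]))
  rw [tlog_mul k hC (pow_ne_zero p hf), tlog_C, tlog_pow_char, add_zero]

/-- `λ (f(q^m)) = m • (λ f)(q^m)` -/
theorem tlog_qExpand (m : ℕ) [NeZero m] (f : LaurentSeries k) :
    tlog k (qExpand k m f) = m • qExpand k m (tlog k f) := by
  rw [tlog_def, tlog_def, theta_qExpand, map_div₀, smul_div_assoc]

/-- `θ` commutes with the twist `q ↦ ζ q` -/
theorem theta_twist (ζ : kˣ) (f : LaurentSeries k) :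
    theta k (twist ζ f) = twist ζ (theta k f) := by
  ext n
  simp only [theta_coeff, twist_coeff]
  ring

theorem tlog_twist (ζ : kˣ) (f : LaurentSeries k) :
    tlog k (twist ζ f) = twist ζ (tlog k f) := by
  rw [tlog_def, tlog_def, theta_twist, map_div₀]

theorem tlog_eq_zero_iff {f : LaurentSeries k} (hf : f ≠ 0) : tlog k f = 0 ↔ theta k f = 0 := by
  rw [tlog_def, div_eq_zero_iff, or_iff_left hf]

end Laurent

section Fk

variable (k : Type*) [Field k] (N : ℕ) [NeZero N]
  [Algebra.IsSeparable k⟮jF k N⟯ ↥(modularFunctionFieldFullC k N)]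

/-- **`λ φ = θ(j̄) · (Dφ / φ)`** with `Dφ/φ ∈ F_k` -/
theorem tlog_coe (f : ↥(modularFunctionFieldFullC k N)) :
    tlog k (f : LaurentSeries k) = theta k (jqModC k) *
      ((Dj k N f / f : ↥(modularFunctionFieldFullC k N)) : LaurentSeries k) := by
  rw [tlog_def, theta_coe k N f]
  push_cast
  rw [mul_div_assoc]

/-- **injectivity of `λ` on `F_kˣ / F_kˣᵖ`** -/
theorem exists_pow_eq_of_tlog_eq_zero {p : ℕ} [Fact p.Prime] [CharP k p]
    (hperf : ∀ c : k, ∃ d : k, d ^ p = c) {f : ↥(modularFunctionFieldFullC k N)} (hf : f ≠ 0)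
    (h : tlog k (f : LaurentSeries k) = 0) :
    ∃ g : ↥(modularFunctionFieldFullC k N), g ^ p = f := by
  have hf' : (f : LaurentSeries k) ≠ 0 := fun h0 => hf (Subtype.ext h0)
  exact exists_pow_eq_of_theta_eq_zero k N hperf ((tlog_eq_zero_iff k hf').1 h)

end Fk

section KRes

variable (A : ValuationSubring (AlgebraicClosure ℚ)) (M : ℕ) [NeZero M] {q : ℕ} [Fact q.Prime]

/-- **the derivation `d/dj̄` of `FRes A M`**, `q ∤ M` -/
def DjK (hA : A.LiesOverPrime q) (hqM : ¬ q ∣ M) :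
    Derivation (kRes A) (FRes A M) (FRes A M) :=
  haveI : Algebra.IsSeparable (kRes A)⟮jF (kRes A) M⟯ ↥(modularFunctionFieldFullC (kRes A) M) :=
    Gink.isSeparable_jK A M hA hqM
  Dj (kRes A) M

theorem DjK_jK (hA : A.LiesOverPrime q) (hqM : ¬ q ∣ M) :
    DjK A M hA hqM (Gink.jK A M) = 1 :=
  haveI : Algebra.IsSeparable (kRes A)⟮jF (kRes A) M⟯ ↥(modularFunctionFieldFullC (kRes A) M) :=
    Gink.isSeparable_jK A M hA hqM
  Dj_jF (kRes A) M

theorem coe_DjK (hA : A.LiesOverPrime q) (hqM : ¬ q ∣ M) (f : FRes A M) :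
    ((DjK A M hA hqM f : FRes A M) : LaurentSeries (kRes A)) =
      (theta (kRes A) (jqModC (kRes A)))⁻¹ * theta (kRes A) (f : LaurentSeries (kRes A)) := rfl

/-- `λ φ = θ(j̄) · (Dφ/φ)` on `FRes A M` -/
theorem tlog_coe_kRes (hA : A.LiesOverPrime q) (hqM : ¬ q ∣ M) (f : FRes A M) :
    tlog (kRes A) (f : LaurentSeries (kRes A)) = theta (kRes A) (jqModC (kRes A)) *
      ((DjK A M hA hqM f / f : FRes A M) : LaurentSeries (kRes A)) :=
  haveI : Algebra.IsSeparable (kRes A)⟮jF (kRes A) M⟯ ↥(modularFunctionFieldFullC (kRes A) M) :=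
    Gink.isSeparable_jK A M hA hqM
  tlog_coe (kRes A) M f

/-- **`λ φ = 0` ⟹ `φ` is a `q`-th power in `FRes A M`** (`q` the residue characteristic) -/
theorem exists_pow_eq_of_tlog_eq_zero_kRes (hA : A.LiesOverPrime q) (hqM : ¬ q ∣ M)
    {f : FRes A M} (hf : f ≠ 0) (h : tlog (kRes A) (f : LaurentSeries (kRes A)) = 0) :
    ∃ g : FRes A M, g ^ q = f := by
  have : Algebra.IsSeparable (kRes A)⟮jF (kRes A) M⟯ ↥(modularFunctionFieldFullC (kRes A) M) :=
    Gink.isSeparable_jK A M hA hqM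
  have : CharP (kRes A) q := Gink.charP_kRes A hA
  exact exists_pow_eq_of_tlog_eq_zero (kRes A) M
    (fun c => IsAlgClosed.exists_pow_nat_eq c (Fact.out : q.Prime).pos) hf h

end KRes

end Fermat.Agent.S44lib.Q5
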