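/-
S44 library, block Q5 (helper8): **instances of helper3's interface statements**
(`Q5/Iface.lean`):

* `thetaStmt : ThetaStmt A M p` (block D) — from `DjK` of `Q5/ThetaLog.lean`;
* `finrank_OmegaK : finrank kA (OmegaK A M hA hpM) = finrank kA (redSpan kA)` and
  `dimStmt` (block C2): `genusOf kA (transcendental_jK A M) ≤ finrank kA (span of the reductions)`
  (in fact equality) — from `Q5/LatticeGenus.lean`.
-/
import Mathlib
import Fermat.Agent.S44lib.Q5.Iface
import Fermat.Agent.S44lib.Q5.ThetaLog
import Fermat.Agent.S44lib.Q5.LatticeGenus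

set_option autoImplicit false
set_option linter.unusedSectionVars false

noncomputable section

namespace Fermat.Agent.S44lib.Q5

open AlgebraicCurve ModularCurve IntermediateField CuspForm ModularFormClass CongruenceSubgroup
open Fermat.Agent.S18lib Fermat.Agent.S28lib

variable (A : ValuationSubring (AlgebraicClosure ℚ)) (M : ℕ) [NeZero M] {p : ℕ} [Fact p.Prime]

/-- **block D**: `ThetaStmt`, with `Dj = DjK` -/
theorem thetaStmt (hA : A.LiesOverPrime p) (hpM : ¬ p ∣ M) : ThetaStmt A M p := by
  have hsep : Algebra.IsSeparable (kRes A)⟮jF (kRes A) M⟯ ↥(modularFunctionFieldFullC (kRes A) M) :=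
    Gink.isSeparable_jK A M hA hpM
  have hchar : CharP (kRes A) p := Gink.charP_kRes A hA
  refine ⟨DjK A M hA hpM, ?_, DjK_jK A M hA hpM, ?_⟩
  · intro f
    rw [coe_DjK, thetaJ, Gink.coe_jK, mul_comm, ← mul_assoc,
      mul_inv_cancel₀ (theta_jq_ne_zero (kRes A)), one_mul]
  · intro f hf
    have h1 : theta (kRes A) (f : LaurentSeries (kRes A)) = 0 :=
      (Dj_eq_zero_iff (kRes A) M f).1 hf
    obtain ⟨g, hg⟩ := exists_pow_eq_of_theta_eq_zero (kRes A) M
      (fun c => IsAlgClosed.exists_pow_nat_eq c (Fact.out : p.Prime).pos) h1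
    exact ⟨g, hg.symm⟩

/-- **block C2**, as an equality: the genus of `FRes A M` (canonical form) is the dimension of the
span of the reductions of the integral cusp forms -/
theorem genusOf_eq_finrank_redSpan (hA : A.LiesOverPrime p) (hpM : ¬ p ∣ M) :
    haveI := Gink.isSeparable_jK A M hA hpM
    RRgen.Canonical.genusOf (kRes A) (Gink.transcendental_jK A M) =
      Module.finrank (kRes A) ↥(Submodule.span (kRes A)
        {c : ℕ → kRes A | ∃ f : CuspForm (Gamma0 M) 2, IsRedOf (kRes A) f c}) := by
  have hsep := Gink.isSeparable_jK A M hA hpM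
  have h1 := finrank_redSpan_eq_genus M A hpM hA
    (RRgen.Canonical.isCurveOfGenus_genusOf (kRes A) (Gink.transcendental_jK A M))
  exact h1.symm

/-- **block C2** in the `≤` form of the interface -/
theorem dimStmt (hA : A.LiesOverPrime p) (hpM : ¬ p ∣ M) :
    haveI := Gink.isSeparable_jK A M hA hpM
    RRgen.Canonical.genusOf (kRes A) (Gink.transcendental_jK A M) ≤
      Module.finrank (kRes A) ↥(Submodule.span (kRes A)
        {c : ℕ → kRes A | ∃ f : CuspForm (Gamma0 M) 2, IsRedOf (kRes A) f c}) :=
  (genusOf_eq_finrank_redSpan A M hA hpM).le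

/-- `dim OmegaK = dim (span of the reductions)` -/
theorem finrank_OmegaK (hA : A.LiesOverPrime p) (hpM : ¬ p ∣ M) :
    Module.finrank (kRes A) ↥(OmegaK A M hA hpM) =
      Module.finrank (kRes A) ↥(Submodule.span (kRes A)
        {c : ℕ → kRes A | ∃ f : CuspForm (Gamma0 M) 2, IsRedOf (kRes A) f c}) := by
  have hsep := Gink.isSeparable_jK A M hA hpM
  rw [← genusOf_eq_finrank_redSpan A M hA hpM]
  exact finrank_OmegaOf (kRes A) (Gink.transcendental_jK A M)

end Fermat.Agent.S44lib.Q5
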