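/-
S44 library, block Q5/C2 (helper8): **`DimStmt` of helper3's `Q5/Forms.lean` holds**.

`dimStmt_holds hA hpM : DimStmt A M hA hpM`, i.e.
`finrank kA (OmegaK A M hA hpM) ≤ finrank kA (RedSpan A M)` (in fact equality,
`Q5/ThetaInst.finrank_OmegaK`), and `formsStmt_of_lift : LiftStmt → FormsStmt`.
-/
import Mathlib
import Fermat.Agent.S44lib.Q5.Forms
import Fermat.Agent.S44lib.Q5.ThetaInst

set_option autoImplicit false
set_option linter.unusedSectionVars false

noncomputable section

namespace Fermat.Agent.S44lib.Q5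

open AlgebraicCurve ModularCurve IntermediateField CuspForm ModularFormClass CongruenceSubgroup
open Fermat.Agent.S18lib

variable (A : ValuationSubring (AlgebraicClosure ℚ)) (M : ℕ) [NeZero M] {p : ℕ} [Fact p.Prime]

theorem RedSpan_eq_redSpan : RedSpan A M = redSpan (M' := M) (kRes A) := rfl

/-- **block C2**: `DimStmt` -/
theorem dimStmt_holds (hA : A.LiesOverPrime p) (hpM : ¬ p ∣ M) : DimStmt A M hA hpM :=
  (finrank_OmegaK A M hA hpM).le

/-- `FormsStmt` from `LiftStmt` alone -/
theorem formsStmt_of_lift (hA : A.LiesOverPrime p) (hpM : ¬ p ∣ M) (hL : LiftStmt A M hA hpM) :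
    FormsStmt A M hA hpM :=
  formsStmt_of hA hpM hL (dimStmt_holds A M hA hpM)

end Fermat.Agent.S44lib.Q5
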