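/-
S44lib / Q5 / ThetaHecke  (helper2)  — Project LSq, block Q5-D (Hecke half).

**The logarithmic derivative intertwines the Hecke norm with the weight-2 Hecke operator.**

Over a field `k`, with `θ = t d/dt` (`S28lib.theta`) and `tlog f := θ f / f` on `k((t))`:

* `uOp ℓ` is the operator `U_ℓ` (`(U_ℓ g)_n = g_{nℓ}`), `qExpand k ℓ` is `V_ℓ`;
* `tlog k f = θ f / f`, `theta_twist`, `tlog_twist`, `tlog_qExpand`, `tlog_mul`, `tlog_prod` are helper8's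
  (`Q5/ThetaLog`);
* `tlog_coeff_of_neg`, `tlog_coeff_zero` : `θ f / f` is a power series with constant term `ord f`;
* `sum_twist` : `∑_{i<ℓ} g(ζ^i t) = ℓ • V_ℓ (U_ℓ g)` for a primitive `ℓ`-th root of unity `ζ`;
* `tlog_normExpr` : `tlog (f(t^(ℓ²)) ∏_{i<ℓ} f(ζ^i t)) = ℓ² • V_ℓ² (tlog f) + ℓ • V_ℓ (U_ℓ (tlog f))`;
* `tlog_eq_of_qExpand_eq` : if `N(t^(bℓ)) = (normExpr ζ ℓ φ)(t^b)` with `b ℓ ≠ 0` in `k`, then
  `tlog N = U_ℓ (tlog φ) + ℓ • V_ℓ (tlog φ)`.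

Applied to `Q4/NormH2.qExpand_normAlong_betaK` this gives, on the reduction `FRes A M` of the modular
function field at a prime `q ∤ M ℓ` (`ℓ ∤ M` prime), for `T̄_ℓ φ = heckeFunK A M ℓ φ = N_ᾱ (β̄ φ)`:

  `tlog (T̄_ℓ φ) = U_ℓ (tlog φ) + ℓ • V_ℓ (tlog φ)`          (`tlog_heckeFunK`)

and coefficientwise (`tlog_heckeFunK_coeff`, `tlog_heckeFunK_coeff_nat`)

  `(tlog (T̄_ℓ φ))_n = (tlog φ)_{nℓ} + [ℓ ∣ n] ℓ (tlog φ)_{n/ℓ}`,

which is the formal weight-2 operator `Q5/Lift.formalT` on the coefficient sequence.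
-/
import Fermat.Agent.S44lib.Q4.NormRed
import Fermat.Agent.S44lib.Q5.ThetaLog

set_option autoImplicit false
set_option linter.unusedSectionVars false
set_option linter.style.haveILetI false

noncomputable section

namespace Fermat.Agent.S44lib.Q5

open AlgebraicCurve ModularCurve HahnSeries Fermat.Agent.S18lib Fermat.Agent.S37lib
open Fermat.Agent.S28lib Fermat.Agent.LSb Fermat.Agent.LSb.Unit Fermat.Agent.S44lib.Q4

/-! ### the operator `U_ℓ` -/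

section UOp

variable {R : Type*} [CommRing R]

theorem coeff_mul_eq_zero_of_lt (ℓ : ℕ) [NeZero ℓ] (g : LaurentSeries R) (n : ℤ)
    (hn : n < min g.order 0) : g.coeff (n * ℓ) = 0 := by
  apply HahnSeries.coeff_eq_zero_of_lt_order
  have h0 : n < 0 := lt_of_lt_of_le hn (min_le_right _ _)
  have h1 : n < g.order := lt_of_lt_of_le hn (min_le_left _ _)
  have hℓ : (1 : ℤ) ≤ ℓ := by exact_mod_cast Nat.one_le_iff_ne_zero.mpr (NeZero.ne ℓ)
  nlinarith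

/-- `U_ℓ` on Laurent series: `(U_ℓ g)_n = g_{nℓ}` -/
def uOp (ℓ : ℕ) [NeZero ℓ] (g : LaurentSeries R) : LaurentSeries R :=
  HahnSeries.ofSuppBddBelow (fun n : ℤ => g.coeff (n * ℓ))
    ⟨min g.order 0, fun m hm => le_of_not_gt fun hlt => hm (coeff_mul_eq_zero_of_lt ℓ g m hlt)⟩

@[simp] theorem uOp_coeff (ℓ : ℕ) [NeZero ℓ] (g : LaurentSeries R) (n : ℤ) :
    (uOp ℓ g).coeff n = g.coeff (n * ℓ) := rfl

theorem uOp_add (ℓ : ℕ) [NeZero ℓ] (g h : LaurentSeries R) :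
    uOp ℓ (g + h) = uOp ℓ g + uOp ℓ h := by
  ext n
  simp

theorem uOp_smul (ℓ : ℕ) [NeZero ℓ] (c : R) (g : LaurentSeries R) :
    uOp ℓ (c • g) = c • uOp ℓ g := by
  ext n
  simp

theorem uOp_zero (ℓ : ℕ) [NeZero ℓ] : uOp ℓ (0 : LaurentSeries R) = 0 := by
  ext n
  simp

/-- `U_ℓ ∘ V_ℓ = id` -/
theorem uOp_qExpand (ℓ : ℕ) [NeZero ℓ] (g : LaurentSeries R) :
    uOp ℓ (qExpand R ℓ g) = g := by
  ext n
  rw [uOp_coeff, mul_comm, qExpand_coeff_mul]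

variable [IsDomain R]

/-- `∑_{i<ℓ} g(ζ^i t) = ℓ • (U_ℓ g)(t^ℓ)` for a primitive `ℓ`-th root of unity `ζ` -/
theorem sum_twist {ζ : Rˣ} {ℓ : ℕ} [NeZero ℓ] (hζ : IsPrimitiveRoot ζ ℓ) (g : LaurentSeries R) :
    ∑ i ∈ Finset.range ℓ, twist (ζ ^ i) g = ℓ • qExpand R ℓ (uOp ℓ g) := by
  ext n
  rw [HahnSeries.coeff_sum, HahnSeries.coeff_smul]
  simp only [twist_coeff]
  have hcomm : ∀ i : ℕ, (((ζ ^ i) ^ n : Rˣ) : R) = ((ζ ^ n : Rˣ) : R) ^ i := by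
    intro i
    rw [← Units.val_pow_eq_pow_val, ← zpow_natCast ζ i, ← zpow_natCast (ζ ^ n) i, ← zpow_mul,
      ← zpow_mul, mul_comm]
  simp only [hcomm]
  rw [← Finset.sum_mul]
  by_cases hn : (ℓ : ℤ) ∣ n
  · obtain ⟨m, rfl⟩ := hn
    rw [qExpand_coeff_mul, uOp_coeff]
    have h1 : ζ ^ ((ℓ : ℤ) * m) = 1 := (hζ.zpow_eq_one_iff_dvd _).2 ⟨m, rfl⟩
    rw [h1]
    simp only [Units.val_one, one_pow, Finset.sum_const, Finset.card_range, nsmul_eq_mul, mul_one]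
    rw [mul_comm m]
  · rw [qExpand_coeff_of_not_dvd ℓ _ hn, smul_zero]
    have hx1 : ((ζ ^ n : Rˣ) : R) ≠ 1 := by
      intro h
      apply hn
      rw [← hζ.zpow_eq_one_iff_dvd]
      exact Units.ext h
    have hxℓ : ((ζ ^ n : Rˣ) : R) ^ ℓ = 1 := by
      rw [← Units.val_pow_eq_pow_val, ← zpow_natCast (ζ ^ n) ℓ, ← zpow_mul, mul_comm, zpow_mul,
        zpow_natCast, hζ.pow_eq_one, one_zpow, Units.val_one]
    have hgeom := geom_sum_mul ((ζ ^ n : Rˣ) : R) ℓ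
    rw [hxℓ, sub_self] at hgeom
    rw [(mul_eq_zero.mp hgeom).resolve_right (sub_ne_zero.mpr hx1), zero_mul]

end UOp

/-! ### the logarithmic derivative -/

section Dlog

variable {k : Type*} [Field k]

/-- `θ f / f` is a power series: no negative coefficients -/
theorem tlog_coeff_of_neg (f : LaurentSeries k) {n : ℤ} (hn : n < 0) : (tlog k f).coeff n = 0 := by
  by_cases hg : tlog k f = 0
  · rw [hg, HahnSeries.coeff_zero]
  have hf : f ≠ 0 := by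
    rintro rfl
    exact hg (by rw [tlog_def, div_zero])
  have hθ : theta k f = tlog k f * f := by
    rw [tlog_def, div_mul_cancel₀ _ hf]
  have hθ0 : theta k f ≠ 0 := by
    rw [hθ]
    exact mul_ne_zero hg hf
  have hord : (theta k f).order = (tlog k f).order + f.order := by
    rw [hθ, HahnSeries.order_mul hg hf]
  have hle : f.order ≤ (theta k f).order := by
    apply HahnSeries.order_le_of_coeff_ne_zero
    intro h
    apply (HahnSeries.coeff_order_eq_zero.not.mpr hθ0)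
    rw [theta_coeff, h, mul_zero]
  apply HahnSeries.coeff_eq_zero_of_lt_order
  omega

/-- the constant term of `θ f / f` is the order of `f` -/
theorem tlog_coeff_zero {f : LaurentSeries k} (hf : f ≠ 0) :
    (tlog k f).coeff 0 = ((f.order : ℤ) : k) := by
  set g := tlog k f with hgdef
  set g' : LaurentSeries k := g - HahnSeries.C (g.coeff 0) with hg'def
  have hθ : theta k f = HahnSeries.C (g.coeff 0) * f + g' * f := by
    rw [hg'def, sub_mul, add_sub_cancel, hgdef, tlog_def, div_mul_cancel₀ _ hf]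
  have hg'coeff : ∀ n : ℤ, n ≤ 0 → g'.coeff n = 0 := by
    intro n hn
    rcases hn.lt_or_eq with hlt | rfl
    · rw [hg'def, HahnSeries.coeff_sub, hgdef, tlog_coeff_of_neg f hlt, HahnSeries.C_apply,
        HahnSeries.coeff_single_of_ne hlt.ne, sub_zero]
    · rw [hg'def, HahnSeries.coeff_sub, HahnSeries.C_apply, HahnSeries.coeff_single_same, sub_self]
  have hzero : (g' * f).coeff f.order = 0 := by
    by_cases hg'0 : g' = 0
    · rw [hg'0, zero_mul, HahnSeries.coeff_zero]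
    · apply HahnSeries.coeff_eq_zero_of_lt_order
      rw [HahnSeries.order_mul hg'0 hf]
      have hpos : 0 < g'.order := by
        by_contra hle
        exact (HahnSeries.coeff_order_eq_zero.not.mpr hg'0) (hg'coeff _ (not_lt.mp hle))
      omega
  have h1 := congrArg (fun x : LaurentSeries k => x.coeff f.order) hθ
  simp only [theta_coeff, HahnSeries.coeff_add, hzero, add_zero, HahnSeries.C_mul_eq_smul,
    HahnSeries.coeff_smul, smul_eq_mul] at h1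
  exact (mul_right_cancel₀ (HahnSeries.coeff_order_eq_zero.not.mpr hf) h1).symm

/-- `tlog` of the norm expression `f(t^(ℓ²)) ∏_{i<ℓ} f(ζ^i t)` -/
theorem tlog_normExpr {ζ : kˣ} {ℓ : ℕ} [NeZero ℓ] (hζ : IsPrimitiveRoot ζ ℓ)
    {f : LaurentSeries k} (hf : f ≠ 0) :
    tlog k (normExpr ζ ℓ f) =
      (ℓ * ℓ) • qExpand k (ℓ * ℓ) (tlog k f) + ℓ • qExpand k ℓ (uOp ℓ (tlog k f)) := by
  rw [normExpr_apply, tlog_mul k ((map_ne_zero _).2 hf)
    (Finset.prod_ne_zero_iff.mpr fun i _ => (map_ne_zero _).2 hf),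
    tlog_prod k _ _ (fun i _ => (map_ne_zero _).2 hf), tlog_qExpand]
  simp only [tlog_twist]
  rw [sum_twist hζ]

/-- **abstract form**: if `N(t^(bℓ)) = (normExpr ζ ℓ φ)(t^b)` and `b ℓ ≠ 0` in `k`, then
`tlog k N = U_ℓ (tlog k φ) + ℓ • V_ℓ (tlog k φ)`. -/
theorem tlog_eq_of_qExpand_eq {ζ : kˣ} {ℓ a b : ℕ} [NeZero ℓ] [NeZero a] [NeZero b]
    (hζ : IsPrimitiveRoot ζ ℓ) (hab : a = b * ℓ) (hb : ((b : ℕ) : k) ≠ 0) (hℓk : ((ℓ : ℕ) : k) ≠ 0)
    {N φ : LaurentSeries k} (hφ : φ ≠ 0)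
    (h : qExpand k a N = qExpand k b (normExpr ζ ℓ φ)) :
    tlog k N = uOp ℓ (tlog k φ) + ℓ • qExpand k ℓ (tlog k φ) := by
  subst hab
  have h1 := congrArg (tlog k) h
  rw [tlog_qExpand, tlog_qExpand, tlog_normExpr hζ hφ, ← qExpand_qExpand ℓ b] at h1
  -- cancel `b` and `V_b`
  have hbk : ((b : ℕ) : LaurentSeries k) ≠ 0 := by
    rw [← map_natCast (HahnSeries.C : k →+* LaurentSeries k)]
    exact (map_ne_zero _).2 hb
  have hℓL : ((ℓ : ℕ) : LaurentSeries k) ≠ 0 := by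
    rw [← map_natCast (HahnSeries.C : k →+* LaurentSeries k)]
    exact (map_ne_zero _).2 hℓk
  have h2 : (ℓ : ℕ) • qExpand k ℓ (tlog k N) =
      (ℓ * ℓ) • qExpand k (ℓ * ℓ) (tlog k φ) + ℓ • qExpand k ℓ (uOp ℓ (tlog k φ)) := by
    apply qExpand_injective (R := k) b
    have h3 : (b * ℓ) • qExpand k b (qExpand k ℓ (tlog k N)) =
        b • ((ℓ : ℕ) • qExpand k b (qExpand k ℓ (tlog k N))) := by
      rw [mul_smul]
    rw [h3] at h1
    rw [map_nsmul]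
    simp only [nsmul_eq_mul] at h1 ⊢
    exact mul_left_cancel₀ hbk h1
  -- cancel `ℓ` and `V_ℓ`
  apply qExpand_injective (R := k) ℓ
  rw [map_add, map_nsmul, qExpand_qExpand]
  have h4 : (ℓ * ℓ) • qExpand k (ℓ * ℓ) (tlog k φ) = ℓ • (ℓ • qExpand k (ℓ * ℓ) (tlog k φ)) := by
    rw [mul_smul]
  rw [h4] at h2
  simp only [nsmul_eq_mul] at h2 ⊢
  apply mul_left_cancel₀ hℓL
  rw [h2]
  ring

end Dlog

/-! ### the Hecke norm on the reduction -/

section Hecke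

variable {A : ValuationSubring (AlgebraicClosure ℚ)} {M ℓ q : ℕ} [NeZero M] [NeZero ℓ] [NeZero q]
variable [hq : Fact q.Prime]

local notation "kA" => IsLocalRing.ResidueField A

/-- **`tlog kA (T̄_ℓ φ) = U_ℓ (tlog kA φ) + ℓ • V_ℓ (tlog kA φ)`** on the reduction `FRes A M` at `q ∤ M ℓ`. -/
theorem tlog_heckeFunK (hA : A.LiesOverPrime q) (hqMℓ : ¬ q ∣ M * ℓ) (hℓ : ℓ.Prime)
    (hℓM : ¬ ℓ ∣ M) {φ : FRes A M} (hφ : φ ≠ 0) :
    tlog kA ((heckeFunK A M ℓ φ : FRes A M) : LaurentSeries kA) =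
      uOp ℓ (tlog kA (φ : LaurentSeries kA)) + ℓ • qExpand kA ℓ (tlog kA (φ : LaurentSeries kA)) := by
  have hqℓ : ¬ q ∣ ℓ := fun h => hqMℓ (h.trans (Dvd.intro_left M rfl))
  have hqM : ¬ q ∣ M := fun h => hqMℓ (h.trans (Dvd.intro ℓ rfl))
  have hℓk : ((ℓ : ℕ) : kA) ≠ 0 := Gink.natCast_ne_zero_kRes hA hqℓ
  haveI : NeZero ((ℓ : ℕ) : kA) := ⟨hℓk⟩
  obtain ⟨ζ0, hζ0⟩ := HasEnoughRootsOfUnity.exists_primitiveRoot kA ℓ
  set ζ : kAˣ := (hζ0.isUnit (NeZero.ne ℓ)).unit with hζdef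
  have hζ : IsPrimitiveRoot ζ ℓ := by
    rw [← IsPrimitiveRoot.coe_units_iff]
    exact hζ0
  have hMM : ¬ q ∣ M * M * ℓ := fun h =>
    (hq.out.dvd_mul.mp h).elim (fun h' => (hq.out.dvd_mul.mp h').elim hqM hqM) hqℓ
  have hb : ((M * M * ℓ : ℕ) : kA) ≠ 0 := Gink.natCast_ne_zero_kRes hA hMM
  have hφ' : (φ : LaurentSeries kA) ≠ 0 := fun h => hφ (Subtype.ext h)
  exact tlog_eq_of_qExpand_eq (a := M * ℓ * (M * ℓ)) (b := M * M * ℓ) hζ (by ring) hb hℓk hφ'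
    (qExpand_normAlong_betaK hA hqMℓ hℓ hℓM hζ φ)

/-- coefficientwise form of `tlog_heckeFunK` (integer indices) -/
theorem tlog_heckeFunK_coeff (hA : A.LiesOverPrime q) (hqMℓ : ¬ q ∣ M * ℓ) (hℓ : ℓ.Prime)
    (hℓM : ¬ ℓ ∣ M) {φ : FRes A M} (hφ : φ ≠ 0) (n : ℤ) :
    (tlog kA ((heckeFunK A M ℓ φ : FRes A M) : LaurentSeries kA)).coeff n =
      (tlog kA (φ : LaurentSeries kA)).coeff (n * ℓ) +
        if (ℓ : ℤ) ∣ n then ((ℓ : ℕ) : kA) * (tlog kA (φ : LaurentSeries kA)).coeff (n / ℓ) else 0 := by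
  rw [tlog_heckeFunK hA hqMℓ hℓ hℓM hφ, HahnSeries.coeff_add, uOp_coeff, HahnSeries.coeff_smul]
  congr 1
  split_ifs with h
  · obtain ⟨m, rfl⟩ := h
    have hℓ0 : (ℓ : ℤ) ≠ 0 := by exact_mod_cast NeZero.ne ℓ
    rw [qExpand_coeff_mul, Int.mul_ediv_cancel_left _ hℓ0, nsmul_eq_mul]
  · rw [qExpand_coeff_of_not_dvd ℓ _ h, smul_zero]

/-- coefficientwise form of `tlog_heckeFunK` on the nonnegative coefficients: the coefficient
sequence of `tlog kA (T̄_ℓ φ)` is `formalT` (the formal weight-2 Hecke operator) of that of `tlog kA φ` -/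
theorem tlog_heckeFunK_coeff_nat (hA : A.LiesOverPrime q) (hqMℓ : ¬ q ∣ M * ℓ) (hℓ : ℓ.Prime)
    (hℓM : ¬ ℓ ∣ M) {φ : FRes A M} (hφ : φ ≠ 0) (n : ℕ) :
    (tlog kA ((heckeFunK A M ℓ φ : FRes A M) : LaurentSeries kA)).coeff (n : ℤ) =
      (tlog kA (φ : LaurentSeries kA)).coeff ((n * ℓ : ℕ) : ℤ) +
        if ℓ ∣ n then ((ℓ : ℕ) : kA) * (tlog kA (φ : LaurentSeries kA)).coeff ((n / ℓ : ℕ) : ℤ)
        else 0 := by
  rw [tlog_heckeFunK_coeff hA hqMℓ hℓ hℓM hφ, Nat.cast_mul, Int.natCast_div]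
  simp only [Int.natCast_dvd_natCast]

end Hecke

end Fermat.Agent.S44lib.Q5
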