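/-
S44lib / Q5 / Old  (helper2)  — Project LSq, block Q5-F: THE TOP OF Q5.

`OldStmt (Kap.modNModInst hqM hA h5) (Q4.modHeckeInputs hqM hA h5).TΩ`, i.e. the field `old` of the
geometric package at level `M q`, from helper3's `Q5/Iface.old_core` and the block statements:

* `thetaHeckeStmt : ThetaHeckeStmt A M q`                       (block D', `Q5/ThetaHecke`, PROVED);
* `thetaStmt A M hA hqM : ThetaStmt A M q`                      (block D, helper8's `Q5/ThetaInst`, PROVED);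
* `FormsStmt A M hA hqM`                                         (blocks B + C + C2, HYPOTHESIS).

Glue: `Ψ x = (ω₁, ω₂) ≠ 0` gives a component `ω_i = [φ] ≠ 0` in `Om A (FRes A M) q`, i.e. `φ ∉ k · F_k^q`;
`res (Ψ x) = 0` together with `Kap.ordHom_psi_eq_zero_of_ne₁/₂` gives `q ∣ ord_Q φ` at EVERY place;
the eigen-relation `T̄_ℓ ω_i = a_ℓ • ω_i` reads `T̄_ℓ φ ∈ k · φ^{a_ℓ} · F_k^q`.
-/
import Fermat.Agent.S44lib.Q5.Iface
import Fermat.Agent.S44lib.Q5.ThetaInst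
import Fermat.Agent.S44lib.Q5.ThetaHecke
import Fermat.Agent.S44lib.Q4.Inst

set_option autoImplicit false
set_option linter.unusedSectionVars false
set_option linter.style.haveILetI false

noncomputable section

namespace Fermat.Agent.S44lib.Q5

open AlgebraicCurve ModularCurve IntermediateField CuspForm ModularFormClass CongruenceSubgroup
open Fermat.Agent.S18lib Fermat.Agent.S37lib Fermat.Agent.S28lib
open Fermat.Agent.LSb Fermat.Agent.LSb.Unit Fermat.Agent.S33lib Fermat.Agent.S33lib.N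
open Fermat.Agent.S44lib.Kap Fermat.Agent.S44lib.Q4 Fermat.Agent.S19lib

local notation "Qb" => AlgebraicClosure ℚ
local notation "Zbar" => integralClosure ℤ ℂ

variable {M q : ℕ} [NeZero M] [NeZero q] [hq : Fact q.Prime] {A : ValuationSubring Qb}

local notation "kA" => IsLocalRing.ResidueField A

/-! ### the block statement D' -/

/-- **block D'** -/
theorem thetaHeckeStmt (hA : A.LiesOverPrime q) (hqM : ¬ q ∣ M) : ThetaHeckeStmt A M q := by
  intro ℓ _ hℓ hℓM hℓq φ hφ n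
  have hqMℓ : ¬ q ∣ M * ℓ := fun h => (hq.out.dvd_mul.mp h).elim hqM
    (fun h' => hℓq ((Nat.prime_dvd_prime_iff_eq hq.out hℓ).mp h').symm)
  exact tlog_heckeFunK_coeff_nat hA hqMℓ hℓ hℓM hφ n

/-! ### classes -/

/-- integer multiples of a class -/
theorem Om_zsmul_mk {m : ℕ} {φ : FRes A M} (h : φ ≠ 0) (z : ℤ) :
    z • (Om.mk φ h : Om A (FRes A M) m) = Om.mk (φ ^ z) (zpow_ne_zero z h) := by
  rw [Om.mk, Om.mk, ← ofMul_zpow, ← QuotientGroup.mk_zpow]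
  congr 2
  ext
  rw [Units.val_zpow_eq_zpow_val, Units.val_mk0, Units.val_mk0]

/-- **Q5 for one class**: a nonzero class in `Om A (FRes A M) q` with all orders `≡ 0 (q)`, which is an
eigenclass of the `T̄_ℓ`, `ℓ ∈ S`, with eigenvalues `a_ℓ`, gives an eigenform of level `M`. -/
theorem old_of_class (hA : A.LiesOverPrime q) (hqM : ¬ q ∣ M) (hBC : FormsStmt A M hA hqM)
    (ω : Om A (FRes A M) q) (hω : ω ≠ 0)
    (hord : ∀ Q : Place kA (FRes A M), Om.ordHom Q ω = 0)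
    (a : ℕ → ℤ) (S : ℕ → Prop) (hS : ∀ ℓ, S ℓ → ℓ.Prime ∧ ¬ ℓ ∣ M ∧ ℓ ≠ q)
    (heig : ∀ (ℓ : ℕ) [NeZero ℓ], S ℓ → heckeOm A M ℓ q ω = a ℓ • ω) :
    ∃ (g : CuspForm (Gamma0 M) 2) (𝔪 : Ideal Zbar), g.IsNormalizedEigenform ∧ 𝔪.IsMaximal ∧
      (q : Zbar) ∈ 𝔪 ∧ CongruentTo g 𝔪 a S := by
  obtain ⟨φ, hφ, rfl⟩ := Om.exists_rep ω
  refine old_core hA hqM (thetaStmt A M hA hqM) (thetaHeckeStmt hA hqM) hBC φ hφ (fun Q => ?_)
    (fun h => hω ((Om.mk_eq_zero_iff hφ).2 h)) a S hS (fun ℓ _ hℓS => ?_)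
  · have h := hord Q
    rw [Om.ordHom_mk] at h
    exact (ZMod.intCast_zmod_eq_zero_iff_dvd _ q).1 h
  · have h := heig ℓ hℓS
    rw [heckeOm_mk, Om_zsmul_mk] at h
    exact (Om.mk_eq_mk_iff _ _).1 h.symm

/-! ### the field `old` of the geometric package -/

/-- **Q5**: `OldStmt` for the concrete nodal package at level `M q`, from `FormsStmt`. -/
theorem oldStmt_mod (hqM : ¬ q ∣ M) (hA : A.LiesOverPrime q) (h5 : 5 ≤ q)
    (hBC : FormsStmt A M hA hqM) :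
    OldStmt (modNModInst hqM hA h5) (modHeckeInputs hqM hA h5).TΩ := by
  intro x hx hne hres a S hS _ heig
  haveI : HasPrincipalDivisors kA (FRes A M) := modHpdK hqM hA
  have hx0 := smul_eq_zero_of_mem_tors hx
  have hS' : ∀ ℓ, S ℓ → ℓ.Prime ∧ ¬ ℓ ∣ M ∧ ℓ ≠ q := fun ℓ h =>
    ⟨(hS ℓ h).1, fun h' => (hS ℓ h).2.1 (h'.trans (Dvd.intro q rfl)), (hS ℓ h).2.2⟩
  -- transport of the conclusion along `M * q / q = M`
  have hdiv : M * q / q = M := Nat.mul_div_cancel M hq.out.pos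
  suffices hgoal : ∃ (g : CuspForm (Gamma0 M) 2) (𝔪 : Ideal Zbar), g.IsNormalizedEigenform ∧
      𝔪.IsMaximal ∧ (q : Zbar) ∈ 𝔪 ∧ CongruentTo g 𝔪 a S by
    have key : ∀ (N' : ℕ), N' = M → ∃ (g : CuspForm (Gamma0 N') 2) (𝔪 : Ideal Zbar),
        g.IsNormalizedEigenform ∧ 𝔪.IsMaximal ∧ (q : Zbar) ∈ 𝔪 ∧ CongruentTo g 𝔪 a S := by
      intro N' hN'
      subst hN'
      exact hgoal
    exact key _ hdiv
  set ω := QPsi (modNModInst hqM hA h5) x with hωdef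
  -- the two components
  have hord₁ : ∀ Q : Place kA (FRes A M), Om.ordHom Q ω.1 = 0 := by
    intro Q
    by_cases hQ : ∀ c, Q ≠ (modNod hqM hA).x₁ c
    · exact ordHom_psi_eq_zero_of_ne₁ (modNRed hqM hA h5) (modCtx hqM hA h5) hx0 hQ
    · simp only [ne_eq, not_forall, not_not] at hQ
      obtain ⟨c, rfl⟩ := hQ
      have h1 := congrArg (fun r : QRes (modNModInst hqM hA h5) => r.1 c) hres
      exact h1
  have hord₂ : ∀ Q : Place kA (FRes A M), Om.ordHom Q ω.2 = 0 := by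
    intro Q
    by_cases hQ : ∀ c, Q ≠ (modNod hqM hA).x₂ c
    · exact ordHom_psi_eq_zero_of_ne₂ (modNRed hqM hA h5) (modCtx hqM hA h5) hx0 hQ
    · simp only [ne_eq, not_forall, not_not] at hQ
      obtain ⟨c, rfl⟩ := hQ
      have h1 := congrArg (fun r : QRes (modNModInst hqM hA h5) => r.2 c) hres
      exact h1
  have heig₁ : ∀ (ℓ : ℕ) [NeZero ℓ], S ℓ → heckeOm A M ℓ q ω.1 = a ℓ • ω.1 := by
    intro ℓ _ hℓS
    exact congrArg Prod.fst (heig ℓ (hS ℓ hℓS).1 hℓS)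
  have heig₂ : ∀ (ℓ : ℕ) [NeZero ℓ], S ℓ → heckeOm A M ℓ q ω.2 = a ℓ • ω.2 := by
    intro ℓ _ hℓS
    exact congrArg Prod.snd (heig ℓ (hS ℓ hℓS).1 hℓS)
  by_cases h1 : ω.1 = 0
  · have h2 : ω.2 ≠ 0 := fun h2 => hne (Prod.ext h1 h2)
    exact old_of_class hA hqM hBC ω.2 h2 hord₂ a S hS' heig₂
  · exact old_of_class hA hqM hBC ω.1 h1 hord₁ a S hS' heig₁

end Fermat.Agent.S44lib.Q5
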