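/-
S44 library, block Q5/C (helper8): **reduction of `A`-integral series lying in `FBar M`**.

`A ⊂ ℚ̄` a valuation subring over the prime `q ∤ M`, `k = kRes A`.

* `toK_mem_of_toL_mem` : an `A`-integral Laurent series whose characteristic-zero image lies in
  `FBar M` reduces INTO `FRes A M` (decomposition `f = c · a / b` of `S18lib.V.exists_decomp_U`, and
  `c` is forced to be a unit of `A`);
* `mem_O_of_toL`, `redF_of_toL` : such a series lies in the Gauss ring `(V.gaussDatum M A hqM hA).O`
  and its reduction is the coefficientwise reduction;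
* `isUnit_theta_jqModC` : `θ j_q` is a unit of `A((q))` (leading coefficient `-1`);
* **`lift_red`** : if `h ∈ FBar M` and `h · θ(j_q) = Σ z_n qⁿ` (`z_n ∈ ℤ`) in `ℚ̄((q))`, then
  `h ∈ O` and `red(h) · θ(j̄_q) = Σ z̄_n qⁿ` in `k((q))`.
-/
import Mathlib
import Fermat.Agent.S18lib.V.GaussU.Datum
import Fermat.Agent.S28lib.ThetaDeriv
import Fermat.Agent.S28lib.Series
import Fermat.Agent.S44lib.Q5.Iface
import Fermat.Agent.S44lib.Q5.Theta

set_option autoImplicit false
set_option linter.unusedSectionVars false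

noncomputable section

namespace Fermat.Agent.S44lib.Q5

open AlgebraicCurve ModularCurve HahnSeries IntermediateField
open Fermat.Agent.S18lib Fermat.Agent.S18lib.V Fermat.Agent.S28lib

variable {M : ℕ} [NeZero M] {q : ℕ} [Fact q.Prime] {A : ValuationSubring (AlgebraicClosure ℚ)}

/-- **an `A`-integral series in `FBar M` reduces into `FRes A M`** -/
theorem toK_mem_of_toL_mem (hqM : ¬ q ∣ M) (hA : A.LiesOverPrime q) (y : LaurentSeries A)
    (hy : toL A y ∈ modularFunctionFieldBar M) :
    toK A y ∈ modularFunctionFieldFullC (IsLocalRing.ResidueField A) M := by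
  by_cases h0 : toK A y = 0
  · rw [h0]; exact zero_mem _
  have hy0 : y ≠ 0 := ne_zero_of_toK_ne_zero h0
  have hf : (⟨toL A y, hy⟩ : FBar M) ≠ 0 := fun h => toL_ne_zero hy0 (congrArg Subtype.val h)
  obtain ⟨c, a, b, hc, ha, hb, hfab⟩ := exists_decomp_U M q A hqM hA hf
  have h1 : toL A y * toL A b.1 =
      algebraMap (AlgebraicClosure ℚ) (LaurentSeries (AlgebraicClosure ℚ)) c * toL A a.1 :=
    congrArg Subtype.val hfab
  have ha' : toK A a.1 ≠ 0 := fun h => ha (Subtype.ext h)
  have hb' : toK A b.1 ≠ 0 := fun h => hb (Subtype.ext h)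
  rcases A.mem_or_inv_mem c with hcA | hcA
  · -- `c ∈ A`
    have h2 : y * b.1 = constA A ⟨c, hcA⟩ * a.1 :=
      toL_injective (by rw [map_mul, map_mul, toL_constA, h1])
    have h3 := congrArg (toK A) h2
    rw [map_mul, map_mul, toK_constA] at h3
    have h4 : toK A y = algebraMap (IsLocalRing.ResidueField A) (LaurentSeries (IsLocalRing.ResidueField A))
        (IsLocalRing.residue A ⟨c, hcA⟩) * toK A a.1 * (toK A b.1)⁻¹ := by
      rw [← h3, mul_inv_cancel_right₀ hb']
    rw [h4]
    exact mul_mem (mul_mem (IntermediateField.algebraMap_mem _ _) a.2.2) (inv_mem b.2.2)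
  · -- `c⁻¹ ∈ A`
    have h2 : constA A ⟨c⁻¹, hcA⟩ * (y * b.1) = a.1 :=
      toL_injective (by
        rw [map_mul, map_mul, toL_constA, h1, ← mul_assoc, ← map_mul]
        show algebraMap (AlgebraicClosure ℚ) (LaurentSeries (AlgebraicClosure ℚ)) (c⁻¹ * c) * _ = _
        rw [inv_mul_cancel₀ hc, map_one, one_mul])
    have h3 := congrArg (toK A) h2
    rw [map_mul, map_mul, toK_constA] at h3
    set C := algebraMap (IsLocalRing.ResidueField A) (LaurentSeries (IsLocalRing.ResidueField A))
        (IsLocalRing.residue A ⟨c⁻¹, hcA⟩) with hC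
    have hC0 : C ≠ 0 := by
      intro h
      rw [h, zero_mul] at h3
      exact ha' h3.symm
    have h4 : toK A y = C⁻¹ * toK A a.1 * (toK A b.1)⁻¹ := by
      rw [← h3, ← mul_assoc, inv_mul_cancel₀ hC0, one_mul, mul_inv_cancel_right₀ hb']
    rw [h4]
    exact mul_mem (mul_mem (inv_mem (IntermediateField.algebraMap_mem _ _)) a.2.2) (inv_mem b.2.2)

/-- an `A`-integral series in `FBar M` lies in the Gauss ring -/
theorem mem_O_of_toL (hqM : ¬ q ∣ M) (hA : A.LiesOverPrime q) (y : LaurentSeries A)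
    (hy : toL A y ∈ modularFunctionFieldBar M) :
    (⟨toL A y, hy⟩ : FBar M) ∈ (gaussDatum M A hqM hA).O :=
  (gaussDatum_red_coeffMap M A hqM hA y hy (toK_mem_of_toL_mem hqM hA y hy)).1

/-- its reduction is the coefficientwise reduction -/
theorem redF_of_toL (hqM : ¬ q ∣ M) (hA : A.LiesOverPrime q) (y : LaurentSeries A)
    (hy : toL A y ∈ modularFunctionFieldBar M) :
    (((gaussDatum M A hqM hA).redF (⟨toL A y, hy⟩ : FBar M) : FRes A M) :
      LaurentSeries (IsLocalRing.ResidueField A)) = toK A y := by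
  obtain ⟨hO, hred⟩ := gaussDatum_red_coeffMap M A hqM hA y hy (toK_mem_of_toL_mem hqM hA y hy)
  have hO' : (⟨toL A y, hy⟩ : FBar M) ∈ (gaussDatum M A hqM hA).O := hO
  rw [GaussDatum.redF_of_mem _ hO']
  exact congrArg Subtype.val hred

/-! ### `θ j_q` is a unit of `A((q))` -/

section Unit

variable (R : Type*) [CommRing R] [IsDomain R]

theorem theta_jqModC_coeff_neg_one : (theta R (jqModC R)).coeff (-1) = -1 := by
  rw [theta_coeff, coeff_jqModC_neg_one]
  simp

theorem theta_jqModC_coeff_of_lt {n : ℤ} (hn : n < -1) : (theta R (jqModC R)).coeff n = 0 := by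
  rw [theta_coeff, coeff_jqModC_of_lt R hn]
  simp

theorem isUnit_theta_jqModC : IsUnit (theta R (jqModC R)) := by
  have h1 : (theta R (jqModC R)).coeff (-1) ≠ 0 := by
    rw [theta_jqModC_coeff_neg_one]; exact neg_ne_zero.mpr one_ne_zero
  have hne : theta R (jqModC R) ≠ 0 := fun h => h1 (by rw [h, HahnSeries.coeff_zero])
  have hord : (theta R (jqModC R)).order = -1 := by
    refine le_antisymm (HahnSeries.order_le_of_coeff_ne_zero h1) ?_
    rw [HahnSeries.le_order_iff_forall hne]
    intro j hj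
    exact theta_jqModC_coeff_of_lt R hj
  rw [HahnSeries.isUnit_iff, HahnSeries.leadingCoeff_eq, hord, theta_jqModC_coeff_neg_one]
  exact isUnit_one.neg

end Unit

/-! ### the lift statement, reduction half -/

/-- the integral power series `Σ z_n qⁿ` over a ring -/
def zSeries (R : Type*) [CommRing R] (z : ℕ → ℤ) : LaurentSeries R :=
  HahnSeries.ofPowerSeries ℤ R (PowerSeries.mk fun n => ((z n : ℤ) : R))

theorem coeffMap_zSeries {R S : Type*} [CommRing R] [CommRing S] (φ : R →+* S) (z : ℕ → ℤ) :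
    coeffMap φ (zSeries R z) = zSeries S z := by
  ext n
  rw [coeffMap_coeff]
  rcases le_or_gt 0 n with hn | hn
  · lift n to ℕ using hn
    rw [zSeries, zSeries, HahnSeries.ofPowerSeries_apply_coeff, HahnSeries.ofPowerSeries_apply_coeff,
      PowerSeries.coeff_mk, PowerSeries.coeff_mk, map_intCast]
  · rw [zSeries, zSeries, ofPowerSeries_coeff_of_neg _ hn, ofPowerSeries_coeff_of_neg _ hn, map_zero]

/-- **reduction half of `LiftStmt`**: a function `h ∈ FBar M` with `h · θ(j_q) = Σ z_n qⁿ`
(`z_n ∈ ℤ`) is Gauss-integral and its reduction satisfies `red(h) · θ(j̄_q) = Σ z̄_n qⁿ`. -/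
theorem lift_red (hqM : ¬ q ∣ M) (hA : A.LiesOverPrime q) (z : ℕ → ℤ) (h : FBar M)
    (hh : (h : LaurentSeries (AlgebraicClosure ℚ)) *
        theta (AlgebraicClosure ℚ) (jqModC (AlgebraicClosure ℚ)) = zSeries (AlgebraicClosure ℚ) z) :
    h ∈ (gaussDatum M A hqM hA).O ∧
      (((gaussDatum M A hqM hA).redF h : FRes A M) : LaurentSeries (IsLocalRing.ResidueField A)) *
        thetaJ A M = zSeries (IsLocalRing.ResidueField A) z := by
  obtain ⟨u, hu⟩ := isUnit_theta_jqModC A
  set y : LaurentSeries A := zSeries A z * ((u⁻¹ : (LaurentSeries A)ˣ) : LaurentSeries A) with hy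
  have hyt : y * theta A (jqModC A) = zSeries A z := by
    rw [hy, ← hu, mul_assoc, Units.inv_mul, mul_one]
  have htL : toL A (theta A (jqModC A)) =
      theta (AlgebraicClosure ℚ) (jqModC (AlgebraicClosure ℚ)) := by
    rw [toL, coeffMap_theta, coeffMap_jqModC]
  have htK : toK A (theta A (jqModC A)) =
      theta (IsLocalRing.ResidueField A) (jqModC (IsLocalRing.ResidueField A)) := by
    rw [toK, coeffMap_theta, coeffMap_jqModC]
  have hyL : toL A y = (h : LaurentSeries (AlgebraicClosure ℚ)) := by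
    have h1 := congrArg (toL A) hyt
    rw [map_mul, htL] at h1
    have h2 : toL A (zSeries A z) = zSeries (AlgebraicClosure ℚ) z := coeffMap_zSeries _ z
    rw [h2, ← hh] at h1
    exact mul_right_cancel₀ (theta_jq_ne_zero (AlgebraicClosure ℚ)) h1
  have hmem : toL A y ∈ modularFunctionFieldBar M := by rw [hyL]; exact h.2
  have heq : (⟨toL A y, hmem⟩ : FBar M) = h := Subtype.ext hyL
  have hO := mem_O_of_toL hqM hA y hmem
  have hred := redF_of_toL hqM hA y hmem
  rw [heq] at hO hred
  refine ⟨hO, ?_⟩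
  rw [hred, thetaJ, Gink.coe_jK, ← htK, ← map_mul, hyt]
  exact coeffMap_zSeries _ z

end Fermat.Agent.S44lib.Q5
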