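/-
S44lib / Q5 / RedOmegaTr (helper6)

**Regular differentials through two finite charts.**
For a function field `F / K(x)` in the `RRgen` setting, `h dx` is a regular differential
(`h ∈ RRgen.Omega K F B B∞ 0`) iff the two *polynomial* trace conditions hold:

* `TrInt K F x h`            : `Tr (h β) ∈ K[x]` for all `β` integral over `K[x]`;
* `TrInt K F x⁻¹ (x² h)`     : `Tr (x² h β) ∈ K[x⁻¹]` for all `β` integral over `K[x⁻¹]`.

(The chart at infinity `A∞`, a localisation of `K[x⁻¹]`, does not reduce well along a Gauss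
valuation; the polynomial ring `K[x⁻¹]` does.)  This is the single-curve half of Q5 block B; the
reduction statement is in `Q5/RedOmega.lean`.
-/
import Mathlib
import Fermat.Agent.S18lib.RRgen.Riemann
import Fermat.Agent.S18lib.Weak.PolyAdapter
import Fermat.Agent.S18lib.Norm.Base
import Fermat.Agent.S44lib.Q5.Dlog

set_option autoImplicit false
set_option linter.unusedSectionVars false
set_option linter.style.haveILetI false

noncomputable section

namespace Fermat.Agent.S44lib.Q5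

open Module Polynomial IsDedekindDomain AlgebraicCurve nonZeroDivisors
open Fermat.Agent.ProgramR Fermat.Agent.ProgramR.RR Fermat.Agent.ProgramR.Alg
open Fermat.Agent.S18lib Fermat.Agent.S18lib.RRgen

/-! ### scaling integral elements -/

/-- if `β` is a root of the monic `p ∈ R₁[T]` and the scaled coefficients `p_i s^(d-i)`, `i < d`,
lie in the image of `R₂`, then `s β` is integral over `R₂` -/
theorem isIntegral_mul_of_scale {R₁ R₂ E : Type*} [CommRing R₁] [CommRing R₂] [Field E]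
    [Algebra R₁ E] [Algebra R₂ E] (β s : E) (p : R₁[X]) (hp : p.Monic)
    (hβ : eval₂ (algebraMap R₁ E) β p = 0)
    (hs : ∀ i < p.natDegree,
      algebraMap R₁ E (p.coeff i) * s ^ (p.natDegree - i) ∈ (algebraMap R₂ E).range) :
    IsIntegral R₂ (s * β) := by
  set P : E[X] := p.map (algebraMap R₁ E) with hP
  have hPm : P.Monic := hp.map _
  have hdeg : P.natDegree = p.natDegree := hp.natDegree_map _
  have hPβ : eval β P = 0 := by rw [hP, eval_map]; exact hβ
  set Q : E[X] := scaleRoots P s with hQ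
  have hQm : Q.Monic := (monic_scaleRoots_iff s).mpr hPm
  have hQroot : eval (s * β) Q = 0 := by
    rw [hQ, scaleRoots_eval_mul, hPβ, mul_zero]
  have hlift : Q ∈ lifts (algebraMap R₂ E) := by
    rw [lifts_iff_coeff_lifts]
    intro i
    rw [hQ, coeff_scaleRoots, hdeg]
    rcases lt_trichotomy i p.natDegree with hi | hi | hi
    · rw [hP, coeff_map]
      exact hs i hi
    · subst hi
      rw [hP, coeff_map, hp.coeff_natDegree, map_one, Nat.sub_self, pow_zero, mul_one]
      exact ⟨1, map_one _⟩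
    · rw [hP, coeff_map, coeff_eq_zero_of_natDegree_lt hi, map_zero, zero_mul]
      exact ⟨0, map_zero _⟩
  obtain ⟨q, hqmap, -, hqm⟩ := lifts_and_natDegree_eq_and_monic hlift hQm
  refine ⟨q, hqm, ?_⟩
  rw [← eval_map, hqmap]
  exact hQroot

theorem mem_range_algebraMap_subalgebra {K E : Type*} [CommRing K] [CommRing E] [Algebra K E]
    (S : Subalgebra K E) (y : E) : y ∈ (algebraMap S E).range ↔ y ∈ S :=
  ⟨fun ⟨c, hc⟩ => hc ▸ c.2, fun h => ⟨⟨y, h⟩, rfl⟩⟩

/-! ### the trace conditions -/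

section Def

variable (K : Type*) [Field K] (F : Type*) [Field F] [Algebra K F] [Algebra (RatFunc K) F]

/-- **the polynomial trace condition for the chart `K[t]`**: the trace pairing of `h` with the
integral closure of `K[t]` takes values in `K[t]` -/
def TrInt (t h : F) : Prop :=
  ∀ β : F, IsIntegral (Algebra.adjoin K ({t} : Set F)) β →
    algebraMap (RatFunc K) F (Algebra.trace (RatFunc K) F (h * β)) ∈
      Algebra.adjoin K ({t} : Set F)

end Def

/-! ### polynomials in `x` and in `x⁻¹` -/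

section Poly

variable (K : Type*) [Field K] (F : Type*) [Field F] [Algebra K F] [Algebra (RatFunc K) F]
  [IsScalarTower K (RatFunc K) F]

theorem algebraMap_aeval_X (Q : K[X]) :
    algebraMap (RatFunc K) F (aeval (RatFunc.X : RatFunc K) Q) = aeval (RRgen.xF K F) Q := by
  rw [RRgen.xF, aeval_algebraMap_apply]

theorem algebraMap_aeval_Xinv (Q : K[X]) :
    algebraMap (RatFunc K) F (aeval (RatFunc.X : RatFunc K)⁻¹ Q) = aeval (RRgen.xF K F)⁻¹ Q := by
  rw [RRgen.xF, ← map_inv₀, aeval_algebraMap_apply]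

theorem aeval_ratFunc_X (Q : K[X]) :
    aeval (RatFunc.X : RatFunc K) Q = algebraMap K[X] (RatFunc K) Q := by
  rw [← RatFunc.algebraMap_X, aeval_algebraMap_apply, aeval_X_left_apply]

theorem algebraMap_mem_adjoin_x_iff (r : RatFunc K) :
    algebraMap (RatFunc K) F r ∈ Algebra.adjoin K ({RRgen.xF K F} : Set F) ↔ r ∈ Apoly K := by
  rw [Algebra.adjoin_singleton_eq_range_aeval]
  constructor
  · rintro ⟨Q, hQ⟩
    refine ⟨Q, ?_⟩
    apply (algebraMap (RatFunc K) F).injective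
    rw [← aeval_ratFunc_X, algebraMap_aeval_X]
    exact hQ
  · rintro ⟨Q, rfl⟩
    exact ⟨Q, by rw [← aeval_ratFunc_X, algebraMap_aeval_X]; rfl⟩

theorem algebraMap_mem_adjoin_xinv_iff (r : RatFunc K) :
    algebraMap (RatFunc K) F r ∈ Algebra.adjoin K ({(RRgen.xF K F)⁻¹} : Set F) ↔
      ∃ Q : K[X], r = aeval (RatFunc.X : RatFunc K)⁻¹ Q := by
  rw [Algebra.adjoin_singleton_eq_range_aeval]
  constructor
  · rintro ⟨Q, hQ⟩
    refine ⟨Q, ?_⟩
    apply (algebraMap (RatFunc K) F).injective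
    rw [algebraMap_aeval_Xinv]
    exact hQ.symm
  · rintro ⟨Q, rfl⟩
    exact ⟨Q, by rw [algebraMap_aeval_Xinv]; rfl⟩

theorem xF_ne_zero' : RRgen.xF K F ≠ 0 := by
  rw [RRgen.xF, Ne, map_eq_zero_iff _ (algebraMap (RatFunc K) F).injective]
  exact RatFunc.X_ne_zero

/-- `aeval x (reflect n C) = aeval x⁻¹ C * x ^ n` for `deg C ≤ n` -/
theorem aeval_inv_mul_pow_eq {E : Type*} [Field E] [Algebra K E] {y : E} (hy : y ≠ 0) (n : ℕ)
    (C : K[X]) (hC : C.natDegree ≤ n) : aeval y⁻¹ C * y ^ n = aeval y (reflect n C) := by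
  have h := WFrame.aeval_inv_reflect_mul_pow (L := K) (y := y⁻¹) (inv_ne_zero hy) n C hC
  rw [inv_inv] at h
  rw [← h, mul_assoc, ← mul_pow, inv_mul_cancel₀ hy, one_pow, mul_one]

/-- an element of `A∞` with polynomial numerator over a power of `X` is a polynomial in `X⁻¹` -/
theorem exists_aeval_Xinv_of_mem_Ainf {r : RatFunc K} (hr : r ∈ Ainf K) (n : ℕ)
    (h : (RatFunc.X : RatFunc K) ^ n * r ∈ Apoly K) :
    ∃ Q : K[X], r = aeval (RatFunc.X : RatFunc K)⁻¹ Q := by
  by_cases hr0 : r = 0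
  · exact ⟨0, by rw [hr0, map_zero]⟩
  obtain ⟨P, hP⟩ := h
  have hX0 : (RatFunc.X : RatFunc K) ≠ 0 := RatFunc.X_ne_zero
  have hXn : (RatFunc.X : RatFunc K) ^ n ≠ 0 := pow_ne_zero _ hX0
  have hdeg : (P.natDegree : ℤ) ≤ n := by
    have h1 : (algebraMap K[X] (RatFunc K) P).intDegree = P.natDegree :=
      RatFunc.intDegree_polynomial
    have h2 : ((RatFunc.X : RatFunc K) ^ n * r).intDegree = n + r.intDegree := by
      rw [RatFunc.intDegree_mul hXn hr0, ← zpow_natCast, intDegree_X_zpow]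
    have h3 := (mem_Ainf_of_ne_zero hr0).mp hr
    rw [← h1, hP, h2]
    omega
  have hdeg' : P.natDegree ≤ n := by exact_mod_cast hdeg
  refine ⟨reflect n P, ?_⟩
  apply mul_left_cancel₀ hXn
  have h4 := WFrame.aeval_inv_reflect_mul_pow (L := K) (y := (RatFunc.X : RatFunc K)) hX0 n P hdeg'
  rw [← hP, ← aeval_ratFunc_X, ← h4, mul_comm]

end Poly

/-! ### integrality over `A∞`, `K[x⁻¹]` and `K[x]` -/

theorem exists_aeval_eq_of_mem_adjoin {K E : Type*} [CommRing K] [CommRing E] [Algebra K E]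
    (t : E) (c : Algebra.adjoin K ({t} : Set E)) : ∃ C : K[X], aeval t C = (c : E) :=
  (le_of_eq (Algebra.adjoin_singleton_eq_range_aeval K t)) c.2

theorem aeval_mem_adjoin {K E : Type*} [CommRing K] [CommRing E] [Algebra K E]
    (t : E) (Q : K[X]) : aeval t Q ∈ Algebra.adjoin K ({t} : Set E) :=
  (le_of_eq (Algebra.adjoin_singleton_eq_range_aeval K t).symm) ⟨Q, rfl⟩

section Integral

variable (K : Type*) [Field K] (F : Type*) [Field F] [Algebra K F] [Algebra (RatFunc K) F]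
  [IsScalarTower K (RatFunc K) F] [Algebra (Ainf K) F] [IsScalarTower (Ainf K) (RatFunc K) F]

theorem algebraMap_Ainf_eq (c : Ainf K) :
    algebraMap (Ainf K) F c = algebraMap (RatFunc K) F (c : RatFunc K) := by
  rw [IsScalarTower.algebraMap_apply (Ainf K) (RatFunc K) F]
  rfl

/-- integral over `K[x⁻¹]` ⇒ integral over `A∞` -/
theorem isIntegral_Ainf_of_isIntegral_adjoin_inv {β : F}
    (hβ : IsIntegral (Algebra.adjoin K ({(RRgen.xF K F)⁻¹} : Set F)) β) :
    IsIntegral (Ainf K) β := by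
  obtain ⟨p, hpm, hp0⟩ := hβ
  have h := isIntegral_mul_of_scale (R₂ := Ainf K) β 1 p hpm hp0 ?_
  · rwa [one_mul] at h
  intro i _
  rw [one_pow, mul_one]
  obtain ⟨C, hC⟩ := exists_aeval_eq_of_mem_adjoin (K := K) (RRgen.xF K F)⁻¹ (p.coeff i)
  refine ⟨⟨aeval (RatFunc.X : RatFunc K)⁻¹ C, (aeval_Xinv_mem C).1⟩, ?_⟩
  rw [algebraMap_Ainf_eq, algebraMap_aeval_Xinv]
  exact hC

/-- integral over `K[x⁻¹]` ⇒ `x ^ n β` integral over `K[x]` for some `n` -/
theorem exists_pow_mul_isIntegral {β : F}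
    (hβ : IsIntegral (Algebra.adjoin K ({(RRgen.xF K F)⁻¹} : Set F)) β) :
    ∃ n : ℕ, IsIntegral (Algebra.adjoin K ({RRgen.xF K F} : Set F)) (RRgen.xF K F ^ n * β) := by
  classical
  obtain ⟨p, hpm, hp0⟩ := hβ
  have hx0 : RRgen.xF K F ≠ 0 := xF_ne_zero' K F
  choose C hC using fun i : ℕ =>
    exists_aeval_eq_of_mem_adjoin (K := K) (RRgen.xF K F)⁻¹ (p.coeff i)
  set n : ℕ := (Finset.range p.natDegree).sup fun i => (C i).natDegree with hn
  refine ⟨n, isIntegral_mul_of_scale (R₂ := Algebra.adjoin K ({RRgen.xF K F} : Set F)) β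
    (RRgen.xF K F ^ n) p hpm hp0 ?_⟩
  intro i hi
  have hin : (C i).natDegree ≤ n :=
    Finset.le_sup (f := fun i => (C i).natDegree) (Finset.mem_range.mpr hi)
  rw [mem_range_algebraMap_subalgebra]
  obtain ⟨m, hm⟩ : ∃ m, p.natDegree - i = m + 1 := ⟨p.natDegree - i - 1, by omega⟩
  have h1 : algebraMap (Algebra.adjoin K ({(RRgen.xF K F)⁻¹} : Set F)) F (p.coeff i) *
      (RRgen.xF K F ^ n) ^ (p.natDegree - i) =
      aeval (RRgen.xF K F) (reflect n (C i)) * (RRgen.xF K F ^ n) ^ m := by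
    rw [hm, pow_succ', ← mul_assoc, ← aeval_inv_mul_pow_eq K hx0 n (C i) hin, hC i]
    rfl
  rw [h1]
  have hxm : RRgen.xF K F ∈ Algebra.adjoin K ({RRgen.xF K F} : Set F) := Algebra.subset_adjoin rfl
  exact Subalgebra.mul_mem _ (aeval_mem_adjoin _ _) (Subalgebra.pow_mem _ (Subalgebra.pow_mem _
    hxm _) _)
/-- integral over `A∞` ⇒ `s β` integral over `K[x⁻¹]` for some `s ∈ K[x⁻¹]` invertible in
`A∞` -/
theorem exists_mul_isIntegral_of_isIntegral_Ainf {β : F} (hβ : IsIntegral (Ainf K) β) :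
    ∃ S₀ : K[X], S₀.coeff 0 ≠ 0 ∧ aeval (RatFunc.X : RatFunc K)⁻¹ S₀ ≠ 0 ∧
      IsIntegral (Algebra.adjoin K ({(RRgen.xF K F)⁻¹} : Set F))
        (aeval (RRgen.xF K F)⁻¹ S₀ * β) := by
  classical
  obtain ⟨p, hpm, hp0⟩ := hβ
  have hrep : ∀ i : ℕ, ∃ a b : K[X], b.coeff 0 ≠ 0 ∧
      aeval (RatFunc.X : RatFunc K)⁻¹ b ≠ 0 ∧
      ((p.coeff i : Ainf K) : RatFunc K) * aeval (RatFunc.X : RatFunc K)⁻¹ b =
        aeval (RatFunc.X : RatFunc K)⁻¹ a := fun i => exists_rep_of_mem_Ainf (p.coeff i).2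
  choose a b hb0 hbne hrel using hrep
  set S₀ : K[X] := ∏ i ∈ Finset.range p.natDegree, b i with hS₀
  refine ⟨S₀, ?_, ?_, ?_⟩
  · rw [coeff_zero_eq_eval_zero, hS₀, eval_prod]
    refine Finset.prod_ne_zero_iff.mpr fun i _ => ?_
    rw [← coeff_zero_eq_eval_zero]
    exact hb0 i
  · rw [hS₀, map_prod]
    exact Finset.prod_ne_zero_iff.mpr fun i _ => hbne i
  · refine isIntegral_mul_of_scale
      (R₂ := Algebra.adjoin K ({(RRgen.xF K F)⁻¹} : Set F)) β _ p hpm hp0 ?_
    intro i hi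
    rw [mem_range_algebraMap_subalgebra]
    obtain ⟨m, hm⟩ : ∃ m, p.natDegree - i = m + 1 := ⟨p.natDegree - i - 1, by omega⟩
    have hsplit : aeval (RRgen.xF K F)⁻¹ S₀ = aeval (RRgen.xF K F)⁻¹ (b i) *
        ∏ j ∈ (Finset.range p.natDegree).erase i, aeval (RRgen.xF K F)⁻¹ (b j) := by
      rw [hS₀, map_prod]
      exact (Finset.mul_prod_erase _ (fun j => aeval (RRgen.xF K F)⁻¹ (b j))
        (Finset.mem_range.mpr hi)).symm
    have h1 : algebraMap (Ainf K) F (p.coeff i) * aeval (RRgen.xF K F)⁻¹ (b i) =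
        aeval (RRgen.xF K F)⁻¹ (a i) := by
      rw [algebraMap_Ainf_eq, ← algebraMap_aeval_Xinv, ← map_mul, hrel, algebraMap_aeval_Xinv]
    rw [hm, pow_succ', ← mul_assoc]
    refine Subalgebra.mul_mem _ ?_ (Subalgebra.pow_mem _ (aeval_mem_adjoin _ _) _)
    rw [hsplit, ← mul_assoc, h1]
    exact Subalgebra.mul_mem _ (aeval_mem_adjoin _ _)
      (Subalgebra.prod_mem _ fun j _ => aeval_mem_adjoin _ _)


end Integral

/-! ### `Ω(0)` through the two polynomial charts -/

theorem trace_algebraMap_mul' {K₀ E : Type*} [Field K₀] [Field E] [Algebra K₀ E] (c : K₀) (z : E) :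
    Algebra.trace K₀ E (algebraMap K₀ E c * z) = c * Algebra.trace K₀ E z := by
  rw [← Algebra.smul_def, map_smul, smul_eq_mul]


section Main

variable (K : Type*) [Field K] [IsAlgClosed K]
  (F : Type*) [Field F] [Algebra (RatFunc K) F] [FiniteDimensional (RatFunc K) F]
  [Algebra.IsSeparable (RatFunc K) F] [Algebra K F] [IsScalarTower K (RatFunc K) F]
  (B : Type*) [CommRing B] [IsDedekindDomain B] [Algebra K[X] B] [Module.Finite K[X] B]
  [IsTorsionFree K[X] B] [Algebra B F] [IsFractionRing B F] [Algebra K[X] F]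
  [IsScalarTower K[X] (RatFunc K) F] [IsScalarTower K[X] B F]
  [Algebra K B] [IsScalarTower K B F]
  (Binf : Type*) [CommRing Binf] [IsDedekindDomain Binf] [Algebra (Ainf K) Binf]
  [Module.Finite (Ainf K) Binf] [IsTorsionFree (Ainf K) Binf] [Algebra Binf F]
  [IsFractionRing Binf F] [Algebra (Ainf K) F] [IsScalarTower (Ainf K) (RatFunc K) F]
  [IsScalarTower (Ainf K) Binf F]
  [Algebra K Binf] [IsScalarTower K Binf F]

/-- `Ω(0)` as the two trace conditions against the charts -/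
theorem mem_Omega_zero_iff_trace (h : F) :
    h ∈ Omega K F B Binf 0 ↔
      (∀ b : B, Algebra.trace (RatFunc K) F (h * algebraMap B F b) ∈ Apoly K) ∧
      (∀ b : Binf, (RatFunc.X : RatFunc K) ^ 2 *
        Algebra.trace (RatFunc K) F (h * algebraMap Binf F b) ∈ Ainf K) := by
  rw [Omega, mem_differentialSubspace]
  constructor
  · rintro ⟨h1, h2⟩
    refine ⟨fun b => h1 _ ?_, fun b => h2 _ ?_⟩
    · rw [uE_spec, IFin_zero]
      exact (FractionalIdeal.mem_one_iff _).mpr ⟨b, rfl⟩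
    · rw [vE_spec, IInf_zero]
      exact (FractionalIdeal.mem_one_iff _).mpr ⟨b, rfl⟩
  · rintro ⟨h1, h2⟩
    refine ⟨fun x hx => ?_, fun x hx => ?_⟩
    · have hx' : x ∈ (1 : FractionalIdeal B⁰ F) := by
        rw [uE_spec, IFin_zero] at hx
        exact hx
      obtain ⟨b, rfl⟩ := (FractionalIdeal.mem_one_iff _).mp hx'
      exact h1 b
    · have hx' : x ∈ (1 : FractionalIdeal Binf⁰ F) := by
        rw [vE_spec, IInf_zero] at hx
        exact hx
      obtain ⟨b, rfl⟩ := (FractionalIdeal.mem_one_iff _).mp hx'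
      exact h2 b

/-- the finite chart is the integral closure of `K[x]` -/
theorem mem_range_chart_fin_iff (β : F) :
    (∃ b : B, algebraMap B F b = β) ↔
      IsIntegral (Algebra.adjoin K ({RRgen.xF K F} : Set F)) β := by
  haveI := isScalarTower_const_poly_F K F
  have : Algebra.IsIntegral K[X] B := inferInstance
  have : IsIntegralClosure B K[X] F := IsIntegralClosure.of_isIntegrallyClosed B K[X] F
  rw [isIntegral_adjoin_iff_isIntegral_poly (RRgen.algebraMap_poly_X K F) β,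
    IsIntegralClosure.isIntegral_iff (A := B)]

/-- the chart at infinity is the integral closure of `A∞` -/
theorem mem_range_chart_inf_iff (β : F) :
    (∃ b : Binf, algebraMap Binf F b = β) ↔ IsIntegral (Ainf K) β := by
  have : Algebra.IsIntegral (Ainf K) Binf := inferInstance
  have : IsIntegralClosure Binf (Ainf K) F := IsIntegralClosure.of_isIntegrallyClosed Binf (Ainf K) F
  rw [IsIntegralClosure.isIntegral_iff (A := Binf)]

theorem trace_chart_fin_iff (h : F) :
    (∀ b : B, Algebra.trace (RatFunc K) F (h * algebraMap B F b) ∈ Apoly K) ↔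
      TrInt K F (RRgen.xF K F) h := by
  constructor
  · intro h1 β hβ
    obtain ⟨b, rfl⟩ := (mem_range_chart_fin_iff K F B β).mpr hβ
    rw [algebraMap_mem_adjoin_x_iff]
    exact h1 b
  · intro h1 b
    rw [← algebraMap_mem_adjoin_x_iff K F]
    exact h1 _ ((mem_range_chart_fin_iff K F B _).mp ⟨b, rfl⟩)

/-- **`Ω(0)` through the two polynomial charts `K[x]`, `K[x⁻¹]`** -/
theorem mem_Omega_zero_iff (h : F) :
    h ∈ Omega K F B Binf 0 ↔
      TrInt K F (RRgen.xF K F) h ∧ TrInt K F (RRgen.xF K F)⁻¹ (RRgen.xF K F ^ 2 * h) := by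
  rw [mem_Omega_zero_iff_trace, trace_chart_fin_iff]
  have hx2 : RRgen.xF K F ^ 2 = algebraMap (RatFunc K) F ((RatFunc.X : RatFunc K) ^ 2) := by
    rw [map_pow]; rfl
  constructor
  · rintro ⟨h1, h2⟩
    refine ⟨h1, ?_⟩
    intro β hβ
    have hβinf := isIntegral_Ainf_of_isIntegral_adjoin_inv K F hβ
    obtain ⟨b, hb⟩ := (mem_range_chart_inf_iff K F Binf β).mpr hβinf
    obtain ⟨n, hn⟩ := exists_pow_mul_isIntegral K F hβ
    have e1 : (RatFunc.X : RatFunc K) ^ 2 * Algebra.trace (RatFunc K) F (h * β) ∈ Ainf K := by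
      rw [← hb]; exact h2 b
    have e2 : (RatFunc.X : RatFunc K) ^ n * Algebra.trace (RatFunc K) F (h * β) ∈ Apoly K := by
      have h3 := h1 _ hn
      rw [algebraMap_mem_adjoin_x_iff] at h3
      have h4 : h * (RRgen.xF K F ^ n * β) =
          algebraMap (RatFunc K) F ((RatFunc.X : RatFunc K) ^ n) * (h * β) := by
        rw [map_pow]
        show _ = RRgen.xF K F ^ n * _
        ring
      rwa [h4, trace_algebraMap_mul'] at h3
    have key : Algebra.trace (RatFunc K) F (RRgen.xF K F ^ 2 * h * β) =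
        (RatFunc.X : RatFunc K) ^ 2 * Algebra.trace (RatFunc K) F (h * β) := by
      rw [hx2, mul_assoc, trace_algebraMap_mul']
    rw [algebraMap_mem_adjoin_xinv_iff, key]
    refine exists_aeval_Xinv_of_mem_Ainf K e1 n ?_
    have h5 : (RatFunc.X : RatFunc K) ^ n * ((RatFunc.X : RatFunc K) ^ 2 *
        Algebra.trace (RatFunc K) F (h * β)) = (RatFunc.X : RatFunc K) ^ 2 *
        ((RatFunc.X : RatFunc K) ^ n * Algebra.trace (RatFunc K) F (h * β)) := by ring
    rw [h5]
    refine (Apoly K).mul_mem ?_ e2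
    exact ⟨X ^ 2, by rw [map_pow, RatFunc.algebraMap_X]⟩
  · rintro ⟨h1, h2⟩
    refine ⟨h1, fun b => ?_⟩
    have hβ : IsIntegral (Ainf K) (algebraMap Binf F b) :=
      (mem_range_chart_inf_iff K F Binf _).mp ⟨b, rfl⟩
    obtain ⟨S₀, hS0, hSne, hint⟩ := exists_mul_isIntegral_of_isIntegral_Ainf K F hβ
    have h3 := h2 _ hint
    rw [algebraMap_mem_adjoin_xinv_iff] at h3
    obtain ⟨Q, hQ⟩ := h3
    have key : Algebra.trace (RatFunc K) F (RRgen.xF K F ^ 2 * h *
        (aeval (RRgen.xF K F)⁻¹ S₀ * algebraMap Binf F b)) =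
        aeval (RatFunc.X : RatFunc K)⁻¹ S₀ * ((RatFunc.X : RatFunc K) ^ 2 *
          Algebra.trace (RatFunc K) F (h * algebraMap Binf F b)) := by
      rw [← trace_algebraMap_mul', ← trace_algebraMap_mul', hx2, algebraMap_aeval_Xinv]
      congr 1
      ring
    have h4 : (RatFunc.X : RatFunc K) ^ 2 *
        Algebra.trace (RatFunc K) F (h * algebraMap Binf F b) =
        (aeval (RatFunc.X : RatFunc K)⁻¹ S₀)⁻¹ * aeval (RatFunc.X : RatFunc K)⁻¹ Q := by
      rw [← hQ, key, ← mul_assoc, inv_mul_cancel₀ hSne, one_mul]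
    rw [h4]
    exact (Ainf K).mul_mem ((aeval_Xinv_mem S₀).2 hS0) (aeval_Xinv_mem Q).1

end Main

end Fermat.Agent.S44lib.Q5
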