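/-
S44lib / Q5 / RedOmega (helper6)

**Q5 block B: regular differentials reduce to regular differentials.**
`G : GaussDatum A F Fk` (Gauss valuation ring `O ⊂ F`, reduction `O → Fk`), `x ∈ F` with a frame
`(x, θ)`, `F / L(x)` and `Fk / k(x̄)` of the same degree and of the same genus.  Then for `h ∈ O`:
`h dx` regular on `F` ⇒ `h̄ dx̄` regular on `Fk`.

Proof: `Ω(0)` is cut out by the two polynomial trace conditions `TrInt x h`, `TrInt x⁻¹ (x² h)`
(`Q5/RedOmegaTr`), and each of them reduces (`TrInt.red`): every `β̄` integral over `k[t̄]` lifts to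
`β ∈ O` integral over `L[t]` (equal genus: `GaussDatum.exists_lift_of_isIntegral`), the trace
commutes with reduction (`Norm.RedExt.exists_trace_mem`), and `L[t] ∩ O = A[t]` reduces into `k[t̄]`.
-/
import Mathlib
import Fermat.Agent.S18lib.Norm.OfGauss
import Fermat.Agent.S44lib.Q5.RedOmegaTr
import Fermat.Agent.S44lib.Q5.OmegaOf

set_option autoImplicit false
set_option linter.unusedSectionVars false
set_option linter.style.haveILetI false

noncomputable section

namespace Fermat.Agent.S44lib.Q5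

open Module Polynomial IsDedekindDomain AlgebraicCurve IntermediateField
open Fermat.Agent.ProgramR Fermat.Agent.ProgramR.RR Fermat.Agent.ProgramR.Alg
open Fermat.Agent.S18lib Fermat.Agent.S18lib.RRgen

/-! ### the core: one polynomial chart reduces -/

section Core

variable {L : Type*} [Field L] {A : ValuationSubring L}
variable {F : Type*} [Field F] [Algebra L F] [Algebra (RatFunc L) F]
  [IsScalarTower L (RatFunc L) F]
variable {Fk : Type*} [Field Fk] [Algebra (IsLocalRing.ResidueField A) Fk]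
  [Algebra (RatFunc (IsLocalRing.ResidueField A)) Fk]
  [IsScalarTower (IsLocalRing.ResidueField A) (RatFunc (IsLocalRing.ResidueField A)) Fk]
variable [FiniteDimensional (RatFunc L) F]
  [FiniteDimensional (RatFunc (IsLocalRing.ResidueField A)) Fk]

local notation "k" => IsLocalRing.ResidueField A

/-- **the polynomial trace condition reduces** along a Gauss datum, for a chart `t` with a frame
and the lifting property `B_k = red (B_A)` -/
theorem TrInt.red (G : GaussDatum A F Fk)
    (hbase : ∀ q : RatFunc L, algebraMap (RatFunc L) F q ∈ G.O →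
      ∃ qb : RatFunc k, G.redF (algebraMap (RatFunc L) F q) = algebraMap (RatFunc k) Fk qb)
    (hdeg : finrank (RatFunc L) F = finrank (RatFunc k) Fk)
    {t : F} {n : ℕ} {θ : Fin n → F} (hfr : WFrame.IsFrameFamily G t θ)
    (hlift : ∀ φ : Fk, IsIntegral (Algebra.adjoin k ({G.redF t} : Set Fk)) φ →
      ∃ f : F, f ∈ G.O ∧ IsIntegral (Algebra.adjoin L ({t} : Set F)) f ∧ G.redF f = φ)
    {h : F} (hO : h ∈ G.O) (hT : TrInt L F t h) : TrInt k Fk (G.redF t) (G.redF h) := by
  intro φ hφ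
  obtain ⟨f, hfO, hfI, rfl⟩ := hlift φ hφ
  have hx : h * f ∈ G.O := G.O.mul_mem _ _ hO hfO
  obtain ⟨hmem, hred⟩ := (Norm.RedExt.ofGaussDatum G hbase hdeg).exists_trace_mem ⟨h * f, hx⟩
  have h1 := Norm.RedExt.algebraMap_ofGaussDatum_red₀ G hbase hdeg ⟨_, hmem⟩
  rw [hred, Norm.RedExt.ofGaussDatum_red_apply] at h1
  have h2 : G.redF (h * f) = G.redF h * G.redF f := G.redF_mul hO hfO
  rw [← h2, h1]
  obtain ⟨P, hP⟩ := exists_aeval_eq_of_mem_adjoin (K := L) t ⟨_, hT f hfI⟩
  have hP' : aeval t P = algebraMap (RatFunc L) F (Algebra.trace (RatFunc L) F (h * f)) := hP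
  have hPO : aeval t P ∈ G.O := by rw [hP']; exact hmem
  have hPA := Norm.coeff_mem_of_aeval_mem hfr P hPO
  rw [← hP', Norm.redF_aeval G hfr.y_mem P hPA]
  exact aeval_mem_adjoin _ _

end Core

/-! ### both charts: `Ω(0)` reduces (RRgen setting on both sides) -/

section Two

variable {L : Type*} [Field L] [IsAlgClosed L] {A : ValuationSubring L}
  [IsAlgClosed (IsLocalRing.ResidueField A)]
  (F : Type*) [Field F] [Algebra (RatFunc L) F] [FiniteDimensional (RatFunc L) F]
  [Algebra.IsSeparable (RatFunc L) F] [Algebra L F] [IsScalarTower L (RatFunc L) F]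
  (B : Type*) [CommRing B] [IsDedekindDomain B] [Algebra L[X] B] [Module.Finite L[X] B]
  [IsTorsionFree L[X] B] [Algebra B F] [IsFractionRing B F] [Algebra L[X] F]
  [IsScalarTower L[X] (RatFunc L) F] [IsScalarTower L[X] B F]
  [Algebra L B] [IsScalarTower L B F]
  (Binf : Type*) [CommRing Binf] [IsDedekindDomain Binf] [Algebra (Ainf L) Binf]
  [Module.Finite (Ainf L) Binf] [IsTorsionFree (Ainf L) Binf] [Algebra Binf F]
  [IsFractionRing Binf F] [Algebra (Ainf L) F] [IsScalarTower (Ainf L) (RatFunc L) F]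
  [IsScalarTower (Ainf L) Binf F]
  [Algebra L Binf] [IsScalarTower L Binf F]
  (Fk : Type*) [Field Fk] [Algebra (RatFunc (IsLocalRing.ResidueField A)) Fk]
  [FiniteDimensional (RatFunc (IsLocalRing.ResidueField A)) Fk]
  [Algebra.IsSeparable (RatFunc (IsLocalRing.ResidueField A)) Fk]
  [Algebra (IsLocalRing.ResidueField A) Fk]
  [IsScalarTower (IsLocalRing.ResidueField A) (RatFunc (IsLocalRing.ResidueField A)) Fk]
  (Bk : Type*) [CommRing Bk] [IsDedekindDomain Bk] [Algebra (IsLocalRing.ResidueField A)[X] Bk]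
  [Module.Finite (IsLocalRing.ResidueField A)[X] Bk]
  [IsTorsionFree (IsLocalRing.ResidueField A)[X] Bk] [Algebra Bk Fk] [IsFractionRing Bk Fk]
  [Algebra (IsLocalRing.ResidueField A)[X] Fk]
  [IsScalarTower (IsLocalRing.ResidueField A)[X] (RatFunc (IsLocalRing.ResidueField A)) Fk]
  [IsScalarTower (IsLocalRing.ResidueField A)[X] Bk Fk]
  [Algebra (IsLocalRing.ResidueField A) Bk] [IsScalarTower (IsLocalRing.ResidueField A) Bk Fk]
  (Bkinf : Type*) [CommRing Bkinf] [IsDedekindDomain Bkinf]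
  [Algebra (Ainf (IsLocalRing.ResidueField A)) Bkinf]
  [Module.Finite (Ainf (IsLocalRing.ResidueField A)) Bkinf]
  [IsTorsionFree (Ainf (IsLocalRing.ResidueField A)) Bkinf] [Algebra Bkinf Fk]
  [IsFractionRing Bkinf Fk] [Algebra (Ainf (IsLocalRing.ResidueField A)) Fk]
  [IsScalarTower (Ainf (IsLocalRing.ResidueField A)) (RatFunc (IsLocalRing.ResidueField A)) Fk]
  [IsScalarTower (Ainf (IsLocalRing.ResidueField A)) Bkinf Fk]
  [Algebra (IsLocalRing.ResidueField A) Bkinf]
  [IsScalarTower (IsLocalRing.ResidueField A) Bkinf Fk]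

local notation "k" => IsLocalRing.ResidueField A

/-- **`Ω(0)` reduces into `Ω(0)`** (RRgen setting on both sides; the lifting properties of the two
polynomial charts `x`, `x⁻¹` as hypotheses) -/
theorem redF_mem_Omega_zero (G : GaussDatum A F Fk) {n : ℕ} {θ : Fin n → F}
    (hfr : WFrame.IsFrameFamily G (RRgen.xF L F) θ)
    (hx : G.redF (RRgen.xF L F) = RRgen.xF k Fk)
    (hdeg : finrank (RatFunc L) F = finrank (RatFunc k) Fk)
    (hlift₁ : ∀ φ : Fk, IsIntegral (Algebra.adjoin k ({G.redF (RRgen.xF L F)} : Set Fk)) φ →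
      ∃ f : F, f ∈ G.O ∧ IsIntegral (Algebra.adjoin L ({RRgen.xF L F} : Set F)) f ∧ G.redF f = φ)
    (hlift₂ : ∀ φ : Fk, IsIntegral (Algebra.adjoin k ({G.redF (RRgen.xF L F)⁻¹} : Set Fk)) φ →
      ∃ f : F, f ∈ G.O ∧ IsIntegral (Algebra.adjoin L ({(RRgen.xF L F)⁻¹} : Set F)) f ∧
        G.redF f = φ)
    {h : F} (hΩ : h ∈ Omega L F B Binf 0) (hO : h ∈ G.O) :
    G.redF h ∈ Omega k Fk Bk Bkinf 0 := by
  rw [mem_Omega_zero_iff] at hΩ ⊢
  obtain ⟨h1, h2⟩ := hΩ
  have hbase := Norm.exists_ratFunc_of_frame G hfr hx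
  have hxO : RRgen.xF L F ∈ G.O := hfr.y_mem
  have hx2O : RRgen.xF L F ^ 2 * h ∈ G.O := G.O.mul_mem _ _ (G.O.pow_mem hxO 2) hO
  have r1 := TrInt.red G hbase hdeg hfr hlift₁ hO h1
  have r2 := TrInt.red G hbase hdeg hfr.inv hlift₂ hx2O h2
  rw [hx] at r1
  rw [G.redF_inv hfr.redF_y_ne_zero, G.redF_mul (G.O.pow_mem hxO 2) hO, G.redF_pow hxO, hx] at r2
  exact ⟨r1, r2⟩

end Two

/-! ### the lifting property of the two charts from equal genus -/

section Lift

variable {L : Type*} [Field L] [IsAlgClosed L] [CharZero L] {A : ValuationSubring L}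
  [IsAlgClosed (IsLocalRing.ResidueField A)]
  {F : Type*} [Field F] [Algebra L F]
  {Fk : Type*} [Field Fk] [Algebra (IsLocalRing.ResidueField A) Fk]

local notation "k" => IsLocalRing.ResidueField A

/-- `B_k = red (B_A)` on the chart `y` (equal genus and equal degree) -/
theorem exists_lift_chart (G : GaussDatum A F Fk) {y : F} {n : ℕ} {θ : Fin n → F}
    (hfr : WFrame.IsFrameFamily G y θ) (hy : Transcendental L y) [FiniteDimensional L⟮y⟯ F]
    (hyk : Transcendental k (G.redF y)) [FiniteDimensional k⟮G.redF y⟯ Fk]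
    [Algebra.IsSeparable k⟮G.redF y⟯ Fk]
    {g : ℕ} (hF : IsCurveOfGenus L F g) (hFk : IsCurveOfGenus k Fk g)
    (hdeg : finrank L⟮y⟯ F = finrank k⟮G.redF y⟯ Fk)
    (φ : Fk) (hφ : IsIntegral (Algebra.adjoin k ({G.redF y} : Set Fk)) φ) :
    ∃ f : F, f ∈ G.O ∧ IsIntegral (Algebra.adjoin L ({y} : Set F)) f ∧ G.redF f = φ := by
  have := hF.hasPrincipalDivisors
  have := hFk.hasPrincipalDivisors
  have : Algebra.IsSeparable L⟮y⟯ F := Algebra.IsAlgebraic.isSeparable_of_perfectField
  refine G.exists_lift_of_isIntegral hfr hy hF hFk ?_ hφ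
  rw [degree_polesOf_eq_finrank_adjoin L hy, degree_polesOf_eq_finrank_adjoin k hyk, hdeg]

/-- `B_k = red (B_A)` on the chart `y⁻¹` -/
theorem exists_lift_chart_inv (G : GaussDatum A F Fk) {y : F} {n : ℕ} {θ : Fin n → F}
    (hfr : WFrame.IsFrameFamily G y θ) (hy : Transcendental L y) [FiniteDimensional L⟮y⟯ F]
    (hyk : Transcendental k (G.redF y)) [FiniteDimensional k⟮G.redF y⟯ Fk]
    [Algebra.IsSeparable k⟮G.redF y⟯ Fk]
    {g : ℕ} (hF : IsCurveOfGenus L F g) (hFk : IsCurveOfGenus k Fk g)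
    (hdeg : finrank L⟮y⟯ F = finrank k⟮G.redF y⟯ Fk)
    (φ : Fk) (hφ : IsIntegral (Algebra.adjoin k ({G.redF y⁻¹} : Set Fk)) φ) :
    ∃ f : F, f ∈ G.O ∧ IsIntegral (Algebra.adjoin L ({y⁻¹} : Set F)) f ∧ G.redF f = φ := by
  have hinv : G.redF y⁻¹ = (G.redF y)⁻¹ := G.redF_inv hfr.redF_y_ne_zero
  have : FiniteDimensional L⟮y⁻¹⟯ F := by rw [FF.adjoin_inv_eq (K := L) y]; infer_instance
  have hyk' : Transcendental k (G.redF y⁻¹) := by rw [hinv]; exact FF.transcendental_inv hyk
  have : FiniteDimensional k⟮G.redF y⁻¹⟯ Fk := by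
    rw [hinv, FF.adjoin_inv_eq (K := k) (G.redF y)]; infer_instance
  have : Algebra.IsSeparable k⟮G.redF y⁻¹⟯ Fk := by
    rw [hinv, FF.adjoin_inv_eq (K := k) (G.redF y)]; infer_instance
  have hdeg' : finrank L⟮y⁻¹⟯ F = finrank k⟮G.redF y⁻¹⟯ Fk := by
    rw [hinv, FF.adjoin_inv_eq (K := k) (G.redF y), FF.adjoin_inv_eq (K := L) y]
    exact hdeg
  exact exists_lift_chart G hfr.inv (FF.transcendental_inv hy) hyk' hF hFk hdeg' φ hφ

end Lift

/-! ### the instance-free form -/

section Of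

open Fermat.Agent.S18lib.RRgen.Canonical

attribute [local instance] Canonical.isScalarTower_const_poly Canonical.isScalarTower_ainf_ratFunc
  Canonical.isScalarTower_const_ainf Canonical.algebraBInf Canonical.isScalarTower_const_BFin
  Canonical.isScalarTower_const_BInf Canonical.isTorsionFree_BFin Canonical.isTorsionFree_BInf
  Canonical.isFractionRing_BFin Canonical.isDedekindDomain_BFin Canonical.finite_BFin
  Canonical.isFractionRing_BInf Canonical.isDedekindDomain_BInf Canonical.finite_BInf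

variable {L : Type*} [Field L] [IsAlgClosed L] [CharZero L] {A : ValuationSubring L}
  [IsAlgClosed (IsLocalRing.ResidueField A)]
  {F : Type*} [Field F] [Algebra L F]
  {Fk : Type*} [Field Fk] [Algebra (IsLocalRing.ResidueField A) Fk]

local notation "k" => IsLocalRing.ResidueField A

/-- **Q5 block B, abstract form**: along a Gauss datum with a frame `(x, θ)`, equal degrees over
`L(x)`, `k(x̄)` and EQUAL GENUS, regular differentials `h dx` with `h ∈ O` reduce to regular
differentials `h̄ dx̄`. -/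
theorem redF_mem_OmegaOf (G : GaussDatum A F Fk) {x : F} {n : ℕ} {θ : Fin n → F}
    (hfr : WFrame.IsFrameFamily G x θ)
    (hx : Transcendental L x) [FiniteDimensional L⟮x⟯ F] [Algebra.IsSeparable L⟮x⟯ F]
    {xk : Fk} (hred : G.redF x = xk) (hxk : Transcendental k xk) [FiniteDimensional k⟮xk⟯ Fk]
    [Algebra.IsSeparable k⟮xk⟯ Fk]
    {g : ℕ} (hF : IsCurveOfGenus L F g) (hFk : IsCurveOfGenus k Fk g)
    (hdeg : finrank L⟮x⟯ F = finrank k⟮xk⟯ Fk)
    {h : F} (hΩ : h ∈ OmegaOf L hx) (hO : h ∈ G.O) : G.redF h ∈ OmegaOf k hxk := by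
  subst hred
  letI := polyAlgebra L x
  letI := ratFuncAlgebra L hx
  haveI := isScalarTower_poly_ratFunc L hx
  haveI := isScalarTower_const_ratFunc L hx
  haveI := finiteDimensional_ratFunc L hx
  haveI := isSeparable_ratFunc L hx
  letI := polyAlgebra k (G.redF x)
  letI := ratFuncAlgebra k hxk
  haveI := isScalarTower_poly_ratFunc k hxk
  haveI := isScalarTower_const_ratFunc k hxk
  haveI := finiteDimensional_ratFunc k hxk
  haveI := isSeparable_ratFunc k hxk
  have hxF : RRgen.xF L F = x := algebraMap_ratFuncAlgebra_X L hx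
  have hxFk : RRgen.xF k Fk = G.redF x := algebraMap_ratFuncAlgebra_X k hxk
  have hdeg' : finrank (RatFunc L) F = finrank (RatFunc k) Fk := by
    rw [finrank_ratFunc L hx, finrank_ratFunc k hxk, hdeg]
  have hΩ' : h ∈ Omega L F (BFin L F) (BInf L F) 0 := hΩ
  show G.redF h ∈ Omega k Fk (BFin k Fk) (BInf k Fk) 0
  refine redF_mem_Omega_zero F (BFin L F) (BInf L F) Fk (BFin k Fk) (BInf k Fk) G
    (θ := θ) ?_ ?_ hdeg' ?_ ?_ hΩ' hO
  · rw [hxF]; exact hfr
  · rw [hxF, hxFk]
  · rw [hxF]; exact exists_lift_chart G hfr hx hxk hF hFk hdeg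
  · rw [hxF]; exact exists_lift_chart_inv G hfr hx hxk hF hFk hdeg

end Of

end Fermat.Agent.S44lib.Q5
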