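/-
S44lib / Q5 / RedOmegaInst (helper6)

**Q5 block B at level `M`**: for the unconditional Gauss datum `V.gaussDatum M A hpM hA` of
`X₀(M)` (`p ∤ M`, `A` over `p`), regular differentials `h dj` with `h` Gauss-integral reduce to
regular differentials `h̄ dj̄` of `FRes A M`:
`h ∈ OmegaOf Q̄ (transcendental j) → h ∈ O → red h ∈ OmegaOf k (transcendental j̄)`
(the right hand side is `Q5.OmegaK A M hA hpM` of `Q5/Iface` by `rfl`).
Inputs: the frame `(j, θ)`, `red j = j̄`, `[FBar M : Q̄(j)] = [FRes A M : k(j̄)]` (`Weak/Level`) and the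
unconditional genus equality `S37lib.B3.exists_genus_level`.
-/
import Mathlib
import Fermat.Agent.S18lib.Weak.Level
import Fermat.Agent.S37lib.B3.Unique
import Fermat.Agent.S37lib.B3.Inst
import Fermat.Agent.S44lib.Q5.RedOmega

set_option autoImplicit false
set_option linter.unusedSectionVars false
set_option linter.style.haveILetI false

noncomputable section

namespace Fermat.Agent.S44lib.Q5

open Module AlgebraicCurve ModularCurve IntermediateField
open Fermat.Agent.S18lib

local notation "Qb" => AlgebraicClosure ℚ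

variable {M : ℕ} [NeZero M] {p : ℕ} [Fact p.Prime] {A : ValuationSubring (AlgebraicClosure ℚ)}

/-- `FBar M / Q̄(j)` is separable (characteristic zero); instance search does not find it alone -/
theorem isSeparable_jF (M : ℕ) [NeZero M] : Algebra.IsSeparable Qb⟮Gin0.jF M⟯ (FBar M) := by
  have : Algebra.IsAlgebraic Qb⟮Gin0.jF M⟯ (FBar M) := Algebra.IsAlgebraic.of_finite _ _
  exact Algebra.IsAlgebraic.isSeparable_of_perfectField

/-- **Q5 block B at level `M`** (any transcendence proofs / instances on both sides) -/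
theorem redF_mem_OmegaOf_level (hpM : ¬ p ∣ M) (hA : A.LiesOverPrime p)
    (hx : Transcendental Qb (Gin0.jF M)) [Algebra.IsSeparable Qb⟮Gin0.jF M⟯ (FBar M)]
    (hxk : Transcendental (kRes A) (Gink.jK A M))
    [Algebra.IsSeparable (kRes A)⟮Gink.jK A M⟯ (FRes A M)]
    {h : FBar M} (hΩ : h ∈ OmegaOf Qb hx) (hO : h ∈ (V.gaussDatum M A hpM hA).O) :
    (V.gaussDatum M A hpM hA).redF h ∈ OmegaOf (kRes A) hxk := by
  obtain ⟨g, hF, hFk⟩ := S37lib.B3.exists_genus_level M A hpM hA
    (S37lib.B3.reductionInputsModL M A hpM hA)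
  have hred := V.gaussDatum_redF_jF M A hpM hA
  have hdeg : finrank Qb⟮Gin0.jF M⟯ (FBar M) = finrank (kRes A)⟮Gink.jK A M⟯ (FRes A M) := by
    rw [Gin0.finrank_jF, Gink.finrank_jK A M hA hpM]
  exact redF_mem_OmegaOf (V.gaussDatum M A hpM hA) (V.gaussDatum_isFrameFamily_jF M A hpM hA)
    hx hred hxk hF hFk hdeg hΩ hO

/-- **Q5 block B at level `M`**, in the shape of `Q5.OmegaK A M hA hpM` -/
theorem redF_mem_OmegaK (hpM : ¬ p ∣ M) (hA : A.LiesOverPrime p)
    [Algebra.IsSeparable Qb⟮Gin0.jF M⟯ (FBar M)]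
    {h : FBar M} (hΩ : h ∈ OmegaOf Qb (Gin0.transcendental_jF M))
    (hO : h ∈ (V.gaussDatum M A hpM hA).O) :
    haveI := Gink.isSeparable_jK A M hA hpM
    (V.gaussDatum M A hpM hA).redF h ∈ OmegaOf (kRes A) (Gink.transcendental_jK A M) := by
  haveI := Gink.isSeparable_jK A M hA hpM
  exact redF_mem_OmegaOf_level hpM hA _ _ hΩ hO

end Fermat.Agent.S44lib.Q5
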