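/-
S44 library, block Q5/C2 (helper8): **the lattice of integral cusp forms and its reduction**.

`Λ = CuspForm.intLattice M' 2` (free of finite rank over `ℤ`, Prelude).

* `intCoeff f n : ℤ`, `intCoeffLin : Λ →ₗ[ℤ] (ℕ → ℤ)` (injective), `redLin k : Λ →ₗ[ℤ] (ℕ → k)`;
  `isRedOf_iff` : helper2's `IsRedOf k f c ↔ ∃ h : f ∈ Λ, c = redLin k ⟨f, h⟩`;
* `linearIndependent_map_algebraMap` : vectors with coordinates in a subfield `K ⊆ L` which are
  `K`-independent are `L`-independent (separating `K`-linear functionals `L → K`);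
* `finrank_intLattice` : `rank_ℤ Λ = dim_ℂ S₂(Γ₀(M'))` (S23 + `q`-expansion principle);
* `saturated` : `f ∈ Λ` with all coefficients divisible by `p` is `p • h`, `h ∈ Λ`;
* `finrank_redSpan` : for a field `k` of characteristic `p`,
  `dim_k (span_k {reductions}) = dim_ℂ S₂(Γ₀(M'))`.
-/
import Mathlib
import Fermat.Agent.Helper8.QCoeff
import Fermat.Agent.S23
import Fermat.Agent.S44lib.Q5.Lift
import Fermat.Prelude.Def_CuspForm_HeckeLocal

set_option autoImplicit false
set_option linter.unusedSectionVars false

noncomputable section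

namespace Fermat.Agent.S44lib.Q5

open CuspForm ModularFormClass CongruenceSubgroup Fermat.Agent.Helper8

/-! ### base change of linear independence -/

section BaseChange

variable {K L : Type*} [Field K] [Field L] [Algebra K L] {ι X : Type*}

/-- vectors with coordinates in `K` which are `K`-linearly independent stay independent over an
extension field `L` -/
theorem linearIndependent_map_algebraMap (a : ι → X → K) (ha : LinearIndependent K a) :
    LinearIndependent L (fun i => fun x => algebraMap K L (a i x)) := by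
  rw [linearIndependent_iff'] at ha ⊢
  intro s g hg i hi
  rw [← Module.forall_dual_apply_eq_zero_iff K]
  intro φ
  refine ha s (fun i => φ (g i)) ?_ i hi
  funext x
  have h1 := congrFun hg x
  simp only [Finset.sum_apply, Pi.smul_apply, smul_eq_mul, Pi.zero_apply] at h1 ⊢
  have h2 := congrArg φ h1
  rw [map_sum, map_zero] at h2
  rw [← h2]
  apply Finset.sum_congr rfl
  intro j _
  have : g j * algebraMap K L (a j x) = a j x • g j := by
    rw [Algebra.smul_def, mul_comm]
  rw [this, map_smul, smul_eq_mul, mul_comm]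

end BaseChange

variable {M' : ℕ} [NeZero M']

local notation "S2" => CuspForm (Gamma0 M') 2

/-! ### integer coefficients -/

/-- the `n`-th (integer) coefficient of an integral form -/
def intCoeff (f : ↥(intLattice M' 2)) (n : ℕ) : ℤ :=
  Classical.choose ((mem_intLattice_iff (f : S2)).1 f.2 n)

theorem intCoeff_spec (f : ↥(intLattice M' 2)) (n : ℕ) : qCoeff ⇑(f : S2) n = (intCoeff f n : ℂ) :=
  Classical.choose_spec ((mem_intLattice_iff (f : S2)).1 f.2 n)

theorem intCoeff_eq_of {f : ↥(intLattice M' 2)} {n : ℕ} {m : ℤ} (h : qCoeff ⇑(f : S2) n = (m : ℂ)) :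
    intCoeff f n = m := by
  have := (intCoeff_spec f n).symm.trans h
  exact_mod_cast this

/-- the integer coefficient sequence, as a `ℤ`-linear map -/
def intCoeffLin : ↥(intLattice M' 2) →ₗ[ℤ] (ℕ → ℤ) where
  toFun f := intCoeff f
  map_add' f g := by
    funext n
    apply intCoeff_eq_of
    rw [Submodule.coe_add, qCoeff_add, intCoeff_spec, intCoeff_spec, Pi.add_apply, Int.cast_add]
  map_smul' c f := by
    funext n
    apply intCoeff_eq_of
    rw [Submodule.coe_smul, qCoeff_zsmul, intCoeff_spec]
    simp

@[simp] theorem intCoeffLin_apply (f : ↥(intLattice M' 2)) (n : ℕ) : intCoeffLin f n = intCoeff f n := rfl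

theorem intCoeffLin_injective : Function.Injective (intCoeffLin (M' := M')) := by
  rw [← LinearMap.ker_eq_bot, LinearMap.ker_eq_bot']
  intro f hf
  apply Subtype.ext
  apply eq_zero_of_qCoeff_eq_zero
  intro n
  rw [intCoeff_spec]
  have := congrFun hf n
  simp only [intCoeffLin_apply, Pi.zero_apply] at this
  rw [this, Int.cast_zero]

/-- the `q`-coefficients as a `ℂ`-linear map -/
def qCoeffLin : S2 →ₗ[ℂ] (ℕ → ℂ) where
  toFun f := fun n => qCoeff ⇑f n
  map_add' f g := by funext n; exact qCoeff_add f g n
  map_smul' c f := by funext n; exact qCoeff_smul c f n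

theorem qCoeffLin_coe (f : ↥(intLattice M' 2)) : qCoeffLin (f : S2) = fun n => ((intCoeff f n : ℤ) : ℂ) := by
  funext n; exact intCoeff_spec f n

section Red

variable (k : Type*) [CommRing k]

/-- reduction of the coefficient sequence into a ring `k` -/
def redLin : ↥(intLattice M' 2) →ₗ[ℤ] (ℕ → k) :=
  ((Int.castAddHom k).toIntLinearMap.compLeft ℕ).comp intCoeffLin

@[simp] theorem redLin_apply (f : ↥(intLattice M' 2)) (n : ℕ) : redLin k f n = ((intCoeff f n : ℤ) : k) := rfl

end Red

section Field

variable (k : Type*) [Field k]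

theorem isRedOf_redLin (f : ↥(intLattice M' 2)) : IsRedOf k (f : S2) (redLin k f) :=
  ⟨intCoeff f, fun n => (intCoeff_spec f n).symm, fun _ => rfl⟩

theorem isRedOf_iff (f : S2) (c : ℕ → k) :
    IsRedOf k f c ↔ ∃ h : f ∈ intLattice M' 2, c = redLin k ⟨f, h⟩ := by
  constructor
  · rintro ⟨z, hz, hc⟩
    have hf : f ∈ intLattice M' 2 := (mem_intLattice_iff f).2 (fun n => ⟨z n, (hz n).symm⟩)
    refine ⟨hf, ?_⟩
    funext n
    rw [hc n, redLin_apply]
    congr 1
    exact (intCoeff_eq_of (f := ⟨f, hf⟩) (hz n).symm).symm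
  · rintro ⟨h, rfl⟩
    exact isRedOf_redLin k ⟨f, h⟩

/-- the span of the reductions -/
def redSpan : Submodule k (ℕ → k) :=
  Submodule.span k {c | ∃ f : S2, IsRedOf k f c}

theorem redSpan_eq : redSpan (M' := M') k = Submodule.span k (Set.range (redLin (M' := M') k)) := by
  unfold redSpan
  congr 1
  ext c
  constructor
  · rintro ⟨f, hf⟩
    obtain ⟨h, rfl⟩ := (isRedOf_iff k f c).1 hf
    exact ⟨⟨f, h⟩, rfl⟩
  · rintro ⟨f, rfl⟩
    exact ⟨f, isRedOf_redLin k f⟩

end Field

/-! ### the rank of the lattice -/

/-- **`rank_ℤ Λ = dim_ℂ S₂`** -/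
theorem finrank_intLattice :
    Module.finrank ℤ ↥(intLattice M' 2) = Module.finrank ℂ S2 := by
  have := intLattice.moduleFinite M'
  have := intLattice.moduleFree M'
  set b := Module.Free.chooseBasis ℤ ↥(intLattice M' 2) with hb
  -- the basis vectors are `ℂ`-independent in `S₂`
  have h1 : LinearIndependent ℤ (fun i => intCoeffLin (b i)) :=
    b.linearIndependent.map' intCoeffLin (LinearMap.ker_eq_bot.2 intCoeffLin_injective)
  set castQ : (ℕ → ℤ) →ₗ[ℤ] (ℕ → ℚ) := (Int.castAddHom ℚ).toIntLinearMap.compLeft ℕ with hcQ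
  have hcQinj : Function.Injective castQ := by
    intro x y hxy
    funext n
    have := congrFun hxy n
    simpa [hcQ] using this
  have h2 : LinearIndependent ℤ (fun i => castQ (intCoeffLin (b i))) :=
    h1.map' castQ (LinearMap.ker_eq_bot.2 hcQinj)
  have h3 : LinearIndependent ℚ (fun i => castQ (intCoeffLin (b i))) :=
    (LinearIndependent.iff_fractionRing ℤ ℚ).1 h2
  have h4 := linearIndependent_map_algebraMap (L := ℂ) _ h3
  have h5 : LinearIndependent ℂ (fun i => qCoeffLin ((b i : ↥(intLattice M' 2)) : S2)) := by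
    have he : (fun i => qCoeffLin ((b i : ↥(intLattice M' 2)) : S2)) =
        (fun i => fun x => algebraMap ℚ ℂ (castQ (intCoeffLin (b i)) x)) := by
      funext i n
      rw [qCoeffLin_coe]
      simp [hcQ]
    rw [he]; exact h4
  have h6 : LinearIndependent ℂ (fun i => ((b i : ↥(intLattice M' 2)) : S2)) :=
    LinearIndependent.of_comp qCoeffLin h5
  -- they span
  have hspan : Submodule.span ℂ (Set.range (fun i => ((b i : ↥(intLattice M' 2)) : S2))) = ⊤ := by
    have hS := Fermat.Agent.S23.result M'
    unfold CuspForm.HasIntegralStructure at hS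
    rw [eq_top_iff, ← hS, Submodule.span_le]
    intro f hf
    have hf' : (⟨f, hf⟩ : ↥(intLattice M' 2)) ∈ Submodule.span ℤ (Set.range b) := by
      rw [b.span_eq]; exact Submodule.mem_top
    have : f ∈ Submodule.span ℤ (Set.range (fun i => ((b i : ↥(intLattice M' 2)) : S2))) := by
      have h7 := Submodule.mem_map_of_mem (f := (intLattice M' 2).subtype) hf'
      rw [Submodule.map_span, ← Set.range_comp] at h7
      exact h7
    exact Submodule.span_subset_span ℤ ℂ _ this
  have hcard := finrank_span_eq_card h6
  rw [hspan, finrank_top] at hcard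
  rw [hcard, Module.finrank_eq_card_chooseBasisIndex]

/-! ### saturation and the reduction -/

/-- **saturation**: an integral form all of whose coefficients are divisible by `p` is `p` times an
integral form -/
theorem saturated (p : ℕ) (hp : p ≠ 0) (f : ↥(intLattice M' 2)) (hf : ∀ n, (p : ℤ) ∣ intCoeff f n) :
    ∃ h : ↥(intLattice M' 2), f = (p : ℤ) • h := by
  have hpC : (p : ℂ) ≠ 0 := by exact_mod_cast hp
  have hmem : ((p : ℂ)⁻¹ • (f : S2)) ∈ intLattice M' 2 := by
    rw [mem_intLattice_iff]
    intro n
    obtain ⟨m, hm⟩ := hf n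
    refine ⟨m, ?_⟩
    rw [qCoeff_smul, intCoeff_spec, hm]
    push_cast
    field_simp
  refine ⟨⟨_, hmem⟩, Subtype.ext ?_⟩
  rw [Submodule.coe_smul]
  show (f : S2) = (p : ℤ) • ((p : ℂ)⁻¹ • (f : S2))
  rw [← Int.cast_smul_eq_zsmul ℂ, smul_smul]
  push_cast
  rw [mul_inv_cancel₀ hpC, one_smul]

/-- **the reductions of a `ℤ`-basis of `Λ` are independent over every field of characteristic
`p`**, hence `dim_k (span of the reductions) = rank Λ = dim_ℂ S₂` -/
theorem finrank_redSpan (p : ℕ) [Fact p.Prime] (k : Type*) [Field k] [CharP k p] :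
    Module.finrank k ↥(redSpan (M' := M') k) = Module.finrank ℂ S2 := by
  have := intLattice.moduleFinite M'
  have := intLattice.moduleFree M'
  have hp : p.Prime := Fact.out
  set b := Module.Free.chooseBasis ℤ ↥(intLattice M' 2) with hb
  let _ : Algebra (ZMod p) k := ZMod.algebra k p
  -- independence over `𝔽_p`
  have h1 : LinearIndependent (ZMod p) (fun i => redLin (ZMod p) (b i)) := by
    rw [linearIndependent_iff']
    intro s g hg i hi
    -- lift the coefficients to `ℤ`
    set m : Module.Free.ChooseBasisIndex ℤ ↥(intLattice M' 2) → ℤ := fun j => if j ∈ s then (g j).val else 0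
      with hm
    set f : ↥(intLattice M' 2) := ∑ j ∈ s, m j • b j with hf
    have hfdvd : ∀ n, (p : ℤ) ∣ intCoeff f n := by
      intro n
      have h2 := congrFun hg n
      simp only [Finset.sum_apply, Pi.smul_apply, smul_eq_mul, Pi.zero_apply, redLin_apply] at h2
      have h3 : intCoeff f n = ∑ j ∈ s, m j * intCoeff (b j) n := by
        have := congrFun (map_sum (intCoeffLin (M' := M')) (fun j => m j • b j) s) n
        simp only [map_smul, Finset.sum_apply, Pi.smul_apply, smul_eq_mul, intCoeffLin_apply]
          at this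
        rw [hf]; exact this
      rw [h3, ← ZMod.intCast_zmod_eq_zero_iff_dvd]
      push_cast
      rw [← h2]
      apply Finset.sum_congr rfl
      intro j hj
      simp only [hm, hj, if_true]
      rw [Int.cast_natCast, ZMod.natCast_zmod_val]
    obtain ⟨h, hh⟩ := saturated p hp.ne_zero f hfdvd
    -- coordinates
    have hrepr : b.repr f i = m i := by
      rw [hf, map_sum, Finset.sum_apply']
      simp only [map_smul, Module.Basis.repr_self, Finsupp.smul_single, smul_eq_mul, mul_one]
      rw [Finset.sum_eq_single i]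
      · simp
      · intro j _ hji
        rw [Finsupp.single_apply, if_neg hji]
      · intro hni; exact absurd hi hni
    have hrepr2 : b.repr f i = (p : ℤ) * b.repr h i := by
      rw [hh, map_smul]; simp
    have hmi : (p : ℤ) ∣ m i := ⟨_, hrepr.symm.trans hrepr2⟩
    have hmi' : m i = ((g i).val : ℤ) := by simp only [hm, hi, if_true]
    rw [hmi'] at hmi
    have h4 : (((g i).val : ℤ) : ZMod p) = 0 := (ZMod.intCast_zmod_eq_zero_iff_dvd _ _).2 hmi
    rw [Int.cast_natCast, ZMod.natCast_zmod_val] at h4
    exact h4
  -- independence over `k`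
  have h2 := linearIndependent_map_algebraMap (L := k) _ h1
  have h3 : LinearIndependent k (fun i => redLin k (b i)) := by
    have he : (fun i => redLin k (b i)) =
        (fun i => fun x => algebraMap (ZMod p) k (redLin (ZMod p) (b i) x)) := by
      funext i n
      simp only [redLin_apply]
      rw [map_intCast (algebraMap (ZMod p) k)]
    rw [he]; exact h2
  -- the span
  have hspan : redSpan (M' := M') k = Submodule.span k (Set.range (fun i => redLin k (b i))) := by
    rw [redSpan_eq]
    apply le_antisymm
    · rw [Submodule.span_le]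
      rintro _ ⟨f, rfl⟩
      have hf' : f ∈ Submodule.span ℤ (Set.range b) := by
        rw [b.span_eq]; exact Submodule.mem_top
      have h7 := Submodule.mem_map_of_mem (f := redLin (M' := M') k) hf'
      rw [Submodule.map_span, ← Set.range_comp] at h7
      exact Submodule.span_subset_span ℤ k _ h7
    · apply Submodule.span_mono
      rintro _ ⟨i, rfl⟩
      exact ⟨b i, rfl⟩
  rw [hspan, finrank_span_eq_card h3, ← finrank_intLattice, Module.finrank_eq_card_chooseBasisIndex]

end Fermat.Agent.S44lib.Q5
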