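/-
S44 library, block Q5/C2 (helper8): **the span of the reductions has dimension the genus of the
reduced modular curve**.

For `A` a valuation subring of `ℚ̄` over a prime `q ∤ M'`:
`dim_{kRes A} (span of the reductions of integral weight-2 cusp forms of level M')
   = dim_ℂ S₂(Γ₀(M'))            -- `finrank_redSpan`
   = genusFormula M'              -- S20
   = g(FBar M') = g(FRes A M')    -- `S37lib.B3.exists_genus_level`.
-/
import Mathlib
import Fermat.Agent.S44lib.Q5.Lattice
import Fermat.Agent.S20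
import Fermat.Agent.S37lib.B3.Inst
import Fermat.Agent.S37lib.B3.Unique
import Fermat.Agent.S18lib.Gin0.RH
import Fermat.Agent.S18lib.Gin0.Genus
import Fermat.Agent.S18lib.RRgen.Canonical
import Fermat.Agent.S18lib.Gink.Bricks

set_option autoImplicit false

noncomputable section

namespace Fermat.Agent.S44lib.Q5

open CuspForm CongruenceSubgroup AlgebraicCurve ModularCurve Fermat.Agent.S18lib

variable (M' : ℕ) [NeZero M'] {q : ℕ} [Fact q.Prime]
variable (A : ValuationSubring (AlgebraicClosure ℚ))

/-- a genus of `FBar M'` is `dim_ℂ S₂(Γ₀(M'))` -/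
theorem genus_FBar_eq_finrank {g : ℕ} (hg : IsCurveOfGenus (AlgebraicClosure ℚ) (FBar M') g) :
    g = Module.finrank ℂ (CuspForm (Gamma0 M') 2) := by
  have h1 : (g : ℚ) = genusFormula M' := by
    obtain ⟨g', hF', hRH'⟩ := Gin0.exists_isCurveOfGenus_FBar M'
    rw [RRgen.Canonical.genus_unique hg hF']
    exact Gin0.genus_eq_genusFormula M' hRH'
  have h2 := Fermat.Agent.S20.result M'
  have h3 : (g : ℚ) = (Module.finrank ℂ (CuspForm (Gamma0 M') 2) : ℚ) := h1.trans h2.symm
  exact_mod_cast h3

/-- **the reduced curve `FRes A M'` has genus `dim_ℂ S₂(Γ₀(M'))`** -/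
theorem isCurveOfGenus_FRes_finrank (hqM : ¬ q ∣ M') (hA : A.LiesOverPrime q) :
    IsCurveOfGenus (kRes A) (FRes A M') (Module.finrank ℂ (CuspForm (Gamma0 M') 2)) := by
  obtain ⟨g, hF, hFk⟩ := S37lib.B3.exists_genus_level M' A hqM hA
    (S37lib.B3.reductionInputsModL M' A hqM hA)
  rw [← genus_FBar_eq_finrank M' hF]
  exact hFk

/-- **`dim (span of reductions) = genus of the reduced curve`** -/
theorem exists_genus_eq_finrank_redSpan (hqM : ¬ q ∣ M') (hA : A.LiesOverPrime q) :
    ∃ g : ℕ, IsCurveOfGenus (kRes A) (FRes A M') g ∧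
      Module.finrank (kRes A) ↥(redSpan (M' := M') (kRes A)) = g := by
  have : CharP (kRes A) q := Gink.charP_kRes A hA
  exact ⟨_, isCurveOfGenus_FRes_finrank M' A hqM hA, finrank_redSpan q (kRes A)⟩

/-- variant: for any genus `g` of the reduced curve -/
theorem finrank_redSpan_eq_genus (hqM : ¬ q ∣ M') (hA : A.LiesOverPrime q) {g : ℕ}
    (hg : IsCurveOfGenus (kRes A) (FRes A M') g) :
    Module.finrank (kRes A) ↥(redSpan (M' := M') (kRes A)) = g := by
  have : CharP (kRes A) q := Gink.charP_kRes A hA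
  rw [finrank_redSpan q (kRes A)]
  exact (RRgen.Canonical.genus_unique hg (isCurveOfGenus_FRes_finrank M' A hqM hA)).symm

end Fermat.Agent.S44lib.Q5
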